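import Fermat.Agent.LP.Nod.One
import Fermat.Agent.GS.Bridge.Approx

/-!
# LP-NOD bridge, file `ApproxP` (abstract): weak approximation to any precision

Same as `GS/Bridge/Approx.lean` (helper39), with `ϖ` replaced by `ϖ ^ k`.
`v₁, v₂` the two valuations, `e₁` with `v₁(e₁) = 0`, `v₂(e₁) ≥ 1`, `e₂` with `v₂(e₂) = 0`,
`v₁(e₂) ≥ 1`.  Put `E₂ = e₂^m / (e₁^m + e₂^m)`, `E₁ = 1 - E₂ = e₁^m / (e₁^m + e₂^m)`.  Then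
`E₂ / ϖ^m ∈ 𝒪₁` and `E₁ / ϖ^m ∈ 𝒪₂` (`e₁^m + e₂^m` is a unit of both rings:
`e₁` is a unit of `𝒪₁` by `GaussRing.unif`, `e₂^m ∈ ϖ 𝒪₁` for `m ≥ 1`).  `z := z₁ E₁ + z₂ E₂`:
`z / z₁ - 1 = E₂ (z₂ / z₁ - 1)`, `z / z₂ - 1 = E₁ (z₁ / z₂ - 1)`; choose `m ≥ k + k₁, k + k₂, 1` with
`ϖ^k₁ (z₂ / z₁ - 1) ∈ 𝒪₁`, `ϖ^k₂ (z₁ / z₂ - 1) ∈ 𝒪₂`.  (`z ≠ 0` for `k ≥ 1`; for `k = 0` use `k = 1`.)

`exists_common_powP`: `e₁, e₂` from `hC.sep₁`, `hC.sep₂`; `lam ϖ ∣ ϖ ^ k` for `k = l + 2`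
(`PUnif.exists_pow`); `z / zᵢ ≡ 1` modulo `lam ϖ`, so `(z / zᵢ) ^ p ≡ 1` modulo `lam ^ p ϖ`
(`One_pow_cg`) and `y z ^ p = (y zᵢ ^ p) (z / zᵢ) ^ p` (`Cg.mul`).
-/

set_option autoImplicit false

namespace Fermat.Agent.LP

open Fermat.Agent.GR.E Fermat.Agent.GS

variable {R : Type*} [CommRing R] [IsDomain R] [IsDiscreteValuationRing R]
variable {F : Type*} [Field F] [Algebra R F]
variable {ϖ : R} {𝒪₁ 𝒪₂ : ValuationSubring F}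

/-- one half of the estimate -/
theorem ApproxP_half {𝒪 : ValuationSubring F} (hG : GaussRing ϖ 𝒪) {e' D x : F} {n k k₁ : ℕ}
    (h' : e' / algebraMap R F ϖ ∈ 𝒪) (hD : D⁻¹ ∈ 𝒪) (hk : k + k₁ ≤ n)
    (hx : algebraMap R F ϖ ^ k₁ * x ∈ 𝒪) :
    (e' ^ (n + 1) / D * x) / algebraMap R F ϖ ^ (k + 1) ∈ 𝒪 := by
  have hπ := hG.ne_zero
  obtain ⟨d, rfl⟩ := Nat.exists_eq_add_of_le hk
  have e : (e' ^ (k + k₁ + d + 1) / D * x) / algebraMap R F ϖ ^ (k + 1) =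
      (e' / algebraMap R F ϖ) ^ (k + k₁ + d + 1) * D⁻¹ * algebraMap R F ϖ ^ d *
        (algebraMap R F ϖ ^ k₁ * x) := by
    rw [div_pow]
    have h1 : algebraMap R F ϖ ^ (k + k₁ + d + 1) =
        algebraMap R F ϖ ^ d * algebraMap R F ϖ ^ k₁ * algebraMap R F ϖ ^ (k + 1) := by ring
    rw [h1]
    have h2 := pow_ne_zero d hπ
    have h3 := pow_ne_zero k₁ hπ
    have h4 := pow_ne_zero (k + 1) hπ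
    by_cases hD0 : D = 0
    · subst hD0
      simp
    field_simp
  rw [e]
  exact 𝒪.mul_mem _ _ (𝒪.mul_mem _ _ (𝒪.mul_mem _ _ (𝒪.pow_mem h' _) hD) (𝒪.pow_mem hG.mem _)) hx

/-- lowering the precision by one -/
theorem ApproxP_cg_of_succ {𝒪 : ValuationSubring F} (hG : GaussRing ϖ 𝒪) {a : F} {k : ℕ}
    (h : (a - 1) / algebraMap R F ϖ ^ (k + 1) ∈ 𝒪) : Cg 𝒪 (ϖ ^ k) a 1 := by
  unfold Cg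
  have hπ := hG.ne_zero
  have e : (a - 1) / algebraMap R F (ϖ ^ k) =
      (a - 1) / algebraMap R F ϖ ^ (k + 1) * algebraMap R F ϖ := by
    rw [map_pow, pow_succ]
    field_simp
  rw [e]
  exact 𝒪.mul_mem _ _ h hG.mem

theorem exists_approxP (hG₁ : GaussRing ϖ 𝒪₁) (hG₂ : GaussRing ϖ 𝒪₂)
    (harch₁ : ∀ x : F, ∃ k : ℕ, algebraMap R F ϖ ^ k * x ∈ 𝒪₁)
    (harch₂ : ∀ x : F, ∃ k : ℕ, algebraMap R F ϖ ^ k * x ∈ 𝒪₂)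
    {e₁ e₂ : F} (he₁ : e₁ ∈ 𝒪₁) (he₁' : e₁ / algebraMap R F ϖ ∉ 𝒪₁)
    (he₁₂ : e₁ / algebraMap R F ϖ ∈ 𝒪₂)
    (he₂ : e₂ ∈ 𝒪₂) (he₂' : e₂ / algebraMap R F ϖ ∉ 𝒪₂) (he₂₁ : e₂ / algebraMap R F ϖ ∈ 𝒪₁)
    {z₁ z₂ : F} (hz₁ : z₁ ≠ 0) (hz₂ : z₂ ≠ 0) (k : ℕ) :
    ∃ z : F, z ≠ 0 ∧ Cg 𝒪₁ (ϖ ^ k) (z / z₁) 1 ∧ Cg 𝒪₂ (ϖ ^ k) (z / z₂) 1 := by
  obtain ⟨k₁, hk₁⟩ := harch₁ (z₂ / z₁ - 1)
  obtain ⟨k₂, hk₂⟩ := harch₂ (z₁ / z₂ - 1)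
  set n := k + max k₁ k₂ with hn
  obtain ⟨hD0, hD₁⟩ := Approx_unit hG₁ he₁ he₁' he₂₁ n
  obtain ⟨-, hD₂⟩ := Approx_unit hG₂ he₂ he₂' he₁₂ n
  rw [add_comm] at hD₂
  set D := e₁ ^ (n + 1) + e₂ ^ (n + 1) with hDdef
  have hz1 : ((z₁ * (e₁ ^ (n + 1) / D) + z₂ * (e₂ ^ (n + 1) / D)) / z₁ - 1) /
      algebraMap R F ϖ ^ (k + 1) ∈ 𝒪₁ := by
    have h1 := ApproxP_half (k := k) hG₁ he₂₁ hD₁
      (Nat.add_le_add_left (le_max_left k₁ k₂) k) hk₁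
    have h2 : (z₁ * (e₁ ^ (n + 1) / D) + z₂ * (e₂ ^ (n + 1) / D)) / z₁ - 1 =
        e₂ ^ (n + 1) / D * (z₂ / z₁ - 1) := by
      have h3 : e₁ ^ (n + 1) = D - e₂ ^ (n + 1) := by rw [hDdef]; ring
      rw [h3]
      field_simp
      ring
    rw [h2]
    exact h1
  have hz2 : ((z₁ * (e₁ ^ (n + 1) / D) + z₂ * (e₂ ^ (n + 1) / D)) / z₂ - 1) /
      algebraMap R F ϖ ^ (k + 1) ∈ 𝒪₂ := by
    have h1 := ApproxP_half (k := k) hG₂ he₁₂ hD₂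
      (Nat.add_le_add_left (le_max_right k₁ k₂) k) hk₂
    have h2 : (z₁ * (e₁ ^ (n + 1) / D) + z₂ * (e₂ ^ (n + 1) / D)) / z₂ - 1 =
        e₁ ^ (n + 1) / D * (z₁ / z₂ - 1) := by
      have h3 : e₂ ^ (n + 1) = D - e₁ ^ (n + 1) := by rw [hDdef]; ring
      rw [h3]
      field_simp
      ring
    rw [h2]
    exact h1
  refine ⟨_, ?_, ApproxP_cg_of_succ hG₁ hz1, ApproxP_cg_of_succ hG₂ hz2⟩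
  intro h0
  rw [h0, zero_div, zero_sub] at hz1
  apply hG₁.inv_not_mem
  have hπ := hG₁.ne_zero
  have e : (algebraMap R F ϖ)⁻¹ = -(-1 / algebraMap R F ϖ ^ (k + 1) * algebraMap R F ϖ ^ k) := by
    rw [pow_succ]
    field_simp
  rw [e]
  exact 𝒪₁.neg_mem _ (𝒪₁.mul_mem _ _ hz1 (𝒪₁.pow_mem hG₁.mem k))

theorem exists_common_powP (hϖ : Irreducible ϖ) (hG₁ : GaussRing ϖ 𝒪₁) (hG₂ : GaussRing ϖ 𝒪₂)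
    (harch₁ : ∀ x : F, ∃ k : ℕ, algebraMap R F ϖ ^ k * x ∈ 𝒪₁)
    (harch₂ : ∀ x : F, ∃ k : ℕ, algebraMap R F ϖ ^ k * x ∈ 𝒪₂)
    {C : Subalgebra R F} (hC : NodalChart ϖ 𝒪₁ 𝒪₂ C) {p : ℕ} {lam : R} (hU : PUnif ϖ p lam)
    {y z₁ z₂ : F} (hz₁ : z₁ ≠ 0) (hz₂ : z₂ ≠ 0)
    (h₁ : Cg 𝒪₁ (lam ^ p * ϖ) (y * z₁ ^ p) 1) (h₂ : Cg 𝒪₂ (lam ^ p * ϖ) (y * z₂ ^ p) 1) :
    ∃ z : F, z ≠ 0 ∧ Cg 𝒪₁ (lam ^ p * ϖ) (y * z ^ p) 1 ∧ Cg 𝒪₂ (lam ^ p * ϖ) (y * z ^ p) 1 := by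
  obtain ⟨e₁, he₁C, he₁₂, he₁'⟩ := hC.sep₁
  obtain ⟨e₂, he₂C, he₂₁, he₂'⟩ := hC.sep₂
  obtain ⟨l, v, hlam⟩ := hU.exists_pow hϖ
  obtain ⟨z, hz0, hz1, hz2⟩ := exists_approxP hG₁ hG₂ harch₁ harch₂ (hC.le₁ _ he₁C) he₁' he₁₂
    (hC.le₂ _ he₂C) he₂' he₂₁ hz₁ hz₂ (l + 2)
  have hR₁ : ∀ r : R, algebraMap R F r ∈ 𝒪₁ := fun r => hC.le₁ _ (C.algebraMap_mem r)
  have hR₂ : ∀ r : R, algebraMap R F r ∈ 𝒪₂ := fun r => hC.le₂ _ (C.algebraMap_mem r)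
  have hdvd : lam * ϖ ∣ ϖ ^ (l + 2) := by
    refine ⟨((v⁻¹ : Rˣ) : R), ?_⟩
    rw [hlam]
    calc ϖ ^ (l + 2) = ((v : R) * ((v⁻¹ : Rˣ) : R)) * ϖ ^ (l + 2) := by
          rw [Units.mul_inv, one_mul]
      _ = (v : R) * ϖ ^ (l + 1) * ϖ * ((v⁻¹ : Rˣ) : R) := by ring
  have hne : algebraMap R F (ϖ ^ (l + 2)) ≠ 0 := by
    rw [map_pow]
    exact pow_ne_zero _ hG₁.ne_zero
  have hne' : algebraMap R F (lam * ϖ) ≠ 0 := by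
    obtain ⟨c, hc⟩ := hdvd
    rw [hc, map_mul] at hne
    exact left_ne_zero_of_mul hne
  refine ⟨z, hz0, ?_, ?_⟩
  · have h3 : Cg 𝒪₁ (lam * ϖ) (z / z₁) 1 := hz1.of_dvd hR₁ hdvd hne
    have h4 : z / z₁ ∈ 𝒪₁ := h3.mem hR₁ hne' 𝒪₁.one_mem
    have h5 := h₁.mul (One_pow_cg hϖ hR₁ hU h3) (𝒪₁.pow_mem h4 p) 𝒪₁.one_mem
    have e : y * z₁ ^ p * (z / z₁) ^ p = y * z ^ p := by
      rw [div_pow]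
      field_simp
    rwa [e, one_mul] at h5
  · have h3 : Cg 𝒪₂ (lam * ϖ) (z / z₂) 1 := hz2.of_dvd hR₂ hdvd hne
    have h4 : z / z₂ ∈ 𝒪₂ := h3.mem hR₂ hne' 𝒪₂.one_mem
    have h5 := h₂.mul (One_pow_cg hϖ hR₂ hU h3) (𝒪₂.pow_mem h4 p) 𝒪₂.one_mem
    have e : y * z₂ ^ p * (z / z₂) ^ p = y * z ^ p := by
      rw [div_pow]
      field_simp
    rwa [e, one_mul] at h5

end Fermat.Agent.LP
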