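import Fermat.Agent.GS.Abs.Defs

/-!
# Project LP-NOD (shared by S33 and S44): the crux for `n = p = residue characteristic`

`R` is a DVR with uniformizer `ϖ` and residue characteristic `p`, containing `ζ_p = 1 + lam`.
`F` is a field which is an `R`-algebra (a function field over `Frac R`), `𝒪₁ 𝒪₂` are the Gauss
valuation subrings of `F` (the two components of the special fibre; in the smooth case one takes
`𝒪₁ = 𝒪₂`).  Everything is an adaptation of `GR/E` and `GS/Abs`, where `n` was invertible in `R`: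
"`≡ 1` modulo `ϖ`" is replaced by "`≡ 1` modulo `lam ^ p * ϖ`" for `w` and by
"`≡ 1` modulo `lam * ϖ`" for its `p`-th roots, and Newton's method for `X ^ n` is replaced by
`(1 + lam t) ^ p = 1 + lam ^ p (t ^ p - u t - u lam t ^ 2 g)`, where `p = - lam ^ (p-1) u`, `u ≡ 1`.
-/

set_option autoImplicit false

namespace Fermat.Agent.LP

open Fermat.Agent.GR.E Fermat.Agent.GS

variable {R : Type*} [CommRing R] {F : Type*} [Field F] [Algebra R F]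

/-- `lam` behaves like `ζ_p - 1`: `p = - lam ^ (p-1) u` with `u ≡ 1` modulo `ϖ`, and `ϖ ∣ lam`. -/
structure PUnif (ϖ : R) (p : ℕ) (lam : R) : Prop where
  prime : p.Prime
  ne_zero : lam ≠ 0
  dvd : ϖ ∣ lam
  eq : ∃ u : R, (p : R) = -(lam ^ (p - 1) * u) ∧ ϖ ∣ u - 1

/-- `x ≡ y` modulo `c 𝒪`. -/
def Cg (𝒪 : ValuationSubring F) (c : R) (x y : F) : Prop :=
  (x - y) / algebraMap R F c ∈ 𝒪

/-- Near `𝔪` the module `I(C) = rootSet C n w` contains an element which is congruent modulo `c`,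
on both components, to an element `e ∈ C ∖ 𝔪`. -/
def GlueAtP (𝒪₁ 𝒪₂ : ValuationSubring F) (c : R) (C : Subalgebra R F) (n : ℕ) (w : F)
    (𝔪 : Ideal C) : Prop :=
  ∃ b ∈ rootSet C n w, ∃ e : C, e ∉ 𝔪 ∧ Cg 𝒪₁ c b (e : F) ∧ Cg 𝒪₂ c b (e : F)

/-- One branch: `C / 𝔭` is a Dedekind domain with fraction field the residue field of `𝒪`. -/
structure Branch (ϖ : R) (𝒪 : ValuationSubring F) (C : Subalgebra R F) : Prop where
  le : ∀ x ∈ C, x ∈ 𝒪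
  frac : ∀ x ∈ 𝒪, ∃ b ∈ C, b / algebraMap R F ϖ ∉ 𝒪 ∧ x * b ∈ C
  ded : IsDedekindDomain (C ⧸ vert ϖ 𝒪 C)

/-- What is needed of the local ring `B` of a closed point of the special fibre
(`𝒪₁ = 𝒪₂` at a point which lies on one component only). -/
structure PLoc (ϖ : R) (p : ℕ) (𝒪₁ 𝒪₂ : ValuationSubring F) (B : Subalgebra R F) : Prop where
  sat2 : SatChart2 ϖ 𝒪₁ 𝒪₂ B
  jac : ∀ b ∈ B, (1 + algebraMap R F ϖ * b)⁻¹ ∈ B
  liftP : ∀ y h : F, y ∈ 𝒪₁ → y ∈ 𝒪₂ → h ∈ B → Cg 𝒪₁ ϖ (y ^ p) h → Cg 𝒪₂ ϖ (y ^ p) h →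
    ∃ b ∈ B, Cg 𝒪₁ ϖ y b ∧ Cg 𝒪₂ ϖ y b
  liftAS : ∀ z h : F, z ∈ 𝒪₁ → z ∈ 𝒪₂ → h ∈ B → Cg 𝒪₁ ϖ (z ^ p - z) h → Cg 𝒪₂ ϖ (z ^ p - z) h →
    ∃ b ∈ B, ∃ j : ℕ, Cg 𝒪₁ ϖ z b ∧ Cg 𝒪₂ ϖ z (b + (j : F))

end Fermat.Agent.LP
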