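import Fermat.Agent.LP.Defs
import Fermat.Agent.LP.Nod.Defs
import Fermat.Agent.GR.E.BR7

/-!
# LP-NOD bridge, file `BrGauss`: deep congruences of series give deep congruences in the Gauss ring

* `BrGauss_isGaussInt`: copy of `GR.E.BR7_isGaussInt` (`GR/E/BR7.lean`) with `ϖ` replaced by an
  arbitrary nonzero nonunit `c` of `R = A.comap φ`: `f := (a - b) / c`, `g := b`.  `f` is integral:
  `φ (f_m) = r ∈ A`.  `b` is primitive because `a` is and `a ≡ b` modulo `φ c A ⊆ 𝔪_A`.
* `DeepAt.change_root`: `ζ' = ζ ^ k` (`IsPrimitiveRoot.eq_pow_of_pow_eq_one`),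
  `ζ' - 1 = (ζ - 1) s`, `s = ∑_{i<k} ζ ^ i ∈ A` (`ζ ∈ A`: integral over `ℤ`, `A` is integrally closed:
  `ValuationSubring` contains every `x` with `x ^ p = 1`: if `x ∉ A` then `x⁻¹ ∈ 𝔪_A`,
  `1 = (x⁻¹) ^ p ∈ 𝔪_A`); `d := s ^ p d'`.
-/

set_option autoImplicit false
set_option synthInstance.maxHeartbeats 400000

noncomputable section

namespace Fermat.Agent.LP

open Fermat.Agent.GR Fermat.Agent.GR.E ModularCurve IntermediateField

/-- auxiliary: the maximal ideal is an ideal. -/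
theorem BrGauss_mul_mem_nonunits {K : Type*} [Field K] (A : ValuationSubring K) {x y : K}
    (hx : x ∈ A.nonunits) (hy : y ∈ A) : x * y ∈ A.nonunits := by
  rw [ValuationSubring.mem_nonunits_iff] at hx ⊢
  rw [map_mul]
  have hy' := (A.valuation_le_one_iff y).2 hy
  calc A.valuation x * A.valuation y ≤ A.valuation x * 1 := mul_le_mul_right hy' _
    _ = A.valuation x := mul_one _
    _ < 1 := hx

/-- auxiliary: the function fields increase with the level. -/
theorem BrGauss_FF_mono {N N' : ℕ} (h : N ∣ N') : FF Qb N ≤ FF Qb N' := by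
  apply IntermediateField.adjoin.mono
  rintro x ⟨d, hne, hd, rfl⟩
  exact ⟨d, hne, hd.trans h, rfl⟩

theorem BrGauss_isGaussInt {L : Type*} [Field L] (φ : L →+* Qb) (A : ValuationSubring Qb) (N : ℕ)
    (c : A.comap φ) (hc0 : c ≠ 0) (hc : ¬ IsUnit c)
    (a b : FF L N) (hb0 : b ≠ 0)
    (hpa : IsPrim A (coeffMap φ (a : LaurentSeries L)))
    (hib : IsInt A (coeffMap φ (b : LaurentSeries L)))
    (hab : ∀ m : ℤ, ∃ r ∈ A, (coeffMap φ (a : LaurentSeries L)).coeff m -
      (coeffMap φ (b : LaurentSeries L)).coeff m = φ (c : L) * r) :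
    IsGaussInt (A.comap φ) N ((a / b - 1) / algebraMap (A.comap φ) (FF L N) c) := by
  have hc0' : (c : L) ≠ 0 := fun h => hc0 (Subtype.ext h)
  have hφc0 : φ (c : L) ≠ 0 := (map_ne_zero φ).2 hc0'
  have hP0 : algebraMap (A.comap φ) (FF L N) c ≠ 0 := by
    intro h
    have h2 := congrArg (fun x : FF L N => (x : LaurentSeries L)) h
    simp only [BR7_coe_algebraMap] at h2
    apply hc0'
    have h3 := congrArg (fun x : LaurentSeries L => x.coeff 0) h2
    simpa using h3
  have hcm : φ (c : L) ∈ A.nonunits := by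
    rw [← BR7_mem_nonunits_comap, ValuationSubring.mem_nonunits_iff_exists_mem_maximalIdeal]
    exact ⟨c.2, (IsLocalRing.mem_maximalIdeal _).2 hc⟩
  refine ⟨((a - b) / algebraMap (A.comap φ) (FF L N) c : FF L N), b, SetLike.coe_mem _, b.2,
    ?_, ⟨?_, ?_⟩, ?_⟩
  · intro k
    have h1 : (((a - b) / algebraMap (A.comap φ) (FF L N) c : FF L N) : LaurentSeries L) *
        HahnSeries.C (c : L) = (a : LaurentSeries L) - (b : LaurentSeries L) := by
      rw [← BR7_coe_algebraMap (A.comap φ) N c]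
      have : ((a - b) / algebraMap (A.comap φ) (FF L N) c : FF L N) *
        algebraMap (A.comap φ) (FF L N) c = a - b := div_mul_cancel₀ _ hP0
      exact_mod_cast congrArg (fun x : FF L N => (x : LaurentSeries L)) this
    have h2 := congrArg (fun x : LaurentSeries L => x.coeff k) h1
    simp only [HahnSeries.coeff_sub] at h2
    rw [mul_comm, HahnSeries.C_mul_eq_smul, HahnSeries.coeff_smul, smul_eq_mul] at h2
    obtain ⟨r, hr, hab'⟩ := hab k
    rw [coeffMap_coeff, coeffMap_coeff, ← map_sub, ← h2, map_mul] at hab'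
    have h3 := mul_left_cancel₀ hφc0 hab'
    rw [ValuationSubring.mem_comap, h3]
    exact hr
  · intro k
    exact hib k
  · obtain ⟨k, hk⟩ := hpa.2
    refine ⟨k, ?_⟩
    rw [BR7_mem_nonunits_comap]
    intro hbk
    apply hk
    obtain ⟨r, hr, hab'⟩ := hab k
    have h1 : (coeffMap φ (a : LaurentSeries L)).coeff k -
        (coeffMap φ (b : LaurentSeries L)).coeff k ∈ A.nonunits := by
      rw [hab']
      exact BrGauss_mul_mem_nonunits A hcm hr
    have := BR7_add_mem_nonunits A h1 hbk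
    simpa [coeffMap_coeff] using this
  · have : ((a / b - 1) / algebraMap (A.comap φ) (FF L N) c : FF L N) * b =
        (a - b) / algebraMap (A.comap φ) (FF L N) c := by
      field_simp
    exact_mod_cast congrArg (fun x : FF L N => (x : LaurentSeries L)) this

theorem mem_of_pow_eq_one (A : ValuationSubring Qb) {x : Qb} {n : ℕ} (hn : 0 < n)
    (hx : x ^ n = 1) : x ∈ A := by
  rcases A.mem_or_inv_mem x with h | h
  · exact h
  · obtain ⟨m, rfl⟩ : ∃ m, n = m + 1 := ⟨n - 1, by omega⟩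
    have h1 : x = x⁻¹ ^ m := by
      rw [pow_succ] at hx
      rw [inv_pow]
      exact eq_inv_of_mul_eq_one_right hx
    rw [h1]
    exact pow_mem h m

theorem DeepAt.change_root {N p : ℕ} {A : ValuationSubring Qb} {y : LaurentSeries Qb}
    (h : DeepAt N p A y) {ζ : Qb} (hζ : IsPrimitiveRoot ζ p) (hp : 0 < p) :
    ∃ d : Qb, d ∈ A.nonunits ∧ DepthAt N p A ((ζ - 1) ^ p * d) y := by
  obtain ⟨ζ', d', hζ', hd', hdep⟩ := h
  have : NeZero p := ⟨hp.ne'⟩
  obtain ⟨k, -, hk⟩ := hζ.eq_pow_of_pow_eq_one hζ'.pow_eq_one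
  have hζA : ζ ∈ A := mem_of_pow_eq_one A hp hζ.pow_eq_one
  have hs : ∑ i ∈ Finset.range k, ζ ^ i ∈ A := sum_mem fun i _ => pow_mem hζA i
  refine ⟨(∑ i ∈ Finset.range k, ζ ^ i) ^ p * d', ?_, ?_⟩
  · rw [mul_comm]
    exact BrGauss_mul_mem_nonunits A hd' (pow_mem hs p)
  · have e : (ζ - 1) ^ p * ((∑ i ∈ Finset.range k, ζ ^ i) ^ p * d') = (ζ' - 1) ^ p * d' := by
      rw [← mul_assoc, ← mul_pow, mul_comm (ζ - 1), geom_sum_mul, hk]
    rw [e]
    exact hdep

theorem DeepAt.mono {N N' p : ℕ} (hNN' : N ∣ N') {A : ValuationSubring Qb} {y : LaurentSeries Qb}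
    (h : DeepAt N p A y) : DeepAt N' p A y := by
  obtain ⟨ζ, d, hζ, hd, a, b, ha, hb, hpa, hib, hab, z, hz, hz0, hzz⟩ := h
  have hle := BrGauss_FF_mono hNN'
  exact ⟨ζ, d, hζ, hd, a, b, hle ha, hle hb, hpa, hib, hab, z, hle hz, hz0, hzz⟩

end Fermat.Agent.LP
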