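import Fermat.Agent.LP.Nod.BrNodal
import Fermat.Agent.GS.Bridge.Gal
import Fermat.Agent.GS.Bridge.Level
import Fermat.Agent.GS.WQ
import Fermat.Agent.GS.Inputs
import Fermat.Agent.GR.D.LevelChange

/-!
# LP-NOD bridge, file `BrMain`: `HasNodalModel` ⟹ `NodalInertiaP`; level raising; EXPORT

* `nodalInertiaP_of_hasNodalModel`: twin of `GS.nodal_main` + `GS.nodalInertia_of_hasNodalModel`
  (`GS/Bridge/Main.lean`, helper39), template `GR.E.crux_of_hasModel`.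
  Given `w, y, τ, c`: fix a primitive `p`-th root `ζ` of `1` in `Q̄`; `DeepAt.change_root` for `y` and
  `w y`: `d, a, b, z₁` and `d', a', b', z₂` (if `d = 0` replace it by `p`-adically small nonzero
  element, e.g. `d := p`: then `a = b` and `a - b = (ζ-1)^p p * 0`).  Certificates for `y` over `Q̄`
  (`E.exists_certificate` for `h` and `h⁻¹`).  `GS.exists_level_normal`: `L` finite, normal over `ℚ`
  containing all these series and the constants `C ζ`, `C d`, `C d'`.  `wL` with `IsWQ L p N1 wL`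
  (`GS.isWQ_wQ`), `IsWQ.mapFF_comm` : `mapFF (wL yL) = w y`.  `hM.model L`: `NodalModelData`.
  `σ := GS.resL L τ`; `MD.aut σ`, `MD.inert σ` (from `GS.inertia_spec`, `resL_mem_iff`, `resL_cong`
  with `c = 1`).  `hτζ`: `τ ζ = ζ ^ c`.  `nodal_coreP`, then `coeffMap_mapFFEquiv_resL`.
* `isWQ_restrict`: both sides are `Q̄`-algebra homomorphisms `FF Q̄ (p * M0) → Q̄((t))` which agree on
  the generators `j(t ^ (a d))`, `a ∣ p`, `d ∣ M0` (`GS.isWQ_iff_gen`, `GT.EMB.ringHom_ext_gen`, or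
  `IntermediateField.adjoin_induction` as in `GR.E.coeffMap_mem_FF`).
* `nodalInertiaP`: if `2 ∣ M0` apply `hI` and `nodalInertiaP_of_hasNodalModel`; otherwise work at the
  level `p * (M0 * 2)`: `w'` := any `IsWQ Q̄ p (M0 * 2)`; `isWQ_restrict`; `GR.D.LC.isKummer_mono`,
  `DeepAt.mono`; come back by `GR.D.LC.kummerEquiv_descend` (`N = p * M0`, `r = 2`).
-/

set_option autoImplicit false
set_option synthInstance.maxHeartbeats 400000

noncomputable section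

namespace Fermat.Agent.LP

open Fermat.Agent.GR Fermat.Agent.GR.E Fermat.Agent.GS ModularCurve IntermediateField

/-- descent of finitely many elements of `FF Q̄ N` to a finite normal extension of `ℚ`. -/
theorem BrMain_exists_level (N : ℕ) (S : Finset (FF Qb N)) :
    ∃ L : IntermediateField ℚ Qb, FiniteDimensional ℚ L ∧ Normal ℚ L ∧
      ∀ u ∈ S, ∃ x : FF L N, mapFF (algebraMap L Qb) N x = u := by
  classical
  obtain ⟨L, h1, h2, h3⟩ := exists_level_normal N (S.image (fun u : FF Qb N => (u : LaurentSeries Qb))) (by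
    intro u hu
    obtain ⟨x, -, rfl⟩ := Finset.mem_image.1 hu
    exact x.2)
  refine ⟨L, h1, h2, fun u hu => ?_⟩
  obtain ⟨u', hu', hu''⟩ := h3 u (Finset.mem_image_of_mem _ hu)
  exact ⟨⟨u', hu'⟩, Subtype.ext hu''⟩

/-- the depth may be taken nonzero. -/
theorem BrMain_depth_ne_zero {N p : ℕ} {A : ValuationSubring Qb} (hp : p ≠ 0)
    (hA : A.LiesOverPrime p) {e : Qb} {y : LaurentSeries Qb}
    (h : ∃ d : Qb, d ∈ A.nonunits ∧ DepthAt N p A (e * d) y) :
    ∃ d : Qb, d ≠ 0 ∧ d ∈ A.nonunits ∧ DepthAt N p A (e * d) y := by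
  obtain ⟨d, hd, hy⟩ := h
  by_cases hd0 : d = 0
  · subst hd0
    obtain ⟨a, b, ha, hb, hpa, hib, hab, hK⟩ := hy
    refine ⟨(p : Qb), by exact_mod_cast hp, hA, a, b, ha, hb, hpa, hib, fun m => ?_, hK⟩
    obtain ⟨r, -, hr⟩ := hab m
    exact ⟨0, A.zero_mem, by rw [hr]; ring⟩
  · exact ⟨d, hd0, hd, hy⟩

/-- a constant which descends to `FF L N` lies in `L`. -/
theorem BrMain_const_descent (L : IntermediateField ℚ Qb) (N : ℕ) (x : FF L N) (e : Qb)
    (h : mapFF (algebraMap L Qb) N x = algebraMap Qb (FF Qb N) e) :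
    ∃ eL : L, algebraMap L Qb eL = e := by
  refine ⟨(x : LaurentSeries L).coeff 0, ?_⟩
  have h1 := congrArg (fun u : FF Qb N => (u : LaurentSeries Qb).coeff 0) h
  simp only [coe_mapFF, coeffMap_coeff] at h1
  rw [h1]
  have h2 : ((algebraMap Qb (FF Qb N) e : FF Qb N) : LaurentSeries Qb) =
      algebraMap Qb (LaurentSeries Qb) e := rfl
  rw [h2, algebraMap_laurentSeries_eq_single]
  simp

/-- the coefficientwise action on constants. -/
theorem BrMain_mapFFEquiv_algebraMap {L : Type*} [Field L] (R : ValuationSubring L) (N : ℕ)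
    (σ : L ≃+* L) (r : R) (c : ℕ) (h : σ (r : L) = (r : L) ^ c) :
    mapFFEquiv σ N (algebraMap R (FF L N) r) = algebraMap R (FF L N) r ^ c := by
  apply Subtype.ext
  rw [coe_mapFFEquiv, BR7_coe_algebraMap]
  have h1 : ((algebraMap R (FF L N) r ^ c : FF L N) : LaurentSeries L) =
      ((algebraMap R (FF L N) r : FF L N) : LaurentSeries L) ^ c := rfl
  rw [h1, BR7_coe_algebraMap, ← map_pow, ← h, HahnSeries.C_apply, HahnSeries.C_apply,
    coeffMap_single]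
  rfl

set_option maxHeartbeats 2000000 in
theorem nodalInertiaP_of_hasNodalModel (A : ValuationSubring Qb) (p N1 : ℕ) (hp : p.Prime)
    (hA : A.LiesOverPrime p) [NeZero (p * N1)] (hcop : p.Coprime N1) (H : LaurentSeries ℤ)
    (hM : HasNodalModel A p N1 H) : NodalInertiaP p N1 A := by
  classical
  intro w hw y hK h1 h2 τ hτ c hc
  obtain ⟨hτ1, hτ2⟩ := inertia_spec A hτ
  have hn0 : p ≠ 0 := hp.ne_zero
  have : NeZero p := ⟨hn0⟩
  obtain ⟨ζ, hζ⟩ : ∃ ζ : Qb, IsPrimitiveRoot ζ p := HasEnoughRootsOfUnity.exists_primitiveRoot Qb p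
  obtain ⟨hy0, hmem, hdivQ⟩ := hK
  have hyQ0 : y ≠ 0 := fun h => hy0 (by rw [h]; rfl)
  obtain ⟨d, hd0, hd, a, b, ha, hb, hpa, hib, hab, z₁, hz₁, hz₁0, h₁⟩ :=
    BrMain_depth_ne_zero hn0 hA (h1.change_root hζ hp.pos)
  obtain ⟨d', hd0', hd', a', b', ha', hb', hpa', hib', hab', z₂, hz₂, hz₂0, h₂⟩ :=
    BrMain_depth_ne_zero hn0 hA (h2.change_root hζ hp.pos)
  have := hM.finDim
  obtain ⟨m0, a0, b0, ha0i, hb0i, hs0⟩ := exists_certificate
    (⟨baseFn Qb H, hM.mem Qb⟩ : FF Qb (p * N1)) hM.transc p (Nat.pos_of_ne_zero hn0) y hyQ0 hdivQ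
  have := BR7_finiteDimensional_inv (⟨baseFn Qb H, hM.mem Qb⟩ : FF Qb (p * N1)) hM.finDim
  obtain ⟨m1, a1, b1, ha1i, hb1i, hs1⟩ := exists_certificate
    (⟨baseFn Qb H, hM.mem Qb⟩ : FF Qb (p * N1))⁻¹ (BR7_transcendental_inv hM.transc) p
    (Nat.pos_of_ne_zero hn0) y hyQ0 hdivQ
  obtain ⟨L, hLfin, hLnorm, hL⟩ := BrMain_exists_level (p * N1)
    (({y, ⟨a, ha⟩, ⟨b, hb⟩, ⟨z₁, hz₁⟩, ⟨a', ha'⟩, ⟨b', hb'⟩, ⟨z₂, hz₂⟩,
        algebraMap Qb (FF Qb (p * N1)) ζ, algebraMap Qb (FF Qb (p * N1)) d,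
        algebraMap Qb (FF Qb (p * N1)) d'} : Finset (FF Qb (p * N1))) ∪
      ((Finset.univ.image a0 ∪ Finset.univ.image b0) ∪
        (Finset.univ.image a1 ∪ Finset.univ.image b1)))
  obtain ⟨yL, hyL⟩ := hL y (by simp)
  obtain ⟨aL, haL⟩ := hL ⟨a, ha⟩ (by simp)
  obtain ⟨bL, hbL⟩ := hL ⟨b, hb⟩ (by simp)
  obtain ⟨z₁L, hz₁L⟩ := hL ⟨z₁, hz₁⟩ (by simp)
  obtain ⟨aL', haL'⟩ := hL ⟨a', ha'⟩ (by simp)
  obtain ⟨bL', hbL'⟩ := hL ⟨b', hb'⟩ (by simp)
  obtain ⟨z₂L, hz₂L⟩ := hL ⟨z₂, hz₂⟩ (by simp)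
  obtain ⟨ζx, hζx⟩ := hL (algebraMap Qb (FF Qb (p * N1)) ζ) (by simp)
  obtain ⟨dx, hdx⟩ := hL (algebraMap Qb (FF Qb (p * N1)) d) (by simp)
  obtain ⟨dx', hdx'⟩ := hL (algebraMap Qb (FF Qb (p * N1)) d') (by simp)
  obtain ⟨ζL, hζL⟩ := BrMain_const_descent L _ ζx ζ hζx
  obtain ⟨dL, hdL⟩ := BrMain_const_descent L _ dx d hdx
  obtain ⟨dL', hdL'⟩ := BrMain_const_descent L _ dx' d' hdx'
  have hda0 : ∀ i, ∃ x : FF L (p * N1), mapFF (algebraMap L Qb) (p * N1) x = a0 i := fun i =>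
    hL _ (Finset.mem_union_right _ (Finset.mem_union_left _ (Finset.mem_union_left _
      (Finset.mem_image_of_mem _ (Finset.mem_univ i)))))
  have hdb0 : ∀ i, ∃ x : FF L (p * N1), mapFF (algebraMap L Qb) (p * N1) x = b0 i := fun i =>
    hL _ (Finset.mem_union_right _ (Finset.mem_union_left _ (Finset.mem_union_right _
      (Finset.mem_image_of_mem _ (Finset.mem_univ i)))))
  have hda1 : ∀ i, ∃ x : FF L (p * N1), mapFF (algebraMap L Qb) (p * N1) x = a1 i := fun i =>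
    hL _ (Finset.mem_union_right _ (Finset.mem_union_right _ (Finset.mem_union_left _
      (Finset.mem_image_of_mem _ (Finset.mem_univ i)))))
  have hdb1 : ∀ i, ∃ x : FF L (p * N1), mapFF (algebraMap L Qb) (p * N1) x = b1 i := fun i =>
    hL _ (Finset.mem_union_right _ (Finset.mem_union_right _ (Finset.mem_union_right _
      (Finset.mem_image_of_mem _ (Finset.mem_univ i)))))
  clear hL
  have hinj : Function.Injective (mapFF (algebraMap L Qb) (p * N1)) :=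
    (mapFF (algebraMap L Qb) (p * N1)).injective
  have hh := BR7_mapFF_baseFn L (p * N1) H (hM.mem L) (hM.mem Qb)
  have c0 : Certificate L (⟨baseFn L H, hM.mem L⟩ : FF L (p * N1)) p yL := by
    apply BR7_cert_descent L (p * N1) p _ _ m0 a0 b0 _ _ hs0 hda0 hdb0
    · rw [hh, hyL]; exact ha0i
    · rw [hh, hyL]; exact hb0i
  have c1 : Certificate L (⟨baseFn L H, hM.mem L⟩ : FF L (p * N1))⁻¹ p yL := by
    apply BR7_cert_descent L (p * N1) p _ _ m1 a1 b1 _ _ hs1 hda1 hdb1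
    · rw [map_inv₀, hh, hyL]; exact ha1i
    · rw [map_inv₀, hh, hyL]; exact hb1i
  have hdvr := isDiscreteValuationRing_comap A p hp hA L
  have hpA := BR5_not_isUnit_natCast A p hA L
  obtain ⟨ι⟩ := nonempty_Qbar_hom
  obtain ⟨wL, hwL⟩ : ∃ w : FF L (p * N1) ≃ₐ[L] FF L (p * N1), IsWQ L p N1 w :=
    ⟨_, isWQ_wQ (ι.comp (algebraMap L Qb)) hcop⟩
  obtain ⟨𝒪₁, 𝒪₂, MD⟩ := hM.model L hdvr wL hwL
  have hne : ∀ (x : FF L (p * N1)) (u : FF Qb (p * N1)),
      mapFF (algebraMap L Qb) (p * N1) x = u → u ≠ 0 → x ≠ 0 := by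
    rintro x u rfl hu rfl
    exact hu (map_zero _)
  have hwy0 : ((w y : FF Qb (p * N1)) : LaurentSeries Qb) ≠ 0 := by
    intro h
    apply hyQ0
    have : w y = 0 := Subtype.ext h
    simpa using this
  have hb0 : b ≠ 0 := by
    rintro rfl
    rw [div_zero] at h₁
    exact (mul_ne_zero hy0 (pow_ne_zero _ hz₁0)) h₁.symm
  have hb0' : b' ≠ 0 := by
    rintro rfl
    rw [div_zero] at h₂
    exact (mul_ne_zero hwy0 (pow_ne_zero _ hz₂0)) h₂.symm
  have e₁ : aL / bL = yL * z₁L ^ p := by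
    apply hinj
    rw [map_div₀, map_mul, map_pow, haL, hbL, hyL, hz₁L]
    exact Subtype.ext h₁
  have e₂ : aL' / bL' = wL yL * z₂L ^ p := by
    apply hinj
    rw [map_div₀, map_mul, map_pow, haL', hbL', hz₂L, hwL.mapFF_comm ι (algebraMap L Qb) hcop hw, hyL]
    exact Subtype.ext h₂
  have cv : ∀ (x : FF L (p * N1)) (u : FF Qb (p * N1)),
      mapFF (algebraMap L Qb) (p * N1) x = u →
      coeffMap (algebraMap L Qb) (x : LaurentSeries L) = (u : LaurentSeries Qb) := by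
    rintro x u rfl
    rfl
  -- the constants
  have hζA : ζL ∈ A.comap (algebraMap L Qb) := by
    rw [ValuationSubring.mem_comap, hζL]
    exact mem_of_pow_eq_one A hp.pos hζ.pow_eq_one
  have hdA : dL ∈ A.comap (algebraMap L Qb) := by
    rw [ValuationSubring.mem_comap, hdL]
    exact A.nonunits_subset hd
  have hdA' : dL' ∈ A.comap (algebraMap L Qb) := by
    rw [ValuationSubring.mem_comap, hdL']
    exact A.nonunits_subset hd'
  have hζR : IsPrimitiveRoot (⟨ζL, hζA⟩ : A.comap (algebraMap L Qb)) p := by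
    have hinj2 : Function.Injective
        ((algebraMap L Qb).comp (A.comap (algebraMap L Qb)).subtype) :=
      (algebraMap L Qb).injective.comp Subtype.val_injective
    refine IsPrimitiveRoot.of_map_of_injective ?_ hinj2
    show IsPrimitiveRoot (algebraMap L Qb ζL) p
    rw [hζL]
    exact hζ
  have hnu : ∀ (x : L) (hx : x ∈ A.comap (algebraMap L Qb)), algebraMap L Qb x ∈ A.nonunits →
      ¬ IsUnit (⟨x, hx⟩ : A.comap (algebraMap L Qb)) := by
    intro x hx hx'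
    have h3 : x ∈ (A.comap (algebraMap L Qb)).nonunits := (BR7_mem_nonunits_comap _ _ _).2 hx'
    have h4 := (ValuationSubring.coe_mem_nonunits_iff
      (a := (⟨x, hx⟩ : A.comap (algebraMap L Qb)))).1 h3
    exact h4
  have hcst : ∀ (x : L) (hx : x ∈ A.comap (algebraMap L Qb)),
      algebraMap L Qb ((((⟨ζL, hζA⟩ : A.comap (algebraMap L Qb)) - 1) ^ p * ⟨x, hx⟩ :
        A.comap (algebraMap L Qb)) : L) = (ζ - 1) ^ p * algebraMap L Qb x := by
    intro x hx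
    have : ((((⟨ζL, hζA⟩ : A.comap (algebraMap L Qb)) - 1) ^ p * ⟨x, hx⟩ :
        A.comap (algebraMap L Qb)) : L) = (ζL - 1) ^ p * x := rfl
    rw [this, map_mul, map_pow, map_sub, map_one, hζL]
  have hfinal := nodal_coreP (algebraMap L Qb) A p (p * N1) _ wL 𝒪₁ 𝒪₂ MD hp hpA
    ⟨ζL, hζA⟩ ⟨dL, hdA⟩ ⟨dL', hdA'⟩ hζR
    (fun h => hd0 (by rw [← hdL, show dL = 0 from congrArg Subtype.val h]; exact map_zero _))
    (hnu _ _ (by rw [hdL]; exact hd))
    (fun h => hd0' (by rw [← hdL', show dL' = 0 from congrArg Subtype.val h]; exact map_zero _))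
    (hnu _ _ (by rw [hdL']; exact hd'))
    yL z₁L z₂L aL bL aL' bL' (hne _ _ hyL hyQ0)
    (hne _ _ hz₁L (fun h => hz₁0 (congrArg Subtype.val h)))
    (hne _ _ hz₂L (fun h => hz₂0 (congrArg Subtype.val h)))
    (hne _ _ hbL (fun h => hb0 (congrArg Subtype.val h)))
    (hne _ _ hbL' (fun h => hb0' (congrArg Subtype.val h))) e₁ e₂
    (by rw [cv _ _ haL]; exact hpa) (by rw [cv _ _ hbL]; exact hib)
    (by rw [cv _ _ haL, cv _ _ hbL, hcst, hdL]; exact hab)
    (by rw [cv _ _ haL']; exact hpa') (by rw [cv _ _ hbL']; exact hib')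
    (by rw [cv _ _ haL', cv _ _ hbL', hcst, hdL']; exact hab') c0 c1
    (mapFFEquiv (resL L τ) (p * N1)) c (MD.aut (resL L τ) (resL_mem_iff A L hτ1))
    (MD.inert (resL L τ) (resL_mem_iff A L hτ1) (fun x hx => by
      have := resL_cong A L (σ := τ) (c := 1) (by simpa using hτ2) x hx
      simpa using this))
    (BrMain_mapFFEquiv_algebraMap _ _ _ _ _ (by
      apply (algebraMap L Qb).injective
      rw [algebraMap_resL, map_pow]
      show τ (algebraMap L Qb ζL) = algebraMap L Qb ζL ^ c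
      rw [hζL]
      exact hc ζ hζ.pow_eq_one))
  rw [coeffMap_mapFFEquiv_resL, cv _ _ hyL] at hfinal
  exact hfinal

theorem isWQ_restrict {p M0 M1 : ℕ} [NeZero (p * M0)] [NeZero (p * M1)] (hM : M0 ∣ M1)
    (hcop : p.Coprime M1)
    {w : FF Qb (p * M0) ≃ₐ[Qb] FF Qb (p * M0)} (hw : IsWQ Qb p M0 w)
    {w' : FF Qb (p * M1) ≃ₐ[Qb] FF Qb (p * M1)} (hw' : IsWQ Qb p M1 w')
    (y : FF Qb (p * M0)) (y' : FF Qb (p * M1)) (hy : (y' : LaurentSeries Qb) = y) :
    ((w' y' : FF Qb (p * M1)) : LaurentSeries Qb) = (w y : FF Qb (p * M0)) := by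
  have hdvd : p * M0 ∣ p * M1 := Nat.mul_dvd_mul_left p hM
  have hle : FF Qb (p * M0) ≤ FF Qb (p * M1) := GT.EMB.FF_mono Qb hdvd
  have hcop0 : p.Coprime M0 := Nat.Coprime.coprime_dvd_right hM hcop
  let f₁ : FF Qb (p * M0) →ₐ[Qb] LaurentSeries Qb :=
    (FF Qb (p * M0)).val.comp (w : FF Qb (p * M0) →ₐ[Qb] FF Qb (p * M0))
  let f₂ : FF Qb (p * M0) →ₐ[Qb] LaurentSeries Qb :=
    (FF Qb (p * M1)).val.comp
      ((w' : FF Qb (p * M1) →ₐ[Qb] FF Qb (p * M1)).comp (IntermediateField.inclusion hle))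
  have h : f₁ = f₂ := by
    refine GT.EMB.algHom_ext_gen (p * M0) f₁ f₂ fun d hd => ?_
    show ((w (GT.EMB.gen Qb (p * M0) d hd) : FF Qb (p * M0)) : LaurentSeries Qb) =
      ((w' (IntermediateField.inclusion hle (GT.EMB.gen Qb (p * M0) d hd)) : FF Qb (p * M1)) :
        LaurentSeries Qb)
    have e : IntermediateField.inclusion hle (GT.EMB.gen Qb (p * M0) d hd) =
        GT.EMB.gen Qb (p * M1) d (hd.trans hdvd) := Subtype.ext rfl
    rw [e, (isWQ_iff_gen hcop0 w).1 hw d hd, (isWQ_iff_gen hcop w').1 hw' d (hd.trans hdvd)]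
  have hy' : y' = IntermediateField.inclusion hle y := Subtype.ext hy
  rw [hy']
  exact (congrArg (fun f : FF Qb (p * M0) →ₐ[Qb] LaurentSeries Qb => f y) h).symm

/-- EXPORT (modulo the output `GS.InstOut` of GS-INST). -/
theorem nodalInertiaP (hI : InstOut) (p M0 : ℕ) (hM0 : M0 ≠ 0) (hp : p.Prime) (hp2 : p ≠ 2)
    (hpM : ¬ p ∣ M0) (A : ValuationSubring Qb) (hA : A.LiesOverPrime p) :
    NodalInertiaP p M0 A := by
  have hcop : p.Coprime M0 := (Nat.Prime.coprime_iff_not_dvd hp).2 hpM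
  have haux : auxPrime p = 2 := if_neg hp2
  have : NeZero (p * M0) := ⟨mul_ne_zero hp.ne_zero hM0⟩
  by_cases h2 : 2 ∣ M0
  · obtain ⟨H, hH⟩ := hI A p M0 hM0 hp hpM (by rw [haux]; exact h2) hA
    exact nodalInertiaP_of_hasNodalModel A p M0 hp hA hcop H hH
  · have hM1 : M0 * 2 ≠ 0 := mul_ne_zero hM0 two_ne_zero
    have hp2' : ¬ p ∣ 2 := fun h => hp2 ((Nat.prime_dvd_prime_iff_eq hp Nat.prime_two).1 h)
    have hpM1 : ¬ p ∣ M0 * 2 := fun h => (hp.dvd_mul.1 h).elim hpM hp2'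
    have hcop1 : p.Coprime (M0 * 2) := (Nat.Prime.coprime_iff_not_dvd hp).2 hpM1
    have : NeZero (p * (M0 * 2)) := ⟨mul_ne_zero hp.ne_zero hM1⟩
    obtain ⟨H, hH⟩ := hI A p (M0 * 2) hM1 hp hpM1 (by rw [haux]; exact Dvd.intro_left M0 rfl) hA
    have hN := nodalInertiaP_of_hasNodalModel A p (M0 * 2) hp hA hcop1 H hH
    intro w hw y hyK hD1 hD2 τ hτ c hc
    obtain ⟨ι⟩ := nonempty_Qbar_hom
    have hw' : IsWQ Qb p (M0 * 2) (GT.EMB.wQ Qb p (M0 * 2)) := isWQ_wQ ι hcop1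
    have hdvd : p * M0 ∣ p * (M0 * 2) := Nat.mul_dvd_mul_left p (Dvd.intro 2 rfl)
    have hle : FF Qb (p * M0) ≤ FF Qb (p * (M0 * 2)) := GT.EMB.FF_mono Qb hdvd
    have hres := isWQ_restrict (Dvd.intro 2 rfl : M0 ∣ M0 * 2) hcop1 hw hw' y
      (⟨(y : LaurentSeries Qb), hle y.2⟩ : FF Qb (p * (M0 * 2))) rfl
    have key : KummerEquiv (p * (M0 * 2)) p ((y : LaurentSeries Qb) ^ c)
        (gal τ (y : LaurentSeries Qb)) := hN (GT.EMB.wQ Qb p (M0 * 2)) hw'
      (⟨(y : LaurentSeries Qb), hle y.2⟩ : FF Qb (p * (M0 * 2)))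
      (GR.D.LC.isKummer_mono hdvd hyK) (hD1.mono hdvd) (by rw [hres]; exact hD2.mono hdvd)
      τ hτ c hc
    have h2' : ¬ 2 ∣ p * M0 := fun h => (Nat.prime_two.dvd_mul.1 h).elim
      (fun h' => hp2 ((Nat.prime_dvd_prime_iff_eq Nat.prime_two hp).1 h').symm) h2
    rw [← mul_assoc] at key
    exact GR.D.LC.kummerEquiv_descend (p * M0) 2 p Nat.prime_two h2' (pow_mem y.2 c)
      (coeffMap_mem_FF _ _ y.2) (pow_ne_zero c hyK.ne_zero) key

end Fermat.Agent.LP
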