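import Mathlib

/-!
# LP-NOD, file `Poly`: pure commutative algebra (no dependency)

* `Poly_one_add_pow` : binomial theorem, `p ∣ C(p,k)` for `0 < k < p`
  (`Nat.Prime.dvd_choose_self`); write `(1+x)^p = ∑_{k ≤ p} C(p,k) x^k` (`add_pow`), split off
  `k = 0, 1, p`.  For `p = 2` take `g = 0`.
* `Poly_as` : put `x = lam * t` in `Poly_one_add_pow`; `p * lam = - lam ^ p * u`.
* `Poly_newton` : induction on `m`.  `m = 0`: `s = 1`.  Step: `s ^ p * t = 1 + lam^p ϖ^(m+1) g`;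
  put `x = ϖ^(m+1) g u⁻¹`, `s' = s (1 + lam x)`.  By `Poly_as`
  `(1 + lam x)^p = 1 - lam^p ϖ^(m+1) g + lam^p (x^p - u lam x^2 g')` and `ϖ^(m+2) ∣ x^p` (`p ≥ 2`),
  `ϖ^(m+2) ∣ x^2`.  [`ϖ ∣ lam` is not needed.]
* `Poly_frob_fixed` : the `p` elements `0, …, p-1` are roots of `X^p - X`, which has at most `p`
  roots (or: `ZMod p`-algebra structure, `FiniteField`/`ZMod.pow_card`,
  `Polynomial.card_roots'`).
-/

set_option autoImplicit false

namespace Fermat.Agent.LP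

theorem Poly_one_add_pow {A : Type*} [CommRing A] {p : ℕ} (hp : p.Prime) (x : A) :
    ∃ g : A, (1 + x) ^ p = 1 + x ^ p + p * x + p * x ^ 2 * g := by
  have h1 := add_pow_prime_eq' hp x (1 : A)
  have hI : Finset.Ioo 0 p = insert 1 (Finset.Ioo 1 p) := by
    ext k
    have := hp.one_lt
    simp only [Finset.mem_Ioo, Finset.mem_insert]
    omega
  rw [hI, Finset.sum_insert (by simp)] at h1
  have hc : p.choose 1 / p = 1 := by
    rw [Nat.choose_one_right, Nat.div_self hp.pos]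
  have h2 : ∑ k ∈ Finset.Ioo 1 p, x ^ k * (1 : A) ^ (p - k) * ((p.choose k / p : ℕ) : A) =
      x ^ 2 * ∑ k ∈ Finset.Ioo 1 p, x ^ (k - 2) * ((p.choose k / p : ℕ) : A) := by
    rw [Finset.mul_sum]
    refine Finset.sum_congr rfl fun k hk => ?_
    rw [Finset.mem_Ioo] at hk
    have hk2 : x ^ k = x ^ 2 * x ^ (k - 2) := by
      rw [← pow_add]
      congr 1
      omega
    rw [hk2, one_pow]
    ring
  rw [h2, hc] at h1
  refine ⟨∑ k ∈ Finset.Ioo 1 p, x ^ (k - 2) * ((p.choose k / p : ℕ) : A), ?_⟩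
  rw [add_comm 1 x, h1]
  simp only [one_pow, pow_one, Nat.cast_one, mul_one]
  ring

theorem Poly_as {A : Type*} [CommRing A] {p : ℕ} (hp : p.Prime) {lam u : A}
    (h : (p : A) = -(lam ^ (p - 1) * u)) (t : A) :
    ∃ g : A, (1 + lam * t) ^ p = 1 + lam ^ p * (t ^ p - u * t - u * lam * t ^ 2 * g) := by
  obtain ⟨g, hg⟩ := Poly_one_add_pow hp (lam * t)
  refine ⟨g, ?_⟩
  have hl : lam ^ p = lam ^ (p - 1) * lam := by
    rw [← pow_succ, Nat.sub_add_cancel hp.pos]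
  rw [hg, h, mul_pow, hl]
  ring

theorem Poly_newton {A : Type*} [CommRing A] {p : ℕ} (hp : p.Prime) {ϖ lam u : A} (hu : IsUnit u)
    (h : (p : A) = -(lam ^ (p - 1) * u)) (t : A) (ht : lam ^ p * ϖ ∣ t - 1) (m : ℕ) :
    ∃ s : A, lam * ϖ ∣ s - 1 ∧ lam ^ p * ϖ ^ (m + 1) ∣ s ^ p * t - 1 := by
  induction m with
  | zero =>
    refine ⟨1, by simp, ?_⟩
    simpa using ht
  | succ m ih =>
    obtain ⟨s, hs1, g, hg⟩ := ih
    obtain ⟨v, hv⟩ := hu.exists_right_inv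
    obtain ⟨g', hg'⟩ := Poly_as hp h (ϖ ^ (m + 1) * g * v)
    obtain ⟨k, hk⟩ : ∃ k, p = 2 + k := ⟨p - 2, by have := hp.two_le; omega⟩
    refine ⟨s * (1 + lam * (ϖ ^ (m + 1) * g * v)), ?_, ?_⟩
    · obtain ⟨a, ha⟩ := hs1
      refine ⟨a + s * ϖ ^ m * g * v, ?_⟩
      have e : s * (1 + lam * (ϖ ^ (m + 1) * g * v)) - 1 =
          (s - 1) + lam * ϖ * (s * ϖ ^ m * g * v) := by
        ring
      rw [e, ha]
      ring
    · have hst : s ^ p * t = 1 + lam ^ p * ϖ ^ (m + 1) * g := by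
        rw [← hg]
        ring
      have hxp : (ϖ ^ (m + 1) * g * v) ^ p =
          ϖ ^ (m + 1 + 1) * (ϖ ^ m * (g * v) ^ 2 * (ϖ ^ (m + 1) * g * v) ^ k) := by
        rw [hk, pow_add]
        ring
      have e : (s * (1 + lam * (ϖ ^ (m + 1) * g * v))) ^ p * t - 1 =
          (s ^ p * t) * (1 + lam * (ϖ ^ (m + 1) * g * v)) ^ p - 1 := by
        rw [mul_pow]
        ring
      rw [e, hst, hg', hxp]
      refine ⟨-(lam ^ p * ϖ ^ m * g ^ 2) + (1 + lam ^ p * ϖ ^ (m + 1) * g) *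
        (ϖ ^ m * (g * v) ^ 2 * (ϖ ^ (m + 1) * g * v) ^ k - u * lam * (ϖ ^ m * (g * v) ^ 2) * g'),
        ?_⟩
      have huv : u * (ϖ ^ (m + 1) * g * v) = ϖ ^ (m + 1) * g := by
        calc u * (ϖ ^ (m + 1) * g * v) = (u * v) * (ϖ ^ (m + 1) * g) := by ring
          _ = ϖ ^ (m + 1) * g := by rw [hv, one_mul]
      rw [huv]
      ring

theorem Poly_frob_fixed {K : Type*} [Field K] {p : ℕ} (hp : p.Prime) (hK : (p : K) = 0) {x : K}
    (hx : x ^ p = x) : ∃ j : ℕ, x = (j : K) := by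
  have : Fact p.Prime := ⟨hp⟩
  have : CharP K p := by
    refine (CharP.charP_iff_prime_eq_zero hp).2 hK
  have h1 : x ∈ (⊥ : Subfield K) := (Subfield.mem_bot_iff_pow_eq_self K p).2 hx
  obtain ⟨n, hn⟩ := (mem_bot_iff_intCast p K).1 h1
  refine ⟨(n % p).toNat, ?_⟩
  have hp0 : (p : ℤ) ≠ 0 := by exact_mod_cast hp.ne_zero
  have h2 : (((n % p).toNat : ℤ) : K) = ((n % p : ℤ) : K) := by
    rw [Int.toNat_of_nonneg (Int.emod_nonneg n hp0)]
  rw [Int.cast_natCast] at h2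
  rw [h2, ← hn]
  conv_lhs => rw [← Int.emod_add_mul_ediv n p]
  push_cast
  rw [hK]
  ring

theorem Poly_sub_pow {A : Type*} [CommRing A] {p : ℕ} (hp : p.Prime) (x y : A) :
    ∃ g : A, (x - y) ^ p = x ^ p - y ^ p + p * g := by
  obtain ⟨r, hr⟩ := exists_add_pow_prime_eq hp x (-y)
  rcases hp.eq_two_or_odd' with rfl | hodd
  · refine ⟨y ^ 2 - x * y, ?_⟩
    push_cast
    ring
  · refine ⟨x * (-y) * r, ?_⟩
    rw [sub_eq_add_neg, hr, hodd.neg_pow]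
    ring

end Fermat.Agent.LP
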