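import Fermat.Agent.LP.Nod.BranchL
import Fermat.Agent.LP.Nod.Poly
import Fermat.Agent.GS.Abs.Node

/-!
# LP-NOD, file `PLocNode`: `PLoc` at a node

`B` is the local ring of a node (`GS.NodeLoc`): a nodal chart, every `x ∈ B` is a unit or of the
form `y₁ + y₂`, `yᵢ ∈ 𝔭ᵢ = B ∩ ϖ 𝒪ᵢ`, and `1` is not of this form.  So `𝔪 = 𝔭₁ + 𝔭₂` is the maximal
ideal (`NodeLoc.isLocalRing`, `NodeLoc.mem_sup_iff`, `NodeLoc.isUnit_or`, `NodeLoc.not_isUnit`).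
`hp : ϖ ∣ p` : the residue characteristic is `p`.

* `PLocNode_glue`: `b₁ - b₂ = c₁ + c₂`, `cᵢ ∈ 𝔭ᵢ`; `b := b₁ - c₁ = b₂ + c₂`.
* `jac`: `1 + ϖ b` is not in `𝔪` (else `1 ∈ 𝔪`), so it is a unit (`hmax`).
* `liftP y h`: `Branch.exists_cong` (`s = 0`, `c = h`) on both branches gives `b₁, b₂ ∈ B`,
  `y ≡ bᵢ` mod `ϖ 𝒪ᵢ`, so `bᵢ ^ p - h ∈ 𝔭ᵢ`, `b₁ ^ p - b₂ ^ p ∈ 𝔪`, `(b₁ - b₂) ^ p ∈ 𝔪`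
  (`Poly_sub_pow`, `p ∈ 𝔪`), `b₁ - b₂ ∈ 𝔪` (prime).  `PLocNode_glue`.
* `liftAS z h`: `Branch.exists_cong` (`s = 1`, `c = h`) gives `b₁, b₂`; `δ := b₂ - b₁` satisfies
  `δ ^ p - δ ∈ 𝔪`; in the field `B ⧸ 𝔪` of characteristic `p`, `Poly_frob_fixed` gives `j` with
  `δ - j ∈ 𝔪`.  `PLocNode_glue` for `b₁` and `b₂ - j` gives `b`: `z ≡ b` on the first branch and
  `z ≡ b₂ ≡ b + j` on the second.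
-/

set_option autoImplicit false

namespace Fermat.Agent.LP

open Fermat.Agent.GR.E Fermat.Agent.GS

variable {R : Type*} [CommRing R] [IsDomain R] [IsDiscreteValuationRing R]
variable {F : Type*} [Field F] [Algebra R F]
variable {ϖ : R} {𝒪₁ 𝒪₂ : ValuationSubring F} {B : Subalgebra R F}

theorem PLocNode_glue (h : NodeLoc ϖ 𝒪₁ 𝒪₂ B) {b₁ b₂ : F} (hb₁ : b₁ ∈ B) (hb₂ : b₂ ∈ B)
    (hne : (b₁ - b₂)⁻¹ ∉ B ∨ b₁ = b₂) : ∃ b ∈ B, Cg 𝒪₁ ϖ b₁ b ∧ Cg 𝒪₂ ϖ b₂ b := by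
  rcases hne with hne | rfl
  · rcases h.hmax (b₁ - b₂) (B.sub_mem hb₁ hb₂) with h1 | ⟨y₁, hy₁, y₂, hy₂, h1, h2, h3⟩
    · exact absurd h1 hne
    · refine ⟨b₁ - y₁, B.sub_mem hb₁ hy₁, ?_, ?_⟩
      · show (b₁ - (b₁ - y₁)) / algebraMap R F ϖ ∈ 𝒪₁
        rw [sub_sub_cancel]
        exact h1
      · show (b₂ - (b₁ - y₁)) / algebraMap R F ϖ ∈ 𝒪₂
        have : b₂ - (b₁ - y₁) = -y₂ := by linear_combination -h3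
        rw [this, neg_div]
        exact neg_mem h2
  · exact ⟨b₁, hb₁, Cg.refl _, Cg.refl _⟩

/-- the maximal ideal of `B`. -/
theorem PLocNode_isMaximal (h : NodeLoc ϖ 𝒪₁ 𝒪₂ B) :
    (vert ϖ 𝒪₁ B ⊔ vert ϖ 𝒪₂ B).IsMaximal := by
  have := h.isLocalRing
  have : vert ϖ 𝒪₁ B ⊔ vert ϖ 𝒪₂ B = IsLocalRing.maximalIdeal B := by
    ext x
    rw [IsLocalRing.mem_maximalIdeal, mem_nonunits_iff]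
    exact ⟨fun hx => h.not_isUnit hx, fun hx => (h.isUnit_or x).resolve_left hx⟩
  rw [this]
  infer_instance

theorem PLocNode_mem₁ (h : NodeLoc ϖ 𝒪₁ 𝒪₂ B) {a b : B} (hab : Cg 𝒪₁ ϖ (a : F) (b : F)) :
    a - b ∈ vert ϖ 𝒪₁ B ⊔ vert ϖ 𝒪₂ B :=
  Ideal.mem_sup_left ((mem_vert h.chart.le₁ _).2 hab)

theorem PLocNode_mem₂ (h : NodeLoc ϖ 𝒪₁ 𝒪₂ B) {a b : B} (hab : Cg 𝒪₂ ϖ (a : F) (b : F)) :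
    a - b ∈ vert ϖ 𝒪₁ B ⊔ vert ϖ 𝒪₂ B :=
  Ideal.mem_sup_right ((mem_vert h.chart.le₂ _).2 hab)

theorem PLocNode_hne (h : NodeLoc ϖ 𝒪₁ 𝒪₂ B) {a b : B}
    (hab : a - b ∈ vert ϖ 𝒪₁ B ⊔ vert ϖ 𝒪₂ B) :
    ((a : F) - (b : F))⁻¹ ∉ B ∨ (a : F) = (b : F) := by
  by_cases he : (a : F) = (b : F)
  · exact Or.inr he
  · left
    intro hinv
    apply h.not_isUnit hab
    have h0 : (a : F) - (b : F) ≠ 0 := sub_ne_zero.2 he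
    exact IsUnit.of_mul_eq_one ⟨_, hinv⟩ (Subtype.ext (mul_inv_cancel₀ h0))

theorem PLocNode_natCast_mem (h : NodeLoc ϖ 𝒪₁ 𝒪₂ B) {p : ℕ} (hpϖ : ϖ ∣ (p : R)) :
    (p : B) ∈ vert ϖ 𝒪₁ B ⊔ vert ϖ 𝒪₂ B := by
  obtain ⟨r, hr⟩ := hpϖ
  have h1 : (p : B) = algebraMap R B ϖ * algebraMap R B r := by
    rw [← map_mul, ← hr, map_natCast]
  rw [h1]
  exact Ideal.mul_mem_right _ _ (Ideal.mem_sup_left (algebraMap_mem_vert h.G₁ B))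

theorem ploc_of_nodeLoc (hϖ : Irreducible ϖ) (h : NodeLoc ϖ 𝒪₁ 𝒪₂ B) {p : ℕ} (hp : p.Prime)
    (hpϖ : ϖ ∣ (p : R)) : PLoc ϖ p 𝒪₁ 𝒪₂ B := by
  have hmaxI := PLocNode_isMaximal h
  have hprime := hmaxI.isPrime
  have hpm := PLocNode_natCast_mem h hpϖ
  have hB₁ := branch₁_of_nodalChart h.chart
  have hB₂ := branch₂_of_nodalChart h.chart
  refine ⟨h.chart.toSatChart2, ?_, ?_, ?_⟩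
  · -- jac
    intro b hb
    have hc : (algebraMap R B ϖ * ⟨b, hb⟩ : B) ∈ vert ϖ 𝒪₁ B ⊔ vert ϖ 𝒪₂ B :=
      Ideal.mul_mem_right _ _ (Ideal.mem_sup_left (algebraMap_mem_vert h.G₁ B))
    exact (h.inv_mem_of_not_mem (h.one_add_not_mem hc)).2
  · -- liftP
    intro y k hy₁ hy₂ hk hk₁ hk₂
    obtain ⟨b₁, hb₁, hc₁⟩ := hB₁.exists_cong h.G₁ hp.two_le (s := 0) (c := k) hy₁ B.zero_mem hk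
      (by rw [zero_mul, sub_zero]; exact hk₁)
    obtain ⟨b₂, hb₂, hc₂⟩ := hB₂.exists_cong h.G₂ hp.two_le (s := 0) (c := k) hy₂ B.zero_mem hk
      (by rw [zero_mul, sub_zero]; exact hk₂)
    have e₁ : (⟨b₁, hb₁⟩ : B) ^ p - ⟨k, hk⟩ ∈ vert ϖ 𝒪₁ B ⊔ vert ϖ 𝒪₂ B :=
      PLocNode_mem₁ h (a := (⟨b₁, hb₁⟩ : B) ^ p) (b := ⟨k, hk⟩)
        (((hc₁.pow hy₁ (h.chart.le₁ _ hb₁) p).symm).trans hk₁)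
    have e₂ : (⟨b₂, hb₂⟩ : B) ^ p - ⟨k, hk⟩ ∈ vert ϖ 𝒪₁ B ⊔ vert ϖ 𝒪₂ B :=
      PLocNode_mem₂ h (a := (⟨b₂, hb₂⟩ : B) ^ p) (b := ⟨k, hk⟩)
        (((hc₂.pow hy₂ (h.chart.le₂ _ hb₂) p).symm).trans hk₂)
    obtain ⟨g, hg⟩ := Poly_sub_pow hp (⟨b₁, hb₁⟩ : B) ⟨b₂, hb₂⟩
    have e₃ : ((⟨b₁, hb₁⟩ : B) - ⟨b₂, hb₂⟩) ^ p ∈ vert ϖ 𝒪₁ B ⊔ vert ϖ 𝒪₂ B := by
      rw [hg]
      have : (⟨b₁, hb₁⟩ : B) ^ p - (⟨b₂, hb₂⟩ : B) ^ p =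
          ((⟨b₁, hb₁⟩ : B) ^ p - ⟨k, hk⟩) - ((⟨b₂, hb₂⟩ : B) ^ p - ⟨k, hk⟩) := by ring
      rw [this]
      exact add_mem (sub_mem e₁ e₂) (Ideal.mul_mem_right _ _ hpm)
    have e₄ := hprime.mem_of_pow_mem _ e₃
    obtain ⟨b, hb, hbb₁, hbb₂⟩ := PLocNode_glue h hb₁ hb₂ (PLocNode_hne h e₄)
    exact ⟨b, hb, hc₁.trans hbb₁, hc₂.trans hbb₂⟩
  · -- liftAS
    intro z k hz₁ hz₂ hk hk₁ hk₂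
    obtain ⟨b₁, hb₁, hc₁⟩ := hB₁.exists_cong h.G₁ hp.two_le (s := 1) (c := k) hz₁ B.one_mem hk
      (by rw [one_mul]; exact hk₁)
    obtain ⟨b₂, hb₂, hc₂⟩ := hB₂.exists_cong h.G₂ hp.two_le (s := 1) (c := k) hz₂ B.one_mem hk
      (by rw [one_mul]; exact hk₂)
    have e₁ : ((⟨b₁, hb₁⟩ : B) ^ p - ⟨b₁, hb₁⟩) - ⟨k, hk⟩ ∈ vert ϖ 𝒪₁ B ⊔ vert ϖ 𝒪₂ B :=
      PLocNode_mem₁ h (a := (⟨b₁, hb₁⟩ : B) ^ p - ⟨b₁, hb₁⟩) (b := ⟨k, hk⟩)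
        ((((hc₁.pow hz₁ (h.chart.le₁ _ hb₁) p).sub hc₁).symm).trans hk₁)
    have e₂ : ((⟨b₂, hb₂⟩ : B) ^ p - ⟨b₂, hb₂⟩) - ⟨k, hk⟩ ∈ vert ϖ 𝒪₁ B ⊔ vert ϖ 𝒪₂ B :=
      PLocNode_mem₂ h (a := (⟨b₂, hb₂⟩ : B) ^ p - ⟨b₂, hb₂⟩) (b := ⟨k, hk⟩)
        ((((hc₂.pow hz₂ (h.chart.le₂ _ hb₂) p).sub hc₂).symm).trans hk₂)
    obtain ⟨g, hg⟩ := Poly_sub_pow hp (⟨b₂, hb₂⟩ : B) ⟨b₁, hb₁⟩
    have e₃ : ((⟨b₂, hb₂⟩ : B) - ⟨b₁, hb₁⟩) ^ p - ((⟨b₂, hb₂⟩ : B) - ⟨b₁, hb₁⟩) ∈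
        vert ϖ 𝒪₁ B ⊔ vert ϖ 𝒪₂ B := by
      rw [hg]
      have : (⟨b₂, hb₂⟩ : B) ^ p - (⟨b₁, hb₁⟩ : B) ^ p + (p : B) * g -
          ((⟨b₂, hb₂⟩ : B) - ⟨b₁, hb₁⟩) =
          (((⟨b₂, hb₂⟩ : B) ^ p - ⟨b₂, hb₂⟩) - ⟨k, hk⟩) -
            (((⟨b₁, hb₁⟩ : B) ^ p - ⟨b₁, hb₁⟩) - ⟨k, hk⟩) + (p : B) * g := by ring
      rw [this]
      exact add_mem (sub_mem e₂ e₁) (Ideal.mul_mem_right _ _ hpm)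
    letI : Field (B ⧸ (vert ϖ 𝒪₁ B ⊔ vert ϖ 𝒪₂ B)) := Ideal.Quotient.field _
    have hK : ((p : ℕ) : B ⧸ (vert ϖ 𝒪₁ B ⊔ vert ϖ 𝒪₂ B)) = 0 := by
      rw [← map_natCast (Ideal.Quotient.mk (vert ϖ 𝒪₁ B ⊔ vert ϖ 𝒪₂ B)) p]
      exact Ideal.Quotient.eq_zero_iff_mem.2 hpm
    have hx : (Ideal.Quotient.mk (vert ϖ 𝒪₁ B ⊔ vert ϖ 𝒪₂ B)
        ((⟨b₂, hb₂⟩ : B) - ⟨b₁, hb₁⟩)) ^ p =
        Ideal.Quotient.mk (vert ϖ 𝒪₁ B ⊔ vert ϖ 𝒪₂ B) ((⟨b₂, hb₂⟩ : B) - ⟨b₁, hb₁⟩) := by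
      rw [← map_pow, Ideal.Quotient.eq]
      exact e₃
    obtain ⟨j, hj⟩ := Poly_frob_fixed hp hK hx
    rw [← map_natCast (Ideal.Quotient.mk (vert ϖ 𝒪₁ B ⊔ vert ϖ 𝒪₂ B)) j, Ideal.Quotient.eq] at hj
    have e₄ : (⟨b₁, hb₁⟩ : B) - ((⟨b₂, hb₂⟩ : B) - (j : B)) ∈ vert ϖ 𝒪₁ B ⊔ vert ϖ 𝒪₂ B := by
      have : (⟨b₁, hb₁⟩ : B) - ((⟨b₂, hb₂⟩ : B) - (j : B)) =
          -(((⟨b₂, hb₂⟩ : B) - ⟨b₁, hb₁⟩) - (j : B)) := by ring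
      rw [this]
      exact neg_mem hj
    have hne := PLocNode_hne h e₄
    have hcast : (((⟨b₂, hb₂⟩ : B) - (j : B) : B) : F) = b₂ - (j : F) := by
      push_cast
      rfl
    rw [hcast] at hne
    obtain ⟨b, hb, hbb₁, hbb₂⟩ := PLocNode_glue h hb₁ (B.sub_mem hb₂ (natCast_mem B j)) hne
    refine ⟨b, hb, j, hc₁.trans hbb₁, ?_⟩
    have h5 := hbb₂.add (Cg.refl (𝒪 := 𝒪₂) (c := ϖ) (j : F))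
    rw [sub_add_cancel] at h5
    exact hc₂.trans h5

end Fermat.Agent.LP
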