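import Fermat.Agent.LP.Nod.GlueGood
import Fermat.Agent.LP.Nod.PLocNode
import Fermat.Agent.GS.Abs.Loc
import Fermat.Agent.GS.Abs.LocNode

/-!
# LP-NOD, file `GlueNode`: the gluing constant at a node; gluing for `τ w / w ^ c`

* `exists_const_node`.  `B := locAt C 𝔪` is `GS.NodeLoc` (`locAt_nodalChart`, `locAt_nonunit`,
  `locAt_ne_one`), so `PLoc ϖ p 𝒪₁ 𝒪₂ B` (`ploc_of_nodeLoc`; `ϖ ∣ p` follows from `hU.eq`, `hU.dvd`,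
  `p ≥ 2`); `ε = a ^ p w` is a unit of `B` (`Glue_unit_locAt`); `PLoc.normalize`.
* `glueAtP_node`.  Take `a'`, `j` from `exists_const_node`; `ζ := 1 + lam`.  `τ` maps `B` into `B`:
  if `x s ∈ C`, `s ∉ 𝔪` then `τ x τ s ∈ C` and `τ s ∉ 𝔪` because `τ s - s ∈ 𝔭₁ + 𝔭₂ ⊆ 𝔪` (`hc`).
  `a'' := τ a' / a' ^ c`:  `a'' ^ p (τ w / w ^ c) = τ (a' ^ p w) ((a' ^ p w)⁻¹) ^ c ∈ B`.
  First branch: `τ a' ≡ 1` (`Cg.map`), `a' ^ c ≡ 1` (`Cg.pow`), so `a'' ≡ 1` modulo `lam ϖ`.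
  Second branch: `τ a' ≡ τ (ζ ^ j) = ζ ^ (c j)`, `a' ^ c ≡ ζ ^ (j c)`, a unit; so `a'' ≡ 1`
  (`Cg.div_of_unit`).  `Glue_descend` gives `s`; `b := a'' s`, `e := s`.
-/

set_option autoImplicit false

namespace Fermat.Agent.LP

open Fermat.Agent.GR.E Fermat.Agent.GS

variable {R : Type*} [CommRing R] [IsDomain R] [IsDiscreteValuationRing R]
variable {F : Type*} [Field F] [Algebra R F]
variable {ϖ : R} {𝒪₁ 𝒪₂ : ValuationSubring F}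

omit [IsDomain R] [IsDiscreteValuationRing R] in
/-- congruences between constants. -/
theorem GlueNode_cg_const {𝒪 : ValuationSubring F} (hR : ∀ r : R, algebraMap R F r ∈ 𝒪)
    {c x y : R} (h : c ∣ x - y) : Cg 𝒪 c (algebraMap R F x) (algebraMap R F y) := by
  obtain ⟨r, hr⟩ := h
  show (algebraMap R F x - algebraMap R F y) / algebraMap R F c ∈ 𝒪
  rw [← map_sub, hr, map_mul]
  by_cases hc : algebraMap R F c = 0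
  · rw [hc, div_zero]
    exact 𝒪.zero_mem
  · rw [mul_div_cancel_left₀ _ hc]
    exact hR r

/-- `τ` maps the local ring at a node into itself. -/
theorem GlueNode_map_locAt {C : Subalgebra R F} (hle₁ : ∀ x ∈ C, x ∈ 𝒪₁) (hle₂ : ∀ x ∈ C, x ∈ 𝒪₂)
    {τ : F ≃+* F} (hτC : ∀ x ∈ C, τ x ∈ C) (hc : FrobLike ϖ 𝒪₁ 𝒪₂ C τ 1)
    (𝔪 : Ideal C) [𝔪.IsPrime] (h₁ : vert ϖ 𝒪₁ C ≤ 𝔪) (h₂ : vert ϖ 𝒪₂ C ≤ 𝔪) {x : F}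
    (hx : x ∈ locAt C 𝔪) : τ x ∈ locAt C 𝔪 := by
  obtain ⟨s, hs, hxs⟩ := hx
  refine ⟨⟨τ s, hτC _ s.2⟩, ?_, ?_⟩
  · intro hmem
    apply hs
    obtain ⟨y₁, hy₁C, y₂, hy₂C, hy₁, hy₂, hxy⟩ := hc s s.2
    have e : s = (⟨τ s, hτC _ s.2⟩ : C) - ((⟨y₁, hy₁C⟩ : C) + ⟨y₂, hy₂C⟩) := by
      apply Subtype.ext
      push_cast
      rw [← hxy, pow_one]
      ring
    rw [e]
    exact 𝔪.sub_mem hmem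
      (𝔪.add_mem (h₁ ((mem_vert hle₁ _).2 hy₁)) (h₂ ((mem_vert hle₂ _).2 hy₂)))
  · show τ x * τ s ∈ C
    rw [← map_mul]
    exact hτC _ hxs

/-- THE GLUING CONSTANT `j` at a node. -/
theorem exists_const_node (hϖ : Irreducible ϖ) (hG₁ : GaussRing ϖ 𝒪₁) (hG₂ : GaussRing ϖ 𝒪₂)
    {C : Subalgebra R F} (hC : NodalChart ϖ 𝒪₁ 𝒪₂ C) {p : ℕ} {lam : R} (hU : PUnif ϖ p lam) {w : F}
    (hw₁ : Cg 𝒪₁ (lam ^ p * ϖ) w 1) (hw₂ : Cg 𝒪₂ (lam ^ p * ϖ) w 1)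
    (𝔪 : Ideal C) [𝔪.IsPrime] (h𝔪 : 𝔪.IsMaximal) (h₁ : vert ϖ 𝒪₁ C ≤ 𝔪) (h₂ : vert ϖ 𝒪₂ C ≤ 𝔪)
    (hu : ∃ a : F, ∃ h : a ^ p * w ∈ C, (⟨a ^ p * w, h⟩ : C) ∉ 𝔪) :
    ∃ a' : F, a' ^ p * w ∈ locAt C 𝔪 ∧ (a' ^ p * w)⁻¹ ∈ locAt C 𝔪 ∧ ∃ j : ℕ,
      Cg 𝒪₁ (lam * ϖ) a' 1 ∧ Cg 𝒪₂ (lam * ϖ) a' (algebraMap R F ((1 + lam) ^ j)) := by
  have hNL : NodeLoc ϖ 𝒪₁ 𝒪₂ (locAt C 𝔪) :=
    ⟨hG₁, hG₂, locAt_nodalChart hϖ hG₁ hG₂ hC 𝔪 h𝔪 h₁ h₂,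
      locAt_nonunit hϖ hG₁ hG₂ hC 𝔪 h𝔪 h₁ h₂, locAt_ne_one hG₁ hG₂ hC 𝔪 h₁ h₂⟩
  have hpϖ : ϖ ∣ (p : R) := by
    obtain ⟨u, hu1, -⟩ := hU.eq
    rw [hu1]
    have h1 : p - 1 ≠ 0 := by
      have := hU.prime.two_le
      omega
    exact (Dvd.dvd.mul_right (dvd_pow hU.dvd h1) u).neg_right
  have hPL := ploc_of_nodeLoc hϖ hNL hU.prime hpϖ
  obtain ⟨a, haC, ham⟩ := hu
  obtain ⟨e1, e2⟩ := Glue_unit_locAt 𝔪 ⟨haC, ham⟩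
  have hε0 : a ^ p * w ≠ 0 := by
    intro h0
    exact ham (by
      have : (⟨a ^ p * w, haC⟩ : C) = 0 := Subtype.ext h0
      rw [this]; exact 𝔪.zero_mem)
  exact hPL.normalize hϖ hG₁ hG₂ hU hw₁ hw₂ e1 e2 hε0

theorem glueAtP_node (hϖ : Irreducible ϖ) (hG₁ : GaussRing ϖ 𝒪₁) (hG₂ : GaussRing ϖ 𝒪₂)
    {C : Subalgebra R F} (hC : NodalChart ϖ 𝒪₁ 𝒪₂ C) {p : ℕ} {lam : R} (hU : PUnif ϖ p lam) {w : F}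
    (hw₁ : Cg 𝒪₁ (lam ^ p * ϖ) w 1) (hw₂ : Cg 𝒪₂ (lam ^ p * ϖ) w 1)
    {h : F} {τ : F ≃+* F} (hτ : ChartAut R 𝒪₁ 𝒪₂ h τ) (hτC : ∀ x ∈ C, τ x ∈ C)
    (hc : FrobLike ϖ 𝒪₁ 𝒪₂ C τ 1) {c : ℕ}
    (hζ : τ (algebraMap R F (1 + lam)) = algebraMap R F (1 + lam) ^ c)
    (𝔪 : Ideal C) (h𝔪 : 𝔪.IsMaximal) (h₁ : vert ϖ 𝒪₁ C ≤ 𝔪) (h₂ : vert ϖ 𝒪₂ C ≤ 𝔪)
    (hu : ∃ a : F, ∃ h : a ^ p * w ∈ C, (⟨a ^ p * w, h⟩ : C) ∉ 𝔪) :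
    GlueAtP 𝒪₁ 𝒪₂ (lam * ϖ) C p (τ w / w ^ c) 𝔪 := by
  have := h𝔪.isPrime
  obtain ⟨a', e1, e2, j, hj₁, hj₂⟩ := exists_const_node hϖ hG₁ hG₂ hC hU hw₁ hw₂ 𝔪 h𝔪 h₁ h₂ hu
  have hR₁ : ∀ r : R, algebraMap R F r ∈ 𝒪₁ := fun r => hC.le₁ _ (C.algebraMap_mem r)
  have hR₂ : ∀ r : R, algebraMap R F r ∈ 𝒪₂ := fun r => hC.le₂ _ (C.algebraMap_mem r)
  have hc0 : lam * ϖ ≠ 0 := mul_ne_zero hU.ne_zero hϖ.ne_zero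
  have hdvd : ϖ ∣ lam * ϖ := Dvd.intro_left lam rfl
  -- `a'` is a unit on both branches
  obtain ⟨ha₁, ha₁', ha0⟩ := Cg.unit_of_one hG₁ hR₁ hdvd hc0 hj₁
  have hζ1 : Cg 𝒪₂ ϖ (algebraMap R F ((1 + lam) ^ j)) 1 := by
    have h1 : ϖ ∣ (1 + lam) ^ j - 1 := by
      have h2 := sub_dvd_pow_sub_pow (1 + lam) 1 j
      rw [one_pow, add_sub_cancel_left] at h2
      exact hU.dvd.trans h2
    have := GlueNode_cg_const hR₂ h1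
    rwa [map_one] at this
  obtain ⟨ha₂, ha₂', -⟩ := Cg.unit_of_one hG₂ hR₂ (dvd_refl ϖ) hϖ.ne_zero
    ((Cg.of_dvd hR₂ hdvd (Cg_algebraMap_ne_zero hϖ hG₂ hc0) hj₂).trans hζ1)
  have hac0 : a' ^ c ≠ 0 := pow_ne_zero c ha0
  -- the new root
  set a'' : F := τ a' / a' ^ c with ha''
  have hroot : a'' ^ p * (τ w / w ^ c) ∈ locAt C 𝔪 := by
    have e : a'' ^ p * (τ w / w ^ c) = τ (a' ^ p * w) * ((a' ^ p * w)⁻¹) ^ c := by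
      rw [ha'', map_mul, map_pow]
      ring
    rw [e]
    exact (locAt C 𝔪).mul_mem (GlueNode_map_locAt hC.le₁ hC.le₂ hτC hc 𝔪 h₁ h₂ e1)
      ((locAt C 𝔪).pow_mem e2 c)
  -- first branch
  have hb₁ : Cg 𝒪₁ (lam * ϖ) a'' 1 := by
    have t1 : Cg 𝒪₁ (lam * ϖ) (τ a') 1 := by
      have := Cg.map hϖ hG₁ hR₁ hτ.mapR hτ.mem₁ hc0 hj₁
      rwa [map_one] at this
    have t2 : Cg 𝒪₁ (lam * ϖ) (a' ^ c) 1 := by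
      have := Cg.pow hj₁ ha₁ 𝒪₁.one_mem c
      rwa [one_pow] at this
    refine Cg.div_of_unit (t1.trans t2.symm) ?_ hac0
    rw [← inv_pow]
    exact 𝒪₁.pow_mem ha₁' c
  -- second branch
  have hb₂ : Cg 𝒪₂ (lam * ϖ) a'' 1 := by
    have t1 : Cg 𝒪₂ (lam * ϖ) (τ a') (algebraMap R F (1 + lam) ^ (c * j)) := by
      have := Cg.map hϖ hG₂ hR₂ hτ.mapR hτ.mem₂ hc0 hj₂
      rwa [map_pow, map_pow, hζ, ← pow_mul] at this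
    have t2 : Cg 𝒪₂ (lam * ϖ) (a' ^ c) (algebraMap R F (1 + lam) ^ (c * j)) := by
      have := Cg.pow hj₂ ha₂ (hR₂ _) c
      rwa [map_pow, ← pow_mul, mul_comm j c] at this
    refine Cg.div_of_unit (t1.trans t2.symm) ?_ hac0
    rw [← inv_pow]
    exact 𝒪₂.pow_mem ha₂' c
  obtain ⟨s, hs, hsroot⟩ := Glue_descend 𝔪 hU.prime.pos hroot
  refine ⟨a'' * s, hsroot, s, hs, ?_, ?_⟩
  · have := Cg.mul_right (hC.le₁ _ s.2) hb₁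
    rwa [one_mul] at this
  · have := Cg.mul_right (hC.le₂ _ s.2) hb₂
    rwa [one_mul] at this

end Fermat.Agent.LP
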