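import Fermat.Agent.LP.Nod.CruxGlue
import Fermat.Agent.LP.Nod.GlueNode
import Fermat.Agent.GS.Abs.Unit
import Fermat.Agent.GS.Abs.Crux
import Fermat.Agent.GR.E.E7

/-!
# LP-NOD, file `Main`: the smooth and the nodal crux for `n = p`
-/

set_option autoImplicit false

namespace Fermat.Agent.LP

open Fermat.Agent.GR.E Fermat.Agent.GS

variable {R : Type*} [CommRing R] [IsDomain R] [IsDiscreteValuationRing R]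
variable {F : Type*} [Field F] [Algebra R F]
variable {ϖ : R} {𝒪 𝒪₁ 𝒪₂ : ValuationSubring F}

/-- `τ w / w ^ c ≡ 1` modulo `d` for one valuation (`ϖ ∣ d`). -/
theorem Main_cong (hϖ : Irreducible ϖ) (hG : GaussRing ϖ 𝒪) (hR : ∀ r : R, algebraMap R F r ∈ 𝒪)
    {τ : F ≃+* F} (hτR : ∀ r : R, ∃ r' : R, τ (algebraMap R F r) = algebraMap R F r')
    (hmem : ∀ x, τ x ∈ 𝒪 ↔ x ∈ 𝒪) {d : R} (hd0 : d ≠ 0) (hd : ϖ ∣ d) {w : F} (hw : Cg 𝒪 d w 1)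
    (c : ℕ) : Cg 𝒪 d (τ w / w ^ c) 1 := by
  obtain ⟨hwO, hwO', hw0⟩ := Cg.unit_of_one hG hR hd hd0 hw
  have h1 : Cg 𝒪 d (τ w) 1 := by
    have := Cg.map hϖ hG hR hτR hmem hd0 hw
    rwa [map_one] at this
  have h2 : Cg 𝒪 d (w ^ c) 1 := by
    have := Cg.pow hw hwO 𝒪.one_mem c
    rwa [one_pow] at this
  refine Cg.div_of_unit (h1.trans h2.symm) ?_ (pow_ne_zero c hw0)
  rw [← inv_pow]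
  exact 𝒪.pow_mem hwO' c

/-- THE SMOOTH CRUX AT `p`. -/
theorem smooth_cruxP (hϖ : Irreducible ϖ) (hG : GaussRing ϖ 𝒪) {h : F}
    (hh : h ∈ 𝒪) (hh' : h⁻¹ ∈ 𝒪) (h0 : h ≠ 0)
    (hC0 : GoodChart ϖ 𝒪 (chart R ({h} : Set F)))
    (hC1 : GoodChart ϖ 𝒪 (chart R ({h⁻¹} : Set F)))
    (hfin : Module.Finite (Algebra.adjoin R ({h} : Set F))
      (integralClosure (Algebra.adjoin R ({h} : Set F)) F))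
    {p : ℕ} {lam : R} (hU : PUnif ϖ p lam) {w : F}
    (hw : Cg 𝒪 (lam ^ p * ϖ) w 1) (hdiv : DivisibleAtPlaces R p w) :
    ∃ a : F, a ≠ 0 ∧ a ^ p * w ∈ chart R ({h} : Set F) ∧ a ^ p * w ∈ chart R ({h⁻¹} : Set F) := by
  have hR : ∀ r : R, algebraMap R F r ∈ 𝒪 := fun r =>
    hC0.le _ ((chart R ({h} : Set F)).algebraMap_mem r)
  obtain ⟨hwO, hwO', hw0⟩ := Cg.unit_of_one hG hR (Dvd.intro_left _ rfl)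
    (mul_ne_zero (pow_ne_zero _ hU.ne_zero) hϖ.ne_zero) hw
  exact crux_of_glueP hϖ hG hG hh hh' hh hh' h0 (satChart2_of_satChart hC0.toSatChart)
    (satChart2_of_satChart hC1.toSatChart) (E7_frac hC0) hfin hU hw hw
    (fun 𝔪 h𝔪 hϖ𝔪 => glueAtP_good hϖ hG hC0 hU hw 𝔪 h𝔪 hϖ𝔪
      (exists_mem_rootSet_not_mem hϖ hG hC0 hU.prime.pos hwO hwO' hw0 hdiv 𝔪 h𝔪 hϖ𝔪))
    (fun 𝔪 h𝔪 hϖ𝔪 => glueAtP_good hϖ hG hC1 hU hw 𝔪 h𝔪 hϖ𝔪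
      (exists_mem_rootSet_not_mem hϖ hG hC1 hU.prime.pos hwO hwO' hw0 hdiv 𝔪 h𝔪 hϖ𝔪))

omit [IsDomain R] [IsDiscreteValuationRing R] in
theorem Main_glueAtP_symm {C : Subalgebra R F} {d : R} {n : ℕ} {w : F} {𝔪 : Ideal C}
    (h : GlueAtP 𝒪₂ 𝒪₁ d C n w 𝔪) : GlueAtP 𝒪₁ 𝒪₂ d C n w 𝔪 := by
  obtain ⟨b, hb, e, he, h1, h2⟩ := h
  exact ⟨b, hb, e, he, h2, h1⟩

/-- gluing at all closed points of the special fibre of one nodal chart, gluing at the nodes being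
a hypothesis -/
theorem Main_glue (hϖ : Irreducible ϖ) (hG₁ : GaussRing ϖ 𝒪₁) (hG₂ : GaussRing ϖ 𝒪₂)
    {C : Subalgebra R F} (hC : NodalChart ϖ 𝒪₁ 𝒪₂ C) {p : ℕ} {lam : R} (hU : PUnif ϖ p lam) {w : F}
    (hw₁ : Cg 𝒪₁ (lam ^ p * ϖ) w 1) (hw₂ : Cg 𝒪₂ (lam ^ p * ϖ) w 1)
    (hdiv : DivisibleAtPlaces R p w) (hcert : CertAt ϖ C p w)
    (hn : ∀ 𝔪 : Ideal C, 𝔪.IsMaximal → vert ϖ 𝒪₁ C ≤ 𝔪 → vert ϖ 𝒪₂ C ≤ 𝔪 →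
      GlueAtP 𝒪₁ 𝒪₂ (lam * ϖ) C p w 𝔪)
    (𝔪 : Ideal C) (h𝔪 : 𝔪.IsMaximal) (hϖ𝔪 : algebraMap R C ϖ ∈ 𝔪) :
    GlueAtP 𝒪₁ 𝒪₂ (lam * ϖ) C p w 𝔪 := by
  have hR₁ : ∀ r : R, algebraMap R F r ∈ 𝒪₁ := fun r => hC.le₁ _ (C.algebraMap_mem r)
  have hR₂ : ∀ r : R, algebraMap R F r ∈ 𝒪₂ := fun r => hC.le₂ _ (C.algebraMap_mem r)
  have hd : ϖ ∣ lam ^ p * ϖ := Dvd.intro_left _ rfl
  have hw₁ϖ : (w - 1) / algebraMap R F ϖ ∈ 𝒪₁ := Cg.of_dvd hR₁ hd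
    (Cg_algebraMap_ne_zero hϖ hG₁ (mul_ne_zero (pow_ne_zero _ hU.ne_zero) hϖ.ne_zero)) hw₁
  have hw₂ϖ : (w - 1) / algebraMap R F ϖ ∈ 𝒪₂ := Cg.of_dvd hR₂ hd
    (Cg_algebraMap_ne_zero hϖ hG₂ (mul_ne_zero (pow_ne_zero _ hU.ne_zero) hϖ.ne_zero)) hw₂
  have hu := exists_unit_at hϖ hG₁ hG₂ hC hU.prime.pos hw₁ϖ hw₂ϖ hdiv hcert 𝔪 h𝔪 hϖ𝔪
  have := h𝔪.isPrime
  by_cases h₁ : vert ϖ 𝒪₁ C ≤ 𝔪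
  · by_cases h₂ : vert ϖ 𝒪₂ C ≤ 𝔪
    · exact hn 𝔪 h𝔪 h₁ h₂
    · exact glueAtP_of_not_le hϖ hG₁ hG₂ hC hU hw₁ hw₂ 𝔪 h𝔪 h₁ h₂ hu
  · have h₂ : vert ϖ 𝒪₂ C ≤ 𝔪 :=
      (vert_le_or_vert_le hG₁ hC.toSatChart2 𝔪 hϖ𝔪).resolve_left h₁
    exact Main_glueAtP_symm (glueAtP_of_not_le hϖ hG₂ hG₁ hC.symm hU hw₂ hw₁ 𝔪 h𝔪 h₂ h₁ hu)

/-- The nodal crux at `p`, gluing at the nodes as a hypothesis ("`γ = 0 ⟹` trivial"). -/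
theorem nodal_crux_of_nodesP (hϖ : Irreducible ϖ) (hG₁ : GaussRing ϖ 𝒪₁) (hG₂ : GaussRing ϖ 𝒪₂)
    {h : F} (hh₁ : h ∈ 𝒪₁) (hh₁' : h⁻¹ ∈ 𝒪₁) (hh₂ : h ∈ 𝒪₂) (hh₂' : h⁻¹ ∈ 𝒪₂) (h0 : h ≠ 0)
    (hC0 : NodalChart ϖ 𝒪₁ 𝒪₂ (chart R ({h} : Set F)))
    (hC1 : NodalChart ϖ 𝒪₁ 𝒪₂ (chart R ({h⁻¹} : Set F)))
    (hfin : Module.Finite (Algebra.adjoin R ({h} : Set F))
      (integralClosure (Algebra.adjoin R ({h} : Set F)) F))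
    {p : ℕ} {lam : R} (hU : PUnif ϖ p lam) {w : F}
    (hw₁ : Cg 𝒪₁ (lam ^ p * ϖ) w 1) (hw₂ : Cg 𝒪₂ (lam ^ p * ϖ) w 1)
    (hcert0 : CertAt ϖ (chart R ({h} : Set F)) p w)
    (hcert1 : CertAt ϖ (chart R ({h⁻¹} : Set F)) p w)
    (hn0 : ∀ 𝔪 : Ideal (chart R ({h} : Set F)), 𝔪.IsMaximal →
      vert ϖ 𝒪₁ (chart R ({h} : Set F)) ≤ 𝔪 → vert ϖ 𝒪₂ (chart R ({h} : Set F)) ≤ 𝔪 →
      GlueAtP 𝒪₁ 𝒪₂ (lam * ϖ) (chart R ({h} : Set F)) p w 𝔪)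
    (hn1 : ∀ 𝔪 : Ideal (chart R ({h⁻¹} : Set F)), 𝔪.IsMaximal →
      vert ϖ 𝒪₁ (chart R ({h⁻¹} : Set F)) ≤ 𝔪 → vert ϖ 𝒪₂ (chart R ({h⁻¹} : Set F)) ≤ 𝔪 →
      GlueAtP 𝒪₁ 𝒪₂ (lam * ϖ) (chart R ({h⁻¹} : Set F)) p w 𝔪) :
    ∃ a : F, a ≠ 0 ∧ a ^ p * w ∈ chart R ({h} : Set F) ∧ a ^ p * w ∈ chart R ({h⁻¹} : Set F) := by
  have hp0 : 0 < p := hU.prime.pos
  have hdiv : DivisibleAtPlaces R p w := divisibleAtPlaces_of_certAt hG₁.ne_zero hp0 hcert0 hcert1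
  exact crux_of_glueP hϖ hG₁ hG₂ hh₁ hh₁' hh₂ hh₂' h0 hC0.toSatChart2 hC1.toSatChart2
    (Crux_frac hC0) hfin hU hw₁ hw₂
    (Main_glue hϖ hG₁ hG₂ hC0 hU hw₁ hw₂ hdiv hcert0 hn0)
    (Main_glue hϖ hG₁ hG₂ hC1 hU hw₁ hw₂ hdiv hcert1 hn1)

/-- THE NODAL CRUX AT `p`.  `w ≡ 1` modulo `lam ^ p ϖ` on both components, `p ∣ div w`, `τ` a Galois
automorphism which is trivial at the nodes, `τ ζ = ζ ^ c`.  Then `τ w / w ^ c` is a constant times a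
`p`-th power. -/
theorem nodal_cruxP (hϖ : Irreducible ϖ) (hG₁ : GaussRing ϖ 𝒪₁) (hG₂ : GaussRing ϖ 𝒪₂)
    {h : F} (hh₁ : h ∈ 𝒪₁) (hh₁' : h⁻¹ ∈ 𝒪₁) (hh₂ : h ∈ 𝒪₂) (hh₂' : h⁻¹ ∈ 𝒪₂) (h0 : h ≠ 0)
    (hC0 : NodalChart ϖ 𝒪₁ 𝒪₂ (chart R ({h} : Set F)))
    (hC1 : NodalChart ϖ 𝒪₁ 𝒪₂ (chart R ({h⁻¹} : Set F)))
    (hfin : Module.Finite (Algebra.adjoin R ({h} : Set F))
      (integralClosure (Algebra.adjoin R ({h} : Set F)) F))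
    {p : ℕ} {lam : R} (hU : PUnif ϖ p lam) {w : F}
    (hw₁ : Cg 𝒪₁ (lam ^ p * ϖ) w 1) (hw₂ : Cg 𝒪₂ (lam ^ p * ϖ) w 1)
    (hcert0 : CertAt ϖ (chart R ({h} : Set F)) p w)
    (hcert1 : CertAt ϖ (chart R ({h⁻¹} : Set F)) p w)
    {τ : F ≃+* F} (hτ : ChartAut R 𝒪₁ 𝒪₂ h τ)
    (hc0 : FrobLike ϖ 𝒪₁ 𝒪₂ (chart R ({h} : Set F)) τ 1)
    (hc1 : FrobLike ϖ 𝒪₁ 𝒪₂ (chart R ({h⁻¹} : Set F)) τ 1) {c : ℕ}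
    (hζ : τ (algebraMap R F (1 + lam)) = algebraMap R F (1 + lam) ^ c) :
    ∃ a : F, a ≠ 0 ∧ a ^ p * (τ w / w ^ c) ∈ chart R ({h} : Set F) ∧
      a ^ p * (τ w / w ^ c) ∈ chart R ({h⁻¹} : Set F) := by
  have hp0 : 0 < p := hU.prime.pos
  have hR₁ : ∀ r : R, algebraMap R F r ∈ 𝒪₁ := fun r =>
    hC0.le₁ _ ((chart R ({h} : Set F)).algebraMap_mem r)
  have hR₂ : ∀ r : R, algebraMap R F r ∈ 𝒪₂ := fun r =>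
    hC0.le₂ _ ((chart R ({h} : Set F)).algebraMap_mem r)
  have hd0 : lam ^ p * ϖ ≠ 0 := mul_ne_zero (pow_ne_zero p hU.ne_zero) hϖ.ne_zero
  have hd : ϖ ∣ lam ^ p * ϖ := Dvd.intro_left _ rfl
  have hτC0 : ∀ x ∈ chart R ({h} : Set F), τ x ∈ chart R ({h} : Set F) := fun x hx =>
    hτ.map_mem_chart (S := {h}) (by
      intro s hs
      rw [Set.mem_singleton_iff] at hs ⊢
      rw [hs, hτ.fix]) hx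
  have hτC1 : ∀ x ∈ chart R ({h⁻¹} : Set F), τ x ∈ chart R ({h⁻¹} : Set F) := fun x hx =>
    hτ.map_mem_chart (S := {h⁻¹}) (by
      intro s hs
      rw [Set.mem_singleton_iff] at hs ⊢
      rw [hs, map_inv₀, hτ.fix]) hx
  have hcert0' : CertAt ϖ (chart R ({h} : Set F)) p (τ w / w ^ c) := by
    rw [div_eq_mul_inv]
    exact (hcert0.map hϖ hG₁.ne_zero hτ hτC0).mul (hcert0.pow c).inv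
  have hcert1' : CertAt ϖ (chart R ({h⁻¹} : Set F)) p (τ w / w ^ c) := by
    rw [div_eq_mul_inv]
    exact (hcert1.map hϖ hG₁.ne_zero hτ hτC1).mul (hcert1.pow c).inv
  have hdiv : DivisibleAtPlaces R p w := divisibleAtPlaces_of_certAt hG₁.ne_zero hp0 hcert0 hcert1
  have hw₁ϖ : (w - 1) / algebraMap R F ϖ ∈ 𝒪₁ := Cg.of_dvd hR₁ hd
    (Cg_algebraMap_ne_zero hϖ hG₁ (mul_ne_zero (pow_ne_zero _ hU.ne_zero) hϖ.ne_zero)) hw₁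
  have hw₂ϖ : (w - 1) / algebraMap R F ϖ ∈ 𝒪₂ := Cg.of_dvd hR₂ hd
    (Cg_algebraMap_ne_zero hϖ hG₂ (mul_ne_zero (pow_ne_zero _ hU.ne_zero) hϖ.ne_zero)) hw₂
  exact nodal_crux_of_nodesP hϖ hG₁ hG₂ hh₁ hh₁' hh₂ hh₂' h0 hC0 hC1 hfin hU
    (Main_cong hϖ hG₁ hR₁ hτ.mapR hτ.mem₁ hd0 hd hw₁ c)
    (Main_cong hϖ hG₂ hR₂ hτ.mapR hτ.mem₂ hd0 hd hw₂ c) hcert0' hcert1'
    (fun 𝔪 h𝔪 h₁ h₂ => glueAtP_node hϖ hG₁ hG₂ hC0 hU hw₁ hw₂ hτ hτC0 hc0 hζ 𝔪 h𝔪 h₁ h₂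
      (exists_unit_at hϖ hG₁ hG₂ hC0 hp0 hw₁ϖ hw₂ϖ hdiv hcert0 𝔪 h𝔪
        (h₁ (algebraMap_mem_vert hG₁ _))))
    (fun 𝔪 h𝔪 h₁ h₂ => glueAtP_node hϖ hG₁ hG₂ hC1 hU hw₁ hw₂ hτ hτC1 hc1 hζ 𝔪 h𝔪 h₁ h₂
      (exists_unit_at hϖ hG₁ hG₂ hC1 hp0 hw₁ϖ hw₂ϖ hdiv hcert1 𝔪 h𝔪
        (h₁ (algebraMap_mem_vert hG₁ _))))

end Fermat.Agent.LP
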