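import Fermat.Agent.LP.Nod.Defs

/-!
# LP-NOD, file `Zeta`: `lam = ζ_p - 1` satisfies `PUnif`

`R` a domain, `ϖ` a prime element dividing `p`, `ζ` a primitive `p`-th root of unity, `lam = ζ - 1`.
* `ne_zero`: `ζ ≠ 1` (`IsPrimitiveRoot.ne_one`, `p ≥ 2`).
* `dvd`: `lam ^ p ≡ ζ ^ p - 1 = 0` modulo `p` (`sub_pow_char`-type: `exists_add_pow_prime_eq` /
  `Commute.exists_add_pow_prime_eq`, or `LP.Poly_sub_pow` if you import `Poly`), so `ϖ ∣ lam ^ p`,
  `ϖ ∣ lam`.
* `eq`: `∏_{j=1}^{p-1} (1 - ζ ^ j) = p` (evaluate `∏_{j=1}^{p-1} (X - ζ ^ j) = 1 + X + ⋯ + X ^ (p-1)`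
  at `1`: `Polynomial.cyclotomic_prime`, `IsPrimitiveRoot.cyclotomic_eq...`/
  `Polynomial.cyclotomic_eq_prod_X_sub_primitiveRoots`, `Polynomial.eval_one_cyclotomic_prime`; or
  `IsPrimitiveRoot.pow_sub_pow_eq_prod_sub_mul` / `X_pow_sub_one_eq_prod`).
  `1 - ζ ^ j = - lam s_j`, `s_j = 1 + ζ + ⋯ + ζ ^ (j-1) ≡ j` modulo `lam`.  So
  `p = (-lam) ^ (p-1) ∏ s_j` and `u := - (-1) ^ (p-1) ∏ s_j ≡ - (-1) ^ (p-1) (p-1)! ≡ (-1) ^ (p-1)`
  modulo `ϖ` (Wilson: `ZMod.wilsons_lemma`); `(-1) ^ (p-1) = 1` for `p` odd, and `-1 ≡ 1` modulo `ϖ ∣ 2`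
  for `p = 2`.
-/

set_option autoImplicit false

namespace Fermat.Agent.LP

/-- `∏_{j=1}^{p-1} (1 - ζ ^ j) = p`. -/
theorem Zeta_prod_eq {R : Type*} [CommRing R] [IsDomain R] {p : ℕ} (hp : 0 < p) {ζ : R}
    (hζ : IsPrimitiveRoot ζ p) :
    ∏ i ∈ Finset.range (p - 1), (1 - ζ ^ (i + 1)) = (p : R) := by
  classical
  obtain ⟨m, rfl⟩ : ∃ m, p = m + 1 := ⟨p - 1, by omega⟩
  have h1 : (Polynomial.X ^ (m + 1) - Polynomial.C (1 : R)) =
      ∏ i ∈ Finset.range (m + 1), (Polynomial.X - Polynomial.C (ζ ^ i * 1)) :=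
    X_pow_sub_C_eq_prod hζ hp (one_pow _)
  rw [Finset.prod_range_succ'] at h1
  have h2 : (Polynomial.X ^ (m + 1) - Polynomial.C (1 : R)) =
      (∑ i ∈ Finset.range (m + 1), (Polynomial.X : Polynomial R) ^ i) * (Polynomial.X - 1) := by
    rw [geom_sum_mul, Polynomial.C_1]
  rw [h2] at h1
  have h3 : (Polynomial.X - Polynomial.C (ζ ^ 0 * 1) : Polynomial R) = Polynomial.X - 1 := by
    simp
  rw [h3] at h1
  have h4 : (Polynomial.X - 1 : Polynomial R) ≠ 0 := by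
    have := Polynomial.X_sub_C_ne_zero (1 : R)
    simpa using this
  have h5 := mul_right_cancel₀ h4 h1
  have h6 := congrArg (Polynomial.eval 1) h5
  simp only [Polynomial.eval_finsetSum, Polynomial.eval_pow, Polynomial.eval_X, one_pow,
    Finset.sum_const, Finset.card_range, Polynomial.eval_prod, Polynomial.eval_sub,
    Polynomial.eval_C, mul_one, nsmul_eq_mul] at h6
  simpa using h6.symm

/-- Wilson's theorem in a ring: `p ∣ (p-1)! + 1`. -/
theorem Zeta_wilson (R : Type*) [CommRing R] {p : ℕ} (hp : p.Prime) :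
    (p : R) ∣ (((p - 1).factorial : ℕ) : R) + 1 := by
  have : Fact p.Prime := ⟨hp⟩
  have h := ZMod.wilsons_lemma p
  have h1 : (((p - 1).factorial + 1 : ℕ) : ZMod p) = 0 := by
    push_cast
    rw [h]
    ring
  rw [ZMod.natCast_eq_zero_iff] at h1
  obtain ⟨k, hk⟩ := h1
  refine ⟨(k : R), ?_⟩
  have := congrArg (Nat.cast : ℕ → R) hk
  push_cast at this
  exact this

theorem punif_of_primitiveRoot {R : Type*} [CommRing R] [IsDomain R] {ϖ : R} (hϖ : Prime ϖ)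
    {p : ℕ} (hp : p.Prime) (hpϖ : ϖ ∣ (p : R)) {ζ : R} (hζ : IsPrimitiveRoot ζ p) :
    PUnif ϖ p (ζ - 1) := by
  classical
  -- `ϖ ∣ ζ - 1`
  have hdvd : ϖ ∣ ζ - 1 := by
    apply hϖ.dvd_of_dvd_pow (n := p)
    obtain ⟨r, hr⟩ := exists_add_pow_prime_eq hp ζ (-1)
    have h1 : (ζ - 1) ^ p = 1 + (-1) ^ p + (p : R) * ζ * (-1) * r := by
      rw [sub_eq_add_neg, hr, hζ.pow_eq_one]
    rw [h1]
    apply dvd_add
    · rcases hp.eq_two_or_odd' with rfl | hodd
      · have : (1 + (-1) ^ 2 : R) = ((2 : ℕ) : R) := by norm_num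
        rw [this]; exact hpϖ
      · rw [hodd.neg_one_pow]; simp
    · rw [mul_assoc, mul_assoc]
      exact Dvd.dvd.mul_right hpϖ _
  refine ⟨hp, sub_ne_zero.mpr (hζ.ne_one hp.one_lt), hdvd, ?_⟩
  set s : ℕ → R := fun j => ∑ k ∈ Finset.range j, ζ ^ k with hs
  have hfac : ∀ i, (1 - ζ ^ (i + 1)) = (-(ζ - 1)) * s (i + 1) := by
    intro i
    have := mul_geom_sum ζ (i + 1)
    rw [hs]
    simp only
    rw [neg_mul, this]
    ring
  have hprod : (p : R) = (-(ζ - 1)) ^ (p - 1) * ∏ i ∈ Finset.range (p - 1), s (i + 1) := by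
    rw [← Zeta_prod_eq hp.pos hζ, Finset.prod_congr rfl (fun i _ => hfac i),
      Finset.prod_mul_distrib, Finset.prod_const, Finset.card_range]
  refine ⟨-((-1) ^ (p - 1) * ∏ i ∈ Finset.range (p - 1), s (i + 1)), ?_, ?_⟩
  · conv_lhs => rw [hprod]
    rw [neg_pow]
    ring
  · -- work in the quotient
    set φ := Ideal.Quotient.mk (Ideal.span {ϖ}) with hφ
    have key : ∀ x : R, ϖ ∣ x ↔ φ x = 0 := by
      intro x
      rw [hφ, Ideal.Quotient.eq_zero_iff_mem, Ideal.mem_span_singleton]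
    rw [key]
    have hζ1 : φ ζ = 1 := by
      have := (key _).1 hdvd
      rw [map_sub, map_one, sub_eq_zero] at this
      exact this
    have hp0 : φ (p : R) = 0 := (key _).1 hpϖ
    have hsj : ∀ j, φ (s j) = (j : R ⧸ Ideal.span {ϖ}) := by
      intro j
      rw [hs]
      simp [map_sum, map_pow, hζ1]
    have hW : φ ((((p - 1).factorial : ℕ) : R) + 1) = 0 :=
      (key _).1 (hpϖ.trans (Zeta_wilson R hp))
    have hprodφ : φ (∏ i ∈ Finset.range (p - 1), s (i + 1)) = φ (((p - 1).factorial : ℕ) : R) := by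
      rw [map_prod, ← Finset.prod_range_add_one_eq_factorial]
      push_cast
      rw [map_prod]
      apply Finset.prod_congr rfl
      intro i _
      rw [hsj]
      simp
    have hW' : φ (((p - 1).factorial : ℕ) : R) = -1 := by
      rw [map_add, map_one] at hW
      exact eq_neg_of_add_eq_zero_left hW
    rw [map_sub, map_neg, map_mul, hprodφ, hW', map_pow, map_neg, map_one]
    rcases hp.eq_two_or_odd' with rfl | hodd
    · have h2 : (2 : R ⧸ Ideal.span {ϖ}) = 0 := by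
        rw [map_natCast] at hp0
        exact_mod_cast hp0
      have : (-((-1 : R ⧸ Ideal.span {ϖ}) ^ (2 - 1) * -1) - 1) = -2 := by norm_num
      rw [this, h2, neg_zero]
    · have heven : Even (p - 1) := by
        obtain ⟨k, hk⟩ := hodd
        exact ⟨k, by omega⟩
      rw [heven.neg_one_pow]
      ring

end Fermat.Agent.LP
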