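import Fermat.Agent.LP.Nod.BrGauss
import Fermat.Agent.LP.Nod.Zeta
import Fermat.Agent.LP.Nod.ApproxP
import Fermat.Agent.LP.Nod.Main
import Fermat.Agent.GS.Bridge.Arch
import Fermat.Agent.GS.Bridge.Cert

/-!
# LP-NOD bridge, file `BrNodal`: the nodal crux at `p` over a field of definition `L`

Twin of `GS.nodal_core` (`GS/Bridge/Core.lean`, helper39).  `R = A.comap φ`, `ϖ` a uniformizer,
`lam = ζ - 1`, `hU := punif_of_primitiveRoot`.
1. `BrGauss_isGaussInt` (`c = lam ^ p * d`) + `MD.spec`: `Cg 𝒪₁ (lam ^ p * d) (a / b) 1`, hence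
   (`ϖ ∣ d`, `Cg.of_dvd`) `Cg 𝒪₁ (lam ^ p * ϖ) (y * z₁ ^ p) 1`; the same for `a' / b'`, and with
   `z₂' := w.symm z₂`: `w ((y z₂' ^ p - 1) / c) = (a' / b' - 1) / c ∈ 𝒪₁` (`w` is `L`-linear, hence
   fixes `algebraMap R _ c`), i.e. `Cg 𝒪₂ (lam ^ p * ϖ) (y * z₂' ^ p) 1` by `MD.opp`.
2. `exists_common_powP` (with `MD.arch₁`, `MD.arch₂`, `MD.nodal0`): `z ≠ 0`, `w₀ := y z ^ p ≡ 1`
   modulo `lam ^ p ϖ` at both.
3. `CertAt` for `w₀` on both charts: `GS.certAt_of_certificate` for `y`, then `CertAt.mul_pow`.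
4. `LP.nodal_cruxP`: `α ≠ 0` with `α ^ p (τ w₀ / w₀ ^ c)` in both charts;
   `E.isIntegral_of_mem_chart_of_mem_chart` + `E.exists_const_of_isIntegral`: its image in `Q̄((t))`
   is a constant `c₀ = γ ^ p`.
5. `τ w₀ / w₀ ^ c = (τ y / y ^ c) (τ z / z ^ c) ^ p`, so `τ y = y ^ c (γ z ^ c / (α τ z)) ^ p` after
   applying `coeffMap φ`.
-/

set_option autoImplicit false
set_option synthInstance.maxHeartbeats 400000

noncomputable section

namespace Fermat.Agent.LP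

open Fermat.Agent.GR Fermat.Agent.GR.E Fermat.Agent.GS ModularCurve IntermediateField

theorem nodal_coreP {L : Type*} [Field L] (φ : L →+* Qb) (A : ValuationSubring Qb) (p N : ℕ)
    (h : FF L N) (w : FF L N ≃ₐ[L] FF L N) (𝒪₁ 𝒪₂ : ValuationSubring (FF L N))
    [IsDiscreteValuationRing (A.comap φ)]
    (MD : NodalModelData (A.comap φ) p N h w 𝒪₁ 𝒪₂) (hp : p.Prime)
    (hpA : ¬ IsUnit ((p : ℕ) : A.comap φ))
    (ζ d d' : A.comap φ) (hζ : IsPrimitiveRoot ζ p) (hd0 : d ≠ 0) (hd : ¬ IsUnit d)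
    (hd0' : d' ≠ 0) (hd' : ¬ IsUnit d')
    (y z₁ z₂ a b a' b' : FF L N) (hy : y ≠ 0) (hz₁ : z₁ ≠ 0) (hz₂ : z₂ ≠ 0) (hb0 : b ≠ 0)
    (hb0' : b' ≠ 0) (h₁ : a / b = y * z₁ ^ p) (h₂ : a' / b' = w y * z₂ ^ p)
    (hpa : IsPrim A (coeffMap φ (a : LaurentSeries L)))
    (hib : IsInt A (coeffMap φ (b : LaurentSeries L)))
    (hab : ∀ m : ℤ, ∃ r ∈ A, (coeffMap φ (a : LaurentSeries L)).coeff m -
      (coeffMap φ (b : LaurentSeries L)).coeff m = φ (((ζ - 1) ^ p * d : A.comap φ) : L) * r)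
    (hpa' : IsPrim A (coeffMap φ (a' : LaurentSeries L)))
    (hib' : IsInt A (coeffMap φ (b' : LaurentSeries L)))
    (hab' : ∀ m : ℤ, ∃ r ∈ A, (coeffMap φ (a' : LaurentSeries L)).coeff m -
      (coeffMap φ (b' : LaurentSeries L)).coeff m = φ (((ζ - 1) ^ p * d' : A.comap φ) : L) * r)
    (c0 : Certificate L h p y) (c1 : Certificate L h⁻¹ p y)
    (τ : FF L N ≃+* FF L N) (c : ℕ) (hτ : ChartAut (A.comap φ) 𝒪₁ 𝒪₂ h τ)
    (hc : ∀ ϖ : A.comap φ, Irreducible ϖ →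
      FrobLike ϖ 𝒪₁ 𝒪₂ (chart (A.comap φ) ({h} : Set (FF L N))) τ 1 ∧
      FrobLike ϖ 𝒪₁ 𝒪₂ (chart (A.comap φ) ({h⁻¹} : Set (FF L N))) τ 1)
    (hτζ : τ (algebraMap (A.comap φ) (FF L N) ζ) = algebraMap (A.comap φ) (FF L N) ζ ^ c) :
    KummerEquiv N p (coeffMap φ (y : LaurentSeries L) ^ c)
      (coeffMap φ ((τ y : FF L N) : LaurentSeries L)) := by
  obtain ⟨ϖ, hϖ⟩ := IsDiscreteValuationRing.exists_irreducible (A.comap φ)
  have hG₁ := MD.gauss₁ ϖ hϖ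
  have hG₂ := MD.gauss₂ ϖ hϖ
  have hn0 : p ≠ 0 := hp.ne_zero
  have hdvd : ∀ x : A.comap φ, ¬ IsUnit x → ϖ ∣ x := by
    intro x hx
    have h1 : x ∈ IsLocalRing.maximalIdeal (A.comap φ) := (IsLocalRing.mem_maximalIdeal x).2 hx
    rwa [hϖ.maximalIdeal_eq, Ideal.mem_span_singleton] at h1
  have hU : PUnif ϖ p (ζ - 1) := punif_of_primitiveRoot hϖ.prime hp (hdvd _ hpA) hζ
  have hR₁ : ∀ r : A.comap φ, algebraMap (A.comap φ) (FF L N) r ∈ 𝒪₁ := fun r =>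
    (MD.nodal0 ϖ hϖ).le₁ _ (Subalgebra.algebraMap_mem _ r)
  have hlam0 : ζ - 1 ≠ 0 := hU.ne_zero
  -- step 1
  have key : ∀ (d : A.comap φ), d ≠ 0 → ¬ IsUnit d → ∀ a b : FF L N, b ≠ 0 →
      IsPrim A (coeffMap φ (a : LaurentSeries L)) → IsInt A (coeffMap φ (b : LaurentSeries L)) →
      (∀ m : ℤ, ∃ r ∈ A, (coeffMap φ (a : LaurentSeries L)).coeff m -
        (coeffMap φ (b : LaurentSeries L)).coeff m = φ (((ζ - 1) ^ p * d : A.comap φ) : L) * r) →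
      Cg 𝒪₁ ((ζ - 1) ^ p * ϖ) (a / b) 1 := by
    intro d hd0 hd a b hb0 hpa hib hab
    have hc0 : (ζ - 1) ^ p * d ≠ 0 := mul_ne_zero (pow_ne_zero _ hlam0) hd0
    have hcu : ¬ IsUnit ((ζ - 1) ^ p * d) := fun h => hd (isUnit_of_mul_isUnit_right h)
    have h1 : Cg 𝒪₁ ((ζ - 1) ^ p * d) (a / b) 1 := by
      unfold Cg
      rw [MD.spec]
      exact BrGauss_isGaussInt φ A N _ hc0 hcu a b hb0 hpa hib hab
    exact h1.of_dvd hR₁ (mul_dvd_mul_left _ (hdvd d hd)) (Cg_algebraMap_ne_zero hϖ hG₁ hc0)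
  have e₁ : Cg 𝒪₁ ((ζ - 1) ^ p * ϖ) (y * z₁ ^ p) 1 := by
    rw [← h₁]
    exact key d hd0 hd a b hb0 hpa hib hab
  have e₂' : Cg 𝒪₁ ((ζ - 1) ^ p * ϖ) (w y * z₂ ^ p) 1 := by
    rw [← h₂]
    exact key d' hd0' hd' a' b' hb0' hpa' hib' hab'
  have hwP : ∀ r : A.comap φ, w (algebraMap (A.comap φ) (FF L N) r) =
      algebraMap (A.comap φ) (FF L N) r := fun r => w.commutes (r : L)
  have e₂ : Cg 𝒪₂ ((ζ - 1) ^ p * ϖ) (y * (w.symm z₂) ^ p) 1 := by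
    unfold Cg at e₂' ⊢
    rw [MD.opp, map_div₀, map_sub, map_mul, map_pow, w.apply_symm_apply, map_one, hwP]
    exact e₂'
  have hz₂' : w.symm z₂ ≠ 0 := by
    simpa using hz₂
  -- step 2
  obtain ⟨z, hz0, hw₁, hw₂⟩ := exists_common_powP hϖ hG₁ hG₂ (MD.arch₁ hϖ) (MD.arch₂ hϖ)
    (MD.nodal0 ϖ hϖ) hU hz₁ hz₂' e₁ e₂
  -- step 3
  have cert0 : CertAt ϖ (chart (A.comap φ) ({h} : Set (FF L N))) p (y * z ^ p) :=
    (certAt_of_certificate (A.comap φ) hϖ h p hn0 y c0).mul_pow hz0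
  have cert1 : CertAt ϖ (chart (A.comap φ) ({h⁻¹} : Set (FF L N))) p (y * z ^ p) :=
    (certAt_of_certificate (A.comap φ) hϖ h⁻¹ p hn0 y c1).mul_pow hz0
  -- step 4
  obtain ⟨α, hα0, hα1, hα2⟩ := nodal_cruxP hϖ hG₁ hG₂ MD.mem₁ MD.inv_mem₁ MD.mem₂ MD.inv_mem₂
    MD.ne_zero (MD.nodal0 ϖ hϖ) (MD.nodal1 ϖ hϖ) MD.finite hU hw₁ hw₂ cert0 cert1 hτ
    (hc ϖ hϖ).1 (hc ϖ hϖ).2 (c := c) (by rw [add_sub_cancel]; exact hτζ)
  have hint := isIntegral_of_mem_chart_of_mem_chart MD.transc hα1 hα2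
  obtain ⟨c₀, hc₀⟩ := exists_const_of_isIntegral (A.comap φ) N φ _ hint
  obtain ⟨γ, hγ⟩ := IsAlgClosed.exists_pow_nat_eq c₀ (Nat.pos_of_ne_zero hn0)
  -- step 5
  have hinj := BR7_coeffMap_injective φ
  have hne : ∀ x : FF L N, x ≠ 0 → coeffMap φ (x : LaurentSeries L) ≠ 0 := by
    intro x hx h0
    apply hx
    apply Subtype.ext
    apply hinj
    rw [h0]; simp
  have hα' := hne α hα0
  have hy' := hne y hy
  have hz' := hne z hz0
  have hτy' := hne (τ y) (by simpa using hy)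
  have hτz' := hne (τ z) (by simpa using hz0)
  have hcc : coeffMap φ (α : LaurentSeries L) ^ p *
      (coeffMap φ ((τ y : FF L N) : LaurentSeries L) *
        coeffMap φ ((τ z : FF L N) : LaurentSeries L) ^ p /
        (coeffMap φ (y : LaurentSeries L) * coeffMap φ (z : LaurentSeries L) ^ p) ^ c) =
      HahnSeries.C γ ^ p := by
    rw [← map_pow HahnSeries.C, hγ, ← hc₀]
    simp
  have hγ0 : HahnSeries.C γ ≠ (0 : LaurentSeries Qb) := by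
    intro h0
    rw [h0, zero_pow hn0] at hcc
    exact (mul_ne_zero (pow_ne_zero _ hα') (div_ne_zero (mul_ne_zero hτy' (pow_ne_zero _ hτz'))
      (pow_ne_zero _ (mul_ne_zero hy' (pow_ne_zero _ hz'))))) hcc
  refine ⟨HahnSeries.C γ * coeffMap φ (z : LaurentSeries L) ^ c /
      (coeffMap φ (α : LaurentSeries L) * coeffMap φ ((τ z : FF L N) : LaurentSeries L)), ?_,
    div_ne_zero (mul_ne_zero hγ0 (pow_ne_zero _ hz')) (mul_ne_zero hα' hτz'), ?_⟩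
  · apply div_mem
    · apply mul_mem
      · have : (HahnSeries.C γ : LaurentSeries Qb) = algebraMap Qb (LaurentSeries Qb) γ := by
          rw [algebraMap_laurentSeries_eq_single]; rfl
        rw [this]
        exact (FF Qb N).algebraMap_mem _
      · exact pow_mem (coeffMap_mem_FF φ N z.2) _
    · exact mul_mem (coeffMap_mem_FF φ N α.2) (coeffMap_mem_FF φ N (τ z).2)
  · rw [div_pow, mul_pow, ← hcc]
    field_simp
    ring

end Fermat.Agent.LP
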