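import Fermat.Agent.LP.Nod.BrGauss
import Fermat.Agent.LP.Nod.Zeta
import Fermat.Agent.LP.Nod.Main
import Fermat.Agent.GR.D.Top.Main
import Fermat.Agent.GR.D.LevelChange
import Fermat.Agent.GR.C.Main

/-!
# LP-NOD bridge, file `BrSmooth`: `SmoothCruxP`

* `smooth_coreP`: copy of `GR.E.BR7_core` with `crux_abstract` replaced by `LP.smooth_cruxP`.
  `ϖ` a uniformizer of `R = A.comap φ`; `hU := punif_of_primitiveRoot` (`ϖ ∣ p` because `p` is not a
  unit of `R`); `lam = ζ - 1`.  `BrGauss_isGaussInt` with `c = lam ^ p * d` + `MD.spec` give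
  `Cg 𝒪 (lam ^ p * d) (a / b) 1`; `ϖ ∣ d`, so `Cg 𝒪 (lam ^ p * ϖ) (a / b) 1` (`Cg.of_dvd`;
  `hR : ∀ r, algebraMap R _ r ∈ 𝒪` from `(MD.good0 ϖ hϖ).le` and `Subalgebra.algebraMap_mem`).
  The end (constants are `p`-th powers in `Q̄`) is verbatim `BR7_core`.
* `smoothCruxP_of_hasModel`: copy of `GR.E.crux_of_hasModel`.  Given `y`: unfold `DeepAt`: `ζ d a b`.
  If `d = 0` then `a = b` and there is nothing to prove.  `a / b` is Kummer
  (`GR.C.isKummer_of_kummerEquiv` or by hand).  Put also the constant series `C ζ`, `C d` into the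
  finset given to `exists_level`, so that `ζ = algebraMap L Qb ζL`, `d = algebraMap L Qb dL`
  (coefficient `0`); `ζL, dL ∈ R` because `ζ, d ∈ A`.
  Conclusion `KummerEquiv N' p b a`, i.e. `a / b ~ 1`, then `y ~ a / b ~ 1`.
* `smoothCruxP`: if `2 ∣ M0` use `GR.D.Top.hasModel_h2`; otherwise work at level `M0 * 2`
  (`GR.D.LC.isKummer_mono`, `DeepAt.mono`) and come back with `GR.D.LC.kummerEquiv_descend`
  (`r = 2`; no coprimality is needed).
-/

set_option autoImplicit false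
set_option synthInstance.maxHeartbeats 400000

noncomputable section

namespace Fermat.Agent.LP

open Fermat.Agent.GR Fermat.Agent.GR.E ModularCurve IntermediateField

theorem smooth_coreP {L : Type*} [Field L] (φ : L →+* Qb) (A : ValuationSubring Qb) (N : ℕ)
    (h : FF L N) (𝒪 : ValuationSubring (FF L N)) [IsDiscreteValuationRing (A.comap φ)]
    (MD : ModelData (A.comap φ) N h 𝒪) (p : ℕ) (hp : p.Prime)
    (hpA : ¬ IsUnit ((p : ℕ) : A.comap φ))
    (ζ d : A.comap φ) (hζ : IsPrimitiveRoot ζ p) (hd0 : d ≠ 0) (hd : ¬ IsUnit d)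
    (a b : FF L N) (ha0 : a ≠ 0) (hb0 : b ≠ 0)
    (hpa : IsPrim A (coeffMap φ (a : LaurentSeries L)))
    (hib : IsInt A (coeffMap φ (b : LaurentSeries L)))
    (hab : ∀ m : ℤ, ∃ r ∈ A, (coeffMap φ (a : LaurentSeries L)).coeff m -
      (coeffMap φ (b : LaurentSeries L)).coeff m = φ (((ζ - 1) ^ p * d : A.comap φ) : L) * r)
    (hdiv : DivisibleAtPlaces (A.comap φ) p (a / b)) :
    KummerEquiv N p (coeffMap φ (b : LaurentSeries L)) (coeffMap φ (a : LaurentSeries L)) := by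
  obtain ⟨ϖ, hϖ⟩ := IsDiscreteValuationRing.exists_irreducible (A.comap φ)
  have hG := MD.gauss ϖ hϖ
  have hn0 : p ≠ 0 := hp.ne_zero
  have hdvd : ∀ x : A.comap φ, ¬ IsUnit x → ϖ ∣ x := by
    intro x hx
    have h1 : x ∈ IsLocalRing.maximalIdeal (A.comap φ) := (IsLocalRing.mem_maximalIdeal x).2 hx
    rwa [hϖ.maximalIdeal_eq, Ideal.mem_span_singleton] at h1
  have hU : PUnif ϖ p (ζ - 1) := punif_of_primitiveRoot hϖ.prime hp (hdvd _ hpA) hζ
  have hR : ∀ r : A.comap φ, algebraMap (A.comap φ) (FF L N) r ∈ 𝒪 := fun r =>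
    (MD.good0 ϖ hϖ).le _ (Subalgebra.algebraMap_mem _ r)
  have hlam0 : ζ - 1 ≠ 0 := hU.ne_zero
  have hc0 : (ζ - 1) ^ p * d ≠ 0 := mul_ne_zero (pow_ne_zero _ hlam0) hd0
  have hcu : ¬ IsUnit ((ζ - 1) ^ p * d) := fun h => hd (isUnit_of_mul_isUnit_right h)
  have h1 : Cg 𝒪 ((ζ - 1) ^ p * d) (a / b) 1 := by
    unfold Cg
    rw [MD.spec]
    exact BrGauss_isGaussInt φ A N _ hc0 hcu a b hb0 hpa hib hab
  have hw1 : Cg 𝒪 ((ζ - 1) ^ p * ϖ) (a / b) 1 :=
    h1.of_dvd hR (mul_dvd_mul_left _ (hdvd d hd)) (Cg_algebraMap_ne_zero hϖ hG hc0)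
  obtain ⟨α, hα0, hα1, hα2⟩ := smooth_cruxP hϖ hG MD.mem MD.inv_mem MD.ne_zero
    (MD.good0 ϖ hϖ) (MD.good1 ϖ hϖ) MD.finite hU hw1 hdiv
  have hint := isIntegral_of_mem_chart_of_mem_chart MD.transc hα1 hα2
  obtain ⟨c₀, hc₀⟩ := exists_const_of_isIntegral (A.comap φ) N φ _ hint
  obtain ⟨γ, hγ⟩ := IsAlgClosed.exists_pow_nat_eq c₀ (Nat.pos_of_ne_zero hn0)
  have hinj := BR7_coeffMap_injective φ
  have hα' : coeffMap φ (α : LaurentSeries L) ≠ 0 := by
    intro h0
    apply hα0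
    apply Subtype.ext
    apply hinj
    rw [h0]; simp
  have hb' : coeffMap φ (b : LaurentSeries L) ≠ 0 := by
    intro h0
    apply hb0
    apply Subtype.ext
    apply hinj
    rw [h0]; simp
  have ha' : coeffMap φ (a : LaurentSeries L) ≠ 0 := by
    intro h0
    apply ha0
    apply Subtype.ext
    apply hinj
    rw [h0]; simp
  have hc : coeffMap φ (α : LaurentSeries L) ^ p *
      (coeffMap φ (a : LaurentSeries L) / coeffMap φ (b : LaurentSeries L)) =
      HahnSeries.C γ ^ p := by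
    rw [← map_pow HahnSeries.C, hγ, ← hc₀]
    simp
  have hγ0 : HahnSeries.C γ ≠ (0 : LaurentSeries Qb) := by
    intro h0
    rw [h0, zero_pow hn0] at hc
    exact (mul_ne_zero (pow_ne_zero _ hα') (div_ne_zero ha' hb')) hc
  refine ⟨HahnSeries.C γ / coeffMap φ (α : LaurentSeries L), ?_, div_ne_zero hγ0 hα', ?_⟩
  · apply div_mem
    · have : (HahnSeries.C γ : LaurentSeries Qb) = algebraMap Qb (LaurentSeries Qb) γ := by
        rw [algebraMap_laurentSeries_eq_single]; rfl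
      rw [this]
      exact (FF Qb N).algebraMap_mem _
    · exact coeffMap_mem_FF φ N α.2
  · rw [div_pow, ← hc]
    field_simp

theorem BrSmooth_C_mem (N : ℕ) (c : Qb) : (HahnSeries.C c : LaurentSeries Qb) ∈ FF Qb N := by
  have : (HahnSeries.C c : LaurentSeries Qb) = algebraMap Qb (LaurentSeries Qb) c := by
    rw [algebraMap_laurentSeries_eq_single]; rfl
  rw [this]
  exact (FF Qb N).algebraMap_mem _

/-- a constant which lives at level `L` comes from `L`. -/
theorem BrSmooth_exists_const (L : IntermediateField ℚ Qb) {c : Qb} {u : LaurentSeries L}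
    (hu : coeffMap (algebraMap L Qb) u = HahnSeries.C c) : ∃ cL : L, algebraMap L Qb cL = c := by
  refine ⟨u.coeff 0, ?_⟩
  have h := congrArg (fun x : LaurentSeries Qb => x.coeff 0) hu
  simpa [coeffMap_coeff] using h

theorem BrSmooth_not_isUnit {L : Type*} [Field L] (φ : L →+* Qb) (A : ValuationSubring Qb)
    (d : A.comap φ) (hd : φ (d : L) ∈ A.nonunits) : ¬ IsUnit d := by
  rw [← BR7_mem_nonunits_comap, ValuationSubring.mem_nonunits_iff_exists_mem_maximalIdeal] at hd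
  obtain ⟨_, hd⟩ := hd
  exact hd

/-- the version of `smoothCruxP_of_hasModel` for a quotient `a / b`. -/
theorem BrSmooth_crux (A : ValuationSubring Qb) (p : ℕ) (hp : p.Prime)
    (hA : A.LiesOverPrime p) (N' : ℕ) (H : LaurentSeries ℤ) (hM : HasModel A N' H)
    (ζ d : Qb) (hζ : IsPrimitiveRoot ζ p) (hd : d ∈ A.nonunits) (hd0 : d ≠ 0)
    (a b : LaurentSeries Qb) (ha : a ∈ FF Qb N') (hb : b ∈ FF Qb N') (hpa : IsPrim A a)
    (hib : IsInt A b) (hab : ∀ m : ℤ, ∃ r ∈ A, a.coeff m - b.coeff m = (ζ - 1) ^ p * d * r)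
    (hK : IsKummer (N := N') p (a / b)) :
    KummerEquiv N' p b a := by
  classical
  have hn0 : p ≠ 0 := hp.ne_zero
  obtain ⟨hab0, hmem, hdivQ⟩ := hK
  have ha0 : a ≠ 0 := fun h => hab0 (by rw [h, zero_div])
  have hb0 : b ≠ 0 := fun h => hab0 (by rw [h, div_zero])
  have hwQ0 : (⟨a / b, hmem⟩ : FF Qb N') ≠ 0 := fun h => hab0 (congrArg Subtype.val h)
  have := hM.finDim
  obtain ⟨m0, a0, b0, ha0i, hb0i, hs0⟩ := exists_certificate
    (⟨baseFn Qb H, hM.mem Qb⟩ : FF Qb N') hM.transc p (Nat.pos_of_ne_zero hn0) _ hwQ0 hdivQ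
  have := BR7_finiteDimensional_inv (⟨baseFn Qb H, hM.mem Qb⟩ : FF Qb N') hM.finDim
  obtain ⟨m1, a1, b1, ha1i, hb1i, hs1⟩ := exists_certificate
    (⟨baseFn Qb H, hM.mem Qb⟩ : FF Qb N')⁻¹ (BR7_transcendental_inv hM.transc) p
    (Nat.pos_of_ne_zero hn0) _ hwQ0 hdivQ
  obtain ⟨L, hLfin, hL⟩ := exists_level N'
    (({a, b} ∪ {HahnSeries.C ζ, HahnSeries.C d}) ∪
      (Finset.univ.image (fun i => (a0 i : LaurentSeries Qb)) ∪
      Finset.univ.image (fun i => (b0 i : LaurentSeries Qb))) ∪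
      (Finset.univ.image (fun i => (a1 i : LaurentSeries Qb)) ∪
      Finset.univ.image (fun i => (b1 i : LaurentSeries Qb)))) (by
    intro u hu
    simp only [Finset.mem_union, Finset.mem_insert, Finset.mem_singleton, Finset.mem_image,
      Finset.mem_univ, true_and] at hu
    rcases hu with (((rfl | rfl) | (rfl | rfl)) | ⟨i, rfl⟩ | ⟨i, rfl⟩) | ⟨i, rfl⟩ | ⟨i, rfl⟩
    · exact ha
    · exact hb
    · exact BrSmooth_C_mem N' ζ
    · exact BrSmooth_C_mem N' d
    · exact (a0 i).2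
    · exact (b0 i).2
    · exact (a1 i).2
    · exact (b1 i).2)
  have hdesc : ∀ u : FF Qb N', (∃ u' ∈ FF L N', coeffMap (algebraMap L Qb) u' = u) →
      ∃ x : FF L N', mapFF (algebraMap L Qb) N' x = u := by
    rintro u ⟨u', hu', hu''⟩
    exact ⟨⟨u', hu'⟩, Subtype.ext hu''⟩
  obtain ⟨aL, haL, haL'⟩ := hL a (by simp)
  obtain ⟨bL, hbL, hbL'⟩ := hL b (by simp)
  obtain ⟨ζs, -, hζs⟩ := hL (HahnSeries.C ζ) (by simp)
  obtain ⟨ds, -, hds⟩ := hL (HahnSeries.C d) (by simp)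
  obtain ⟨ζL, hζL⟩ := BrSmooth_exists_const L hζs
  obtain ⟨dL, hdL⟩ := BrSmooth_exists_const L hds
  have hda0 : ∀ i, ∃ x : FF L N', mapFF (algebraMap L Qb) N' x = a0 i := fun i =>
    hdesc _ (hL _ (Finset.mem_union_left _ (Finset.mem_union_right _ (Finset.mem_union_left _
      (Finset.mem_image_of_mem _ (Finset.mem_univ i))))))
  have hdb0 : ∀ i, ∃ x : FF L N', mapFF (algebraMap L Qb) N' x = b0 i := fun i =>
    hdesc _ (hL _ (Finset.mem_union_left _ (Finset.mem_union_right _ (Finset.mem_union_right _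
      (Finset.mem_image_of_mem _ (Finset.mem_univ i))))))
  have hda1 : ∀ i, ∃ x : FF L N', mapFF (algebraMap L Qb) N' x = a1 i := fun i =>
    hdesc _ (hL _ (Finset.mem_union_right _ (Finset.mem_union_left _
      (Finset.mem_image_of_mem _ (Finset.mem_univ i)))))
  have hdb1 : ∀ i, ∃ x : FF L N', mapFF (algebraMap L Qb) N' x = b1 i := fun i =>
    hdesc _ (hL _ (Finset.mem_union_right _ (Finset.mem_union_right _
      (Finset.mem_image_of_mem _ (Finset.mem_univ i)))))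
  clear hL hdesc
  have hw : mapFF (algebraMap L Qb) N' ((⟨aL, haL⟩ : FF L N') / ⟨bL, hbL⟩) = ⟨a / b, hmem⟩ := by
    apply Subtype.ext
    rw [map_div₀]
    show coeffMap (algebraMap L Qb) aL / coeffMap (algebraMap L Qb) bL = a / b
    rw [haL', hbL']
  have hh := BR7_mapFF_baseFn L N' H (hM.mem L) (hM.mem Qb)
  have c0 : Certificate L (⟨baseFn L H, hM.mem L⟩ : FF L N') p
      ((⟨aL, haL⟩ : FF L N') / ⟨bL, hbL⟩) := by
    apply BR7_cert_descent L N' p _ _ m0 a0 b0 _ _ hs0 hda0 hdb0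
    · rw [hh, hw]; exact ha0i
    · rw [hh, hw]; exact hb0i
  have c1 : Certificate L (⟨baseFn L H, hM.mem L⟩ : FF L N')⁻¹ p
      ((⟨aL, haL⟩ : FF L N') / ⟨bL, hbL⟩) := by
    apply BR7_cert_descent L N' p _ _ m1 a1 b1 _ _ hs1 hda1 hdb1
    · rw [map_inv₀, hh, hw]; exact ha1i
    · rw [map_inv₀, hh, hw]; exact hb1i
  have hdiv := divisibleAtPlaces_of_certificate (A.comap (algebraMap L Qb)) _ p _ c0 c1
  have hdvr := isDiscreteValuationRing_comap A p hp hA L
  have hpu := BR5_not_isUnit_natCast A p hA L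
  obtain ⟨𝒪, MD⟩ := hM.model L hdvr
  have hζmem : ζL ∈ A.comap (algebraMap L Qb) := by
    rw [ValuationSubring.mem_comap, hζL]
    exact mem_of_pow_eq_one A hp.pos hζ.pow_eq_one
  have hdmem : dL ∈ A.comap (algebraMap L Qb) := by
    rw [ValuationSubring.mem_comap, hdL]
    exact A.nonunits_subset hd
  have hζR : IsPrimitiveRoot (⟨ζL, hζmem⟩ : A.comap (algebraMap L Qb)) p := by
    refine IsPrimitiveRoot.of_map_of_injective
      (f := (algebraMap L Qb).comp (A.comap (algebraMap L Qb)).subtype) ?_ ?_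
    · show IsPrimitiveRoot (algebraMap L Qb ζL) p
      rw [hζL]
      exact hζ
    · exact (algebraMap L Qb).injective.comp Subtype.val_injective
  have hfinal := smooth_coreP (algebraMap L Qb) A N' _ 𝒪 MD p hp hpu ⟨ζL, hζmem⟩ ⟨dL, hdmem⟩ hζR
    (by
      intro h0
      apply hd0
      have h1 : dL = 0 := congrArg Subtype.val h0
      rw [← hdL, h1, map_zero])
    (BrSmooth_not_isUnit _ A _ (by
      show algebraMap L Qb dL ∈ A.nonunits
      rw [hdL]
      exact hd))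
    ⟨aL, haL⟩ ⟨bL, hbL⟩
    (by
      intro h0
      apply ha0
      have h1 : aL = 0 := congrArg Subtype.val h0
      rw [← haL', h1, map_zero])
    (by
      intro h0
      apply hb0
      have h1 : bL = 0 := congrArg Subtype.val h0
      rw [← hbL', h1, map_zero])
    (by rw [haL']; exact hpa) (by rw [hbL']; exact hib)
    (by
      rw [haL', hbL']
      have e : algebraMap L Qb ((((⟨ζL, hζmem⟩ : A.comap (algebraMap L Qb)) - 1) ^ p *
          ⟨dL, hdmem⟩ : A.comap (algebraMap L Qb)) : L) = (ζ - 1) ^ p * d := by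
        have e1 : ((((⟨ζL, hζmem⟩ : A.comap (algebraMap L Qb)) - 1) ^ p *
          ⟨dL, hdmem⟩ : A.comap (algebraMap L Qb)) : L) = (ζL - 1) ^ p * dL := rfl
        rw [e1, map_mul, map_pow, map_sub, map_one, hζL, hdL]
      rw [e]
      exact hab) hdiv
  rw [haL', hbL'] at hfinal
  exact hfinal

theorem smoothCruxP_of_hasModel (A : ValuationSubring Qb) (p : ℕ) (hp : p.Prime)
    (hA : A.LiesOverPrime p) (N' : ℕ) (H : LaurentSeries ℤ) (hM : HasModel A N' H) :
    SmoothCruxP p N' A := by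
  intro y hy hdeep
  obtain ⟨ζ, d, hζ, hd, a, b, ha, hb, hpa, hib, hab, hyab⟩ := hdeep
  have hK : IsKummer (N := N') p (a / b) := GR.C.isKummer_of_kummerEquiv hy hyab
  have hb0 : b ≠ 0 := fun h => hK.1 (by rw [h, div_zero])
  have hba : KummerEquiv N' p b a := by
    by_cases hd0 : d = 0
    · have hab' : a = b := by
        ext m
        obtain ⟨r, -, hr⟩ := hab m
        rw [hd0, mul_zero, zero_mul] at hr
        exact sub_eq_zero.1 hr
      rw [hab']
      exact GR.C.kummerEquiv_refl N' p b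
    · exact BrSmooth_crux A p hp hA N' H hM ζ d hζ hd hd0 a b ha hb hpa hib hab hK
  have h1 : KummerEquiv N' p 1 (a / b) := by
    obtain ⟨z, hz, hz0, hza⟩ := hba
    refine ⟨z, hz, hz0, ?_⟩
    rw [hza, one_mul, mul_div_cancel_left₀ _ hb0]
  exact GR.C.kummerEquiv_trans h1 (GR.C.kummerEquiv_symm hyab)

/-- EXPORT. -/
theorem smoothCruxP (p M0 : ℕ) [NeZero M0] (hp : p.Prime) (hp2 : p ≠ 2) (hpM : ¬ p ∣ M0)
    (A : ValuationSubring Qb) (hA : A.LiesOverPrime p) : SmoothCruxP p M0 A := by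
  by_cases h2 : 2 ∣ M0
  · exact smoothCruxP_of_hasModel A p hp hA M0 _ (GR.D.Top.hasModel_h2 M0 h2 p hp hpM A hA)
  · have hne : NeZero (M0 * 2) := ⟨mul_ne_zero (NeZero.ne M0) two_ne_zero⟩
    have hpM2 : ¬ p ∣ M0 * 2 := by
      intro h
      rcases (hp.dvd_mul).1 h with h | h
      · exact hpM h
      · exact hp2 ((Nat.prime_dvd_prime_iff_eq hp Nat.prime_two).1 h)
    have hS := smoothCruxP_of_hasModel A p hp hA (M0 * 2) _
      (GR.D.Top.hasModel_h2 (M0 * 2) (Dvd.intro_left _ rfl) p hp hpM2 A hA)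
    intro y hy hdeep
    have h1 := hS y (GR.D.LC.isKummer_mono (Dvd.intro _ rfl) hy) (hdeep.mono (Dvd.intro _ rfl))
    exact GR.D.LC.kummerEquiv_descend M0 2 p Nat.prime_two h2 (one_mem _) hy.2.1 one_ne_zero h1

end Fermat.Agent.LP
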