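import Fermat.Agent.LP.Nod.Cg
import Fermat.Agent.GR.E.E3a

/-!
# LP-NOD, file `BranchL`: the image of `C` in the residue field of `𝒪` is integrally closed

* `Branch.exists_cong`: generalisation of `GS.exists_cong₁` (`GS/Abs/Glue.lean`) from `X ^ n - ε` to
  the trinomial `X ^ p - s X - c`.  `hC.frac y` gives `d ∈ C`, `d` a unit of `𝒪`, `x := y d ∈ C`.
  In `E := C ⧸ vert ϖ 𝒪 C` (a Dedekind domain, so integrally closed):
  `x̄ ^ p - s̄ x̄ d̄ ^ (p-1) - c̄ d̄ ^ p = 0`, `d̄ ≠ 0`; so `x̄ / d̄ ∈ Frac E` is a root of the monic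
  polynomial `X ^ p - s̄ X - c̄` and lies in `E` (`IsIntegrallyClosed.algebraMap_eq_of_integral` /
  `IsIntegrallyClosed.isIntegral_iff`): `x̄ = b̄ d̄`; then `(y - b) d ∈ ϖ 𝒪`.
* `GoodChart.branch`: `vert ϖ 𝒪 C = Ideal.span {algebraMap R C ϖ}` (`mem_vert`, `E3a_mem_span`,
  `E3a_div_mem`).
-/

set_option autoImplicit false

namespace Fermat.Agent.LP

open Fermat.Agent.GR.E Fermat.Agent.GS

variable {R : Type*} [CommRing R] [IsDomain R] [IsDiscreteValuationRing R]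
variable {F : Type*} [Field F] [Algebra R F]
variable {ϖ : R} {𝒪 𝒪₁ 𝒪₂ : ValuationSubring F}

/-- In an integrally closed domain a root `x / d` of `X ^ p - s X - c` is integral. -/
theorem BranchL_dvd {E : Type*} [CommRing E] [IsDomain E] [IsIntegrallyClosed E] {p : ℕ}
    (hp : 2 ≤ p) (x d s c : E) (hd : d ≠ 0)
    (h : x ^ p - s * x * d ^ (p - 1) - c * d ^ p = 0) : d ∣ x := by
  have hinj : Function.Injective (algebraMap E (FractionRing E)) :=
    IsFractionRing.injective E (FractionRing E)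
  have hdK : algebraMap E (FractionRing E) d ≠ 0 := (map_ne_zero_iff _ hinj).2 hd
  obtain ⟨n, rfl⟩ : ∃ n, p = n + 1 := ⟨p - 1, by omega⟩
  have hz : IsIntegral E (algebraMap E (FractionRing E) x / algebraMap E (FractionRing E) d) := by
    refine ⟨Polynomial.X ^ (n + 1) - (Polynomial.C s * Polynomial.X + Polynomial.C c),
      Polynomial.monic_X_pow_sub ?_, ?_⟩
    · have h1n : (1 : WithBot ℕ) < ((n + 1 : ℕ) : WithBot ℕ) := by
        exact_mod_cast (by omega : 1 < n + 1)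
      exact (Polynomial.degree_linear_le (a := s) (b := c)).trans_lt h1n
    · have h1 := congrArg (algebraMap E (FractionRing E)) h
      simp only [map_sub, map_mul, map_pow, map_zero, Nat.add_sub_cancel] at h1
      simp only [Polynomial.eval₂_sub, Polynomial.eval₂_add, Polynomial.eval₂_mul,
        Polynomial.eval₂_pow, Polynomial.eval₂_X, Polynomial.eval₂_C]
      have h2 : algebraMap E (FractionRing E) d ^ (n + 1) ≠ 0 := pow_ne_zero _ hdK
      apply mul_left_cancel₀ h2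
      rw [mul_zero, ← h1]
      generalize algebraMap E (FractionRing E) x = X at *
      generalize algebraMap E (FractionRing E) d = D at *
      generalize algebraMap E (FractionRing E) s = S at *
      generalize algebraMap E (FractionRing E) c = c' at *
      have e1 : D ^ (n + 1) * (X / D) ^ (n + 1) = X ^ (n + 1) := by
        rw [div_pow]; field_simp
      have e2 : D ^ (n + 1) * (X / D) = X * D ^ n := by
        rw [pow_succ]; field_simp
      calc D ^ (n + 1) * ((X / D) ^ (n + 1) - (S * (X / D) + c'))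
          = D ^ (n + 1) * (X / D) ^ (n + 1) - S * (D ^ (n + 1) * (X / D)) - c' * D ^ (n + 1) := by
            ring
        _ = X ^ (n + 1) - S * X * D ^ n - c' * D ^ (n + 1) := by rw [e1, e2]; ring
  obtain ⟨b, hb⟩ := IsIntegrallyClosed.isIntegral_iff.1 hz
  refine ⟨b, hinj ?_⟩
  rw [map_mul, hb]
  field_simp

theorem Branch.exists_cong (hG : GaussRing ϖ 𝒪) {C : Subalgebra R F} (hC : Branch ϖ 𝒪 C)
    {p : ℕ} (hp : 2 ≤ p) {y s c : F} (hy : y ∈ 𝒪) (hs : s ∈ C) (hc : c ∈ C)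
    (h : Cg 𝒪 ϖ (y ^ p - s * y) c) : ∃ b ∈ C, Cg 𝒪 ϖ y b := by
  obtain ⟨d, hdC, hd, hyd⟩ := hC.frac y hy
  have hd0 : d ≠ 0 := by
    rintro rfl
    apply hd
    rw [zero_div]
    exact zero_mem _
  have hdinv : d⁻¹ ∈ 𝒪 := (hG.unif d (hC.le d hdC)).resolve_left hd
  have := hC.ded
  set 𝔭 := vert ϖ 𝒪 C with h𝔭
  have hmem : ∀ x : C, x ∈ 𝔭 ↔ (x : F) / algebraMap R F ϖ ∈ 𝒪 := mem_vert hC.le
  have h1 : (Ideal.Quotient.mk 𝔭 ⟨y * d, hyd⟩) ^ p -
      Ideal.Quotient.mk 𝔭 ⟨s, hs⟩ * Ideal.Quotient.mk 𝔭 ⟨y * d, hyd⟩ *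
        (Ideal.Quotient.mk 𝔭 ⟨d, hdC⟩) ^ (p - 1) -
      Ideal.Quotient.mk 𝔭 ⟨c, hc⟩ * (Ideal.Quotient.mk 𝔭 ⟨d, hdC⟩) ^ p = 0 := by
    rw [← map_pow, ← map_pow, ← map_pow, ← map_mul, ← map_mul, ← map_mul, ← map_sub, ← map_sub,
      Ideal.Quotient.eq_zero_iff_mem, hmem]
    have : (((⟨y * d, hyd⟩ : C) ^ p - ⟨s, hs⟩ * ⟨y * d, hyd⟩ * (⟨d, hdC⟩ : C) ^ (p - 1) -
        ⟨c, hc⟩ * (⟨d, hdC⟩ : C) ^ p : C) : F) / algebraMap R F ϖ =
        (y ^ p - s * y - c) / algebraMap R F ϖ * d ^ p := by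
      obtain ⟨n, rfl⟩ : ∃ n, p = n + 1 := ⟨p - 1, by omega⟩
      push_cast
      ring
    rw [this]
    exact mul_mem h (pow_mem (hC.le d hdC) p)
  have hdne : Ideal.Quotient.mk 𝔭 ⟨d, hdC⟩ ≠ 0 := by
    rw [ne_eq, Ideal.Quotient.eq_zero_iff_mem, hmem]
    exact hd
  obtain ⟨b', hb'⟩ := BranchL_dvd hp _ _ _ _ hdne h1
  obtain ⟨b, rfl⟩ := Ideal.Quotient.mk_surjective b'
  refine ⟨b, b.2, ?_⟩
  rw [← map_mul, Ideal.Quotient.eq, hmem] at hb'
  have : (y - (b : F)) / algebraMap R F ϖ =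
      d⁻¹ * ((((⟨y * d, hyd⟩ : C) - ⟨d, hdC⟩ * b : C) : F) / algebraMap R F ϖ) := by
    push_cast
    field_simp
  show (y - (b : F)) / algebraMap R F ϖ ∈ 𝒪
  rw [this]
  exact mul_mem hdinv hb'

theorem branch₁_of_nodalChart {C : Subalgebra R F} (hC : NodalChart ϖ 𝒪₁ 𝒪₂ C) :
    Branch ϖ 𝒪₁ C :=
  ⟨hC.le₁, hC.frac₁, hC.ded₁⟩

theorem branch₂_of_nodalChart {C : Subalgebra R F} (hC : NodalChart ϖ 𝒪₁ 𝒪₂ C) :
    Branch ϖ 𝒪₂ C :=
  ⟨hC.le₂, hC.frac₂, hC.ded₂⟩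

theorem vert_eq_span_of_goodChart (hG : GaussRing ϖ 𝒪) {C : Subalgebra R F}
    (hC : GoodChart ϖ 𝒪 C) : vert ϖ 𝒪 C = Ideal.span {algebraMap R C ϖ} := by
  apply le_antisymm
  · intro x hx
    rw [mem_vert hC.le] at hx
    have h1 : (x : F) / algebraMap R F ϖ ∈ C := hC.sat _ x.2 hx
    rw [Ideal.mem_span_singleton]
    refine ⟨⟨_, h1⟩, Subtype.ext ?_⟩
    have := hG.ne_zero
    show (x : F) = algebraMap R F ϖ * ((x : F) / algebraMap R F ϖ)
    field_simp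
  · rw [Ideal.span_le, Set.singleton_subset_iff]
    exact algebraMap_mem_vert hG C

theorem branch_of_goodChart (hG : GaussRing ϖ 𝒪) {C : Subalgebra R F} (hC : GoodChart ϖ 𝒪 C) :
    Branch ϖ 𝒪 C := by
  refine ⟨hC.le, hC.frac, ?_⟩
  rw [vert_eq_span_of_goodChart hG hC]
  exact hC.dedekind

theorem satChart2_of_satChart {C : Subalgebra R F} (hC : SatChart ϖ 𝒪 C) : SatChart2 ϖ 𝒪 𝒪 C :=
  ⟨hC.le, hC.le, fun x hx h _ => hC.sat x hx h, hC.closed⟩

end Fermat.Agent.LP
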