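import Fermat.Agent.LP.Nod.Defs
import Fermat.Agent.GS.Abs.Basic
import Fermat.Agent.GS.Abs.Cert

/-!
# LP-NOD, file `Cg`: calculus of congruences `Cg 𝒪 c x y : (x - y) / c ∈ 𝒪`

All proofs are one-liners of the type "rewrite the quotient as a combination of elements of `𝒪`"
(compare `GS/Abs/Node.lean`, `NodeCg.*`).  `hR : ∀ r, algebraMap R F r ∈ 𝒪` holds as soon as `𝒪`
contains a chart.
-/

set_option autoImplicit false

namespace Fermat.Agent.LP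

open Fermat.Agent.GR.E Fermat.Agent.GS

section general

variable {R : Type*} [CommRing R] {F : Type*} [Field F] [Algebra R F]
variable {𝒪 : ValuationSubring F} {c : R}

theorem Cg.refl (x : F) : Cg 𝒪 c x x := by
  unfold Cg
  rw [sub_self, zero_div]
  exact 𝒪.zero_mem

theorem Cg.symm {x y : F} (h : Cg 𝒪 c x y) : Cg 𝒪 c y x := by
  unfold Cg at *
  have e : (y - x) / algebraMap R F c = -((x - y) / algebraMap R F c) := by ring
  rw [e]
  exact 𝒪.neg_mem _ h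

theorem Cg.trans {x y z : F} (h : Cg 𝒪 c x y) (h' : Cg 𝒪 c y z) : Cg 𝒪 c x z := by
  unfold Cg at *
  have e : (x - z) / algebraMap R F c =
      (x - y) / algebraMap R F c + (y - z) / algebraMap R F c := by ring
  rw [e]
  exact 𝒪.add_mem _ _ h h'

theorem Cg.add {x y x' y' : F} (h : Cg 𝒪 c x y) (h' : Cg 𝒪 c x' y') :
    Cg 𝒪 c (x + x') (y + y') := by
  unfold Cg at *
  have e : (x + x' - (y + y')) / algebraMap R F c =
      (x - y) / algebraMap R F c + (x' - y') / algebraMap R F c := by ring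
  rw [e]
  exact 𝒪.add_mem _ _ h h'

theorem Cg.neg {x y : F} (h : Cg 𝒪 c x y) : Cg 𝒪 c (-x) (-y) := by
  unfold Cg at *
  have e : (-x - -y) / algebraMap R F c = -((x - y) / algebraMap R F c) := by ring
  rw [e]
  exact 𝒪.neg_mem _ h

theorem Cg.sub {x y x' y' : F} (h : Cg 𝒪 c x y) (h' : Cg 𝒪 c x' y') :
    Cg 𝒪 c (x - x') (y - y') := by
  rw [sub_eq_add_neg, sub_eq_add_neg]
  exact h.add h'.neg

theorem Cg.mul_left {x y z : F} (hz : z ∈ 𝒪) (h : Cg 𝒪 c x y) : Cg 𝒪 c (z * x) (z * y) := by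
  unfold Cg at *
  have e : (z * x - z * y) / algebraMap R F c = z * ((x - y) / algebraMap R F c) := by ring
  rw [e]
  exact 𝒪.mul_mem _ _ hz h

theorem Cg.mul_right {x y z : F} (hz : z ∈ 𝒪) (h : Cg 𝒪 c x y) : Cg 𝒪 c (x * z) (y * z) := by
  rw [mul_comm x, mul_comm y]
  exact h.mul_left hz

theorem Cg.mul {x y x' y' : F} (h : Cg 𝒪 c x y) (h' : Cg 𝒪 c x' y') (hx' : x' ∈ 𝒪) (hy : y ∈ 𝒪) :
    Cg 𝒪 c (x * x') (y * y') :=
  (h.mul_right hx').trans (h'.mul_left hy)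

theorem Cg.pow {x y : F} (h : Cg 𝒪 c x y) (hx : x ∈ 𝒪) (hy : y ∈ 𝒪) (k : ℕ) :
    Cg 𝒪 c (x ^ k) (y ^ k) := by
  induction k with
  | zero => simpa using Cg.refl (𝒪 := 𝒪) (c := c) (1 : F)
  | succ k ih =>
    rw [pow_succ, pow_succ]
    exact ih.mul h hx (𝒪.pow_mem hy k)

/-- a congruence modulo a multiple of `c` is a congruence modulo `c` -/
theorem Cg.of_dvd (hR : ∀ r : R, algebraMap R F r ∈ 𝒪) {c' : R} (hc : c ∣ c')
    (hc0 : algebraMap R F c' ≠ 0) {x y : F}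
    (h : Cg 𝒪 c' x y) : Cg 𝒪 c x y := by
  obtain ⟨e, rfl⟩ := hc
  unfold Cg at *
  rw [map_mul] at h hc0
  have hc1 : algebraMap R F c ≠ 0 := left_ne_zero_of_mul hc0
  have he0 : algebraMap R F e ≠ 0 := right_ne_zero_of_mul hc0
  have e1 : (x - y) / algebraMap R F c =
      (x - y) / (algebraMap R F c * algebraMap R F e) * algebraMap R F e := by
    field_simp
  rw [e1]
  exact 𝒪.mul_mem _ _ h (hR e)

/-- `x ≡ y` modulo `c` implies `d x ≡ d y` modulo `d c` -/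
theorem Cg.smul (d : R) {x y : F} (h : Cg 𝒪 c x y) :
    Cg 𝒪 (d * c) (algebraMap R F d * x) (algebraMap R F d * y) := by
  unfold Cg at *
  rw [map_mul]
  by_cases hd : algebraMap R F d = 0
  · rw [hd, zero_mul, zero_mul, zero_mul, div_zero]
    exact 𝒪.zero_mem
  · have e1 : (algebraMap R F d * x - algebraMap R F d * y) /
        (algebraMap R F d * algebraMap R F c) = (x - y) / algebraMap R F c := by
      rw [← mul_sub, mul_div_mul_left _ _ hd]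
    rw [e1]
    exact h

theorem Cg.mem (hR : ∀ r : R, algebraMap R F r ∈ 𝒪) (hc0 : algebraMap R F c ≠ 0) {x y : F}
    (h : Cg 𝒪 c x y) (hy : y ∈ 𝒪) :
    x ∈ 𝒪 := by
  unfold Cg at h
  have e : x = (x - y) / algebraMap R F c * algebraMap R F c + y := by
    field_simp
    ring
  rw [e]
  exact 𝒪.add_mem _ _ (𝒪.mul_mem _ _ h (hR c)) hy

theorem cg_zero_iff {x : F} : Cg 𝒪 c x 0 ↔ x / algebraMap R F c ∈ 𝒪 := by
  unfold Cg
  rw [sub_zero]

theorem cg_mul_self (hR : ∀ r : R, algebraMap R F r ∈ 𝒪) {x : F} (hx : x ∈ 𝒪) :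
    Cg 𝒪 c (algebraMap R F c * x) 0 := by
  rw [cg_zero_iff]
  by_cases hc : algebraMap R F c = 0
  · rw [hc, div_zero]
    exact 𝒪.zero_mem
  · rw [mul_div_cancel_left₀ _ hc]
    exact hx

end general

section dvr

variable {R : Type*} [CommRing R] [IsDomain R] [IsDiscreteValuationRing R]
variable {F : Type*} [Field F] [Algebra R F]
variable {ϖ : R} {𝒪 𝒪₁ 𝒪₂ : ValuationSubring F}

/-- every nonzero element of `R` is `unit * ϖ ^ k`, units of `R` are units of `𝒪` -/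
theorem Cg_exists_pow (hϖ : Irreducible ϖ) {c : R} (hc : c ≠ 0) :
    ∃ (k : ℕ) (v : Rˣ), c = (v : R) * ϖ ^ k := by
  obtain ⟨k, v, h⟩ := IsDiscreteValuationRing.eq_unit_mul_pow_irreducible hc hϖ
  exact ⟨k, v, h⟩

theorem Cg_algebraMap_ne_zero (hϖ : Irreducible ϖ) (hG : GaussRing ϖ 𝒪) {c : R} (hc : c ≠ 0) :
    algebraMap R F c ≠ 0 := by
  obtain ⟨k, v, rfl⟩ := Cg_exists_pow hϖ hc
  rw [map_mul, map_pow]
  refine mul_ne_zero ?_ (pow_ne_zero _ hG.ne_zero)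
  exact ((v.isUnit).map (algebraMap R F)).ne_zero

theorem Cg_algebraMap_injective (hG : GaussRing ϖ 𝒪) (hR : ∀ r : R, algebraMap R F r ∈ 𝒪) :
    Function.Injective (algebraMap R F) := by
  rw [RingHom.injective_iff_ker_eq_bot]
  by_contra hne
  have hprime : (RingHom.ker (algebraMap R F)).IsPrime := RingHom.ker_isPrime _
  have hmax : (RingHom.ker (algebraMap R F)).IsMaximal := hprime.isMaximal hne
  have heq := IsLocalRing.eq_maximalIdeal hmax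
  have hnu : ¬ IsUnit ϖ := by
    rintro ⟨u, hu⟩
    apply hG.inv_not_mem
    have h1 : algebraMap R F ϖ * algebraMap R F ((u⁻¹ : Rˣ) : R) = 1 := by
      rw [← map_mul, ← hu, Units.mul_inv, map_one]
    rw [← eq_inv_of_mul_eq_one_right h1]
    exact hR _
  have hmem : ϖ ∈ RingHom.ker (algebraMap R F) := by
    rw [heq]
    exact (IsLocalRing.mem_maximalIdeal ϖ).2 hnu
  exact hG.ne_zero ((RingHom.mem_ker).1 hmem)

/-- `x ≡ 1` modulo a multiple of `ϖ`: `x` is a unit of `𝒪`. -/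
theorem Cg.unit_of_one (hG : GaussRing ϖ 𝒪) (hR : ∀ r : R, algebraMap R F r ∈ 𝒪) {c : R}
    (hc : ϖ ∣ c) (hc0 : c ≠ 0) {x : F} (h : Cg 𝒪 c x 1) : x ∈ 𝒪 ∧ x⁻¹ ∈ 𝒪 ∧ x ≠ 0 := by
  have hc0' : algebraMap R F c ≠ 0 := by
    rw [Ne, map_eq_zero_iff _ (Cg_algebraMap_injective hG hR)]
    exact hc0
  have h1 : Cg 𝒪 ϖ x 1 := h.of_dvd hR hc hc0'
  have hx : x ∈ 𝒪 := h1.mem hR hG.ne_zero 𝒪.one_mem
  have key : ¬ (x / algebraMap R F ϖ ∈ 𝒪) := by
    intro h2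
    apply hG.inv_not_mem
    have e : (algebraMap R F ϖ)⁻¹ = x / algebraMap R F ϖ - (x - 1) / algebraMap R F ϖ := by
      ring
    rw [e]
    exact 𝒪.sub_mem h2 h1
  have hinv : x⁻¹ ∈ 𝒪 := (hG.unif x hx).resolve_left key
  refine ⟨hx, hinv, ?_⟩
  rintro rfl
  apply key
  rw [zero_div]
  exact 𝒪.zero_mem

theorem Cg.inv_of_one (hG : GaussRing ϖ 𝒪) (hR : ∀ r : R, algebraMap R F r ∈ 𝒪) {c : R}
    (hc : ϖ ∣ c) (hc0 : c ≠ 0) {x : F} (h : Cg 𝒪 c x 1) : Cg 𝒪 c x⁻¹ 1 := by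
  obtain ⟨-, hinv, hx0⟩ := h.unit_of_one hG hR hc hc0
  unfold Cg at *
  have e : (x⁻¹ - 1) / algebraMap R F c = -((x - 1) / algebraMap R F c) * x⁻¹ := by
    field_simp
    ring
  rw [e]
  exact 𝒪.mul_mem _ _ (𝒪.neg_mem _ h) hinv

/-- `x ≡ y` and `y` a unit: `x / y ≡ 1`. -/
theorem Cg.div_of_unit {c : R} {x y : F} (h : Cg 𝒪 c x y) (hy : y⁻¹ ∈ 𝒪) (hy0 : y ≠ 0) :
    Cg 𝒪 c (x / y) 1 := by
  unfold Cg at *
  have e : (x / y - 1) / algebraMap R F c = (x - y) / algebraMap R F c * y⁻¹ := by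
    field_simp
  rw [e]
  exact 𝒪.mul_mem _ _ h hy

/-- saturation with respect to an arbitrary nonzero constant
(`Cg_exists_pow` + `SatChart2.sat_pow`). -/
theorem SatChart2_sat_of (hϖ : Irreducible ϖ) {C : Subalgebra R F} (hC : SatChart2 ϖ 𝒪₁ 𝒪₂ C)
    {c : R} (hc : c ≠ 0) {x : F} (hx : x ∈ C) (h₁ : x / algebraMap R F c ∈ 𝒪₁)
    (h₂ : x / algebraMap R F c ∈ 𝒪₂) : x / algebraMap R F c ∈ C := by
  obtain ⟨k, v, rfl⟩ := Cg_exists_pow hϖ hc
  have hv : algebraMap R F (v : R) * algebraMap R F ((v⁻¹ : Rˣ) : R) = 1 := by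
    rw [← map_mul, Units.mul_inv, map_one]
  have hv0 : algebraMap R F (v : R) ≠ 0 := left_ne_zero_of_mul_eq_one hv
  have e : ∀ z : F, z / algebraMap R F ((v : R) * ϖ ^ k) =
      algebraMap R F ((v⁻¹ : Rˣ) : R) * (z / algebraMap R F ϖ ^ k) := by
    intro z
    have hvi : algebraMap R F ((v⁻¹ : Rˣ) : R) = (algebraMap R F (v : R))⁻¹ :=
      eq_inv_of_mul_eq_one_right hv
    rw [map_mul, map_pow, hvi, div_mul_eq_div_div_swap, div_eq_mul_inv (z / _), mul_comm]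
  have e' : ∀ z : F, z / algebraMap R F ϖ ^ k =
      algebraMap R F (v : R) * (z / algebraMap R F ((v : R) * ϖ ^ k)) := by
    intro z
    rw [e, ← mul_assoc, hv, one_mul]
  rw [e]
  refine C.mul_mem (C.algebraMap_mem _) (hC.sat_pow k hx ?_ ?_)
  · rw [e']
    exact 𝒪₁.mul_mem _ _ (hC.le₁ _ (C.algebraMap_mem _)) h₁
  · rw [e']
    exact 𝒪₂.mul_mem _ _ (hC.le₂ _ (C.algebraMap_mem _)) h₂

/-- A ring automorphism which preserves `R` and `𝒪` preserves congruences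
(`τ c / c ∈ 𝒪`: compare `GS.Cert_map_unif`, `GS.GlueNode_map_unif`: `c = v ϖ ^ k`,
`τ ϖ / ϖ ∈ 𝒪` because `(τ ϖ)⁻¹ = τ (ϖ⁻¹) ∉ 𝒪`, and `τ v ∈ R ⊆ 𝒪`). -/
theorem Cg.map (hϖ : Irreducible ϖ) (hG : GaussRing ϖ 𝒪) (hR : ∀ r : R, algebraMap R F r ∈ 𝒪)
    {τ : F ≃+* F} (hτR : ∀ r : R, ∃ r' : R, τ (algebraMap R F r) = algebraMap R F r')
    (hmem : ∀ x, τ x ∈ 𝒪 ↔ x ∈ 𝒪) {c : R} (hc : c ≠ 0) {x y : F} (h : Cg 𝒪 c x y) :
    Cg 𝒪 c (τ x) (τ y) := by
  have hc0 : algebraMap R F c ≠ 0 := Cg_algebraMap_ne_zero hϖ hG hc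
  -- `τ ϖ / ϖ ∈ 𝒪`
  have hϖ1 : τ (algebraMap R F ϖ) / algebraMap R F ϖ ∈ 𝒪 := by
    have h1 : τ (algebraMap R F ϖ) ∈ 𝒪 := (hmem _).2 hG.mem
    refine (hG.unif _ h1).resolve_right ?_
    rw [← map_inv₀, hmem]
    exact hG.inv_not_mem
  have key : τ (algebraMap R F c) / algebraMap R F c ∈ 𝒪 := by
    obtain ⟨k, v, rfl⟩ := Cg_exists_pow hϖ hc
    have hv : algebraMap R F (v : R) * algebraMap R F ((v⁻¹ : Rˣ) : R) = 1 := by
      rw [← map_mul, Units.mul_inv, map_one]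
    have hv0 : algebraMap R F (v : R) ≠ 0 := left_ne_zero_of_mul_eq_one hv
    have e : τ (algebraMap R F ((v : R) * ϖ ^ k)) / algebraMap R F ((v : R) * ϖ ^ k) =
        τ (algebraMap R F (v : R)) * algebraMap R F ((v⁻¹ : Rˣ) : R) *
          (τ (algebraMap R F ϖ) / algebraMap R F ϖ) ^ k := by
      have hvi : algebraMap R F ((v⁻¹ : Rˣ) : R) = (algebraMap R F (v : R))⁻¹ :=
        eq_inv_of_mul_eq_one_right hv
      have hϖ0 := hG.ne_zero
      rw [map_mul, map_mul, map_pow, map_pow, div_pow, hvi]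
      field_simp
    rw [e]
    exact 𝒪.mul_mem _ _ (𝒪.mul_mem _ _ ((hmem _).2 (hR _)) (hR _)) (𝒪.pow_mem hϖ1 k)
  unfold Cg at *
  have hτc0 : τ (algebraMap R F c) ≠ 0 := by
    rw [Ne, map_eq_zero_iff τ τ.injective]
    exact hc0
  have e : (τ x - τ y) / algebraMap R F c =
      τ ((x - y) / algebraMap R F c) * (τ (algebraMap R F c) / algebraMap R F c) := by
    rw [map_div₀, map_sub]
    field_simp
  rw [e]
  exact 𝒪.mul_mem _ _ ((hmem _).2 h) key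

/-- the unit `u` of `PUnif` -/
theorem PUnif.exists_unit {p : ℕ} {lam : R} (hϖ : Irreducible ϖ) (hU : PUnif ϖ p lam) :
    ∃ u : Rˣ, (p : R) = -(lam ^ (p - 1) * (u : R)) ∧ ϖ ∣ (u : R) - 1 := by
  obtain ⟨u, hu, hd⟩ := hU.eq
  have hunit : IsUnit u := by
    by_contra hnu
    have h1 : u ∈ IsLocalRing.maximalIdeal R := (IsLocalRing.mem_maximalIdeal u).2 hnu
    rw [hϖ.maximalIdeal_eq, Ideal.mem_span_singleton] at h1
    have h2 : ϖ ∣ 1 := by
      have := dvd_sub h1 hd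
      simpa using this
    exact hϖ.not_isUnit (isUnit_of_dvd_one h2)
  obtain ⟨u', rfl⟩ := hunit
  exact ⟨u', hu, hd⟩

/-- `lam = unit * ϖ ^ (l + 1)` -/
theorem PUnif.exists_pow {p : ℕ} {lam : R} (hϖ : Irreducible ϖ) (hU : PUnif ϖ p lam) :
    ∃ (l : ℕ) (v : Rˣ), lam = (v : R) * ϖ ^ (l + 1) := by
  obtain ⟨k, v, hk⟩ := Cg_exists_pow hϖ hU.ne_zero
  cases k with
  | zero =>
    exfalso
    rw [pow_zero, mul_one] at hk
    have h1 : ϖ ∣ (v : R) := hk ▸ hU.dvd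
    exact hϖ.not_isUnit (isUnit_of_dvd_unit h1 v.isUnit)
  | succ l => exact ⟨l, v, hk⟩

end dvr

end Fermat.Agent.LP
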