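import Fermat.Agent.LP.Nod.Cg
import Fermat.Agent.LP.Nod.Poly
import Fermat.Agent.GR.E.Root

/-!
# LP-NOD, file `Diff`: uniqueness of `p`-th roots `≡ 1` modulo `lam ϖ`

Adaptation of `GS/Abs/Diff.lean`.

* `Diff_cg`.  `y = 1 + lam t` with `t = (y - 1) / lam ∈ ϖ 𝒪`.  By `Poly_as` (in the ring `𝒪`)
  `y ^ p - 1 = lam ^ p t (t ^ (p-1) - u - u lam t g)` and the last factor is a unit of `𝒪`
  (it is `≡ -1` modulo `ϖ`: `p ≥ 2`, `u ≡ 1`, `ϖ ∣ lam`).  So `t ∈ ϖ ^ (m+1) 𝒪`.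
* `sub_div_mem_rootSetP`.  On each component `a₀, a₁` are units `≡ 1`, `y = a₀ / a₁`,
  `y ^ p = (a₀ ^ p w) / (a₁ ^ p w) ≡ 1` modulo `lam ^ p ϖ ^ (m+1)`; `Diff_cg` gives
  `a₀ - a₁ ∈ lam ϖ ^ (m+1) 𝒪ᵢ`.  `a₀ - a₁ ∈ rootSet C p w` (`rootSet_add`, `rootSet_neg`), i.e.
  `(a₀ - a₁) ^ p w ∈ C`, and `((a₀ - a₁) / d) ^ p w = (a₀ - a₁) ^ p w / d ^ p` lies in both `𝒪ᵢ`:
  conclude with `SatChart2_sat_of` (`c = d ^ p`).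
-/

set_option autoImplicit false

namespace Fermat.Agent.LP

open Fermat.Agent.GR.E Fermat.Agent.GS

variable {R : Type*} [CommRing R] [IsDomain R] [IsDiscreteValuationRing R]
variable {F : Type*} [Field F] [Algebra R F]
variable {ϖ : R} {𝒪₁ 𝒪₂ : ValuationSubring F}

theorem Diff_cg {𝒪 : ValuationSubring F} (hϖ : Irreducible ϖ) (hG : GaussRing ϖ 𝒪)
    (hR : ∀ r : R, algebraMap R F r ∈ 𝒪) {p : ℕ} {lam : R} (hU : PUnif ϖ p lam) {y : F} {m : ℕ}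
    (hy : Cg 𝒪 (lam * ϖ) y 1) (hyp : Cg 𝒪 (lam ^ p * ϖ ^ (m + 1)) (y ^ p) 1) :
    Cg 𝒪 (lam * ϖ ^ (m + 1)) y 1 := by
  obtain ⟨u, hu, hu1⟩ := hU.exists_unit hϖ
  obtain ⟨l, v, hl⟩ := hU.exists_pow hϖ
  have hp2 : 2 ≤ p := hU.prime.two_le
  set P := algebraMap R F ϖ with hP
  set L := algebraMap R F lam with hL
  have hP0 : P ≠ 0 := hG.ne_zero
  have hv0 : algebraMap R F (v : R) ≠ 0 := by
    intro h0
    have h1 : algebraMap R F (v : R) * algebraMap R F ((v⁻¹ : Rˣ) : R) = 1 := by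
      rw [← map_mul, Units.mul_inv, map_one]
    rw [h0, zero_mul] at h1
    exact zero_ne_one h1
  have hLv : L = algebraMap R F (v : R) * P ^ (l + 1) := by
    rw [hL, hl, map_mul, map_pow]
  have hL0 : L ≠ 0 := by
    rw [hLv]
    exact mul_ne_zero hv0 (pow_ne_zero _ hP0)
  have hPO : P ∈ 𝒪 := hG.mem
  have hLO : L ∈ 𝒪 := hR lam
  -- `s = (y - 1) / (L P)`, `t = P s`
  have hs : (y - 1) / (L * P) ∈ 𝒪 := by
    have := hy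
    unfold Cg at this
    rwa [map_mul] at this
  set s := (y - 1) / (L * P) with hsdef
  have hyt : y = 1 + L * (P * s) := by
    rw [hsdef]
    field_simp
    ring
  have htO : P * s ∈ 𝒪 := 𝒪.mul_mem _ _ hPO hs
  -- apply `Poly_as` in the ring `𝒪`
  have hpO : ((p : ℕ) : 𝒪) = -((⟨L, hLO⟩ : 𝒪) ^ (p - 1) * (⟨algebraMap R F (u : R), hR _⟩ : 𝒪)) := by
    apply Subtype.ext
    push_cast
    rw [← map_natCast (algebraMap R F), hu, map_neg, map_mul, map_pow]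
  obtain ⟨g, hg⟩ := Poly_as hU.prime hpO (⟨P * s, htO⟩ : 𝒪)
  have hg' : (1 + L * (P * s)) ^ p = 1 + L ^ p * ((P * s) ^ p - algebraMap R F (u : R) * (P * s) -
      algebraMap R F (u : R) * L * (P * s) ^ 2 * (g : F)) := by
    have := congrArg (Subtype.val : 𝒪 → F) hg
    push_cast at this
    exact this
  set U := algebraMap R F (u : R) with hUdef
  have hUO : U ∈ 𝒪 := hR _
  set E := U + U * L * (P * s) * (g : F) - (P * s) ^ (p - 1) with hE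
  have hfac : y ^ p - 1 = -(L ^ p * (P * s) * E) := by
    rw [hyt, hg', hE]
    obtain ⟨k, rfl⟩ : ∃ k, p = k + 1 := ⟨p - 1, by omega⟩
    simp only [Nat.add_sub_cancel]
    ring
  -- `E ≡ 1` modulo `ϖ`
  have hE1 : Cg 𝒪 ϖ E 1 := by
    obtain ⟨k, hk⟩ := hu1
    obtain ⟨j, rfl⟩ : ∃ j, p = j + 2 := ⟨p - 2, by omega⟩
    have hUk : U = 1 + P * algebraMap R F k := by
      rw [hP, ← map_mul, ← hk, hUdef, map_sub, map_one]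
      ring
    have : (E - 1) / algebraMap R F ϖ = algebraMap R F k + U * L * s * (g : F) -
        s * (P * s) ^ j := by
      rw [← hP, hE]
      have h3 : j + 2 - 1 = j + 1 := by omega
      rw [h3, pow_succ]
      nth_rewrite 1 [hUk]
      field_simp
      ring
    unfold Cg
    rw [this]
    exact 𝒪.sub_mem (𝒪.add_mem _ _ (hR k)
      (𝒪.mul_mem _ _ (𝒪.mul_mem _ _ (𝒪.mul_mem _ _ hUO hLO) hs) g.2))
      (𝒪.mul_mem _ _ hs (pow_mem htO _))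
  obtain ⟨hEO, hEinv, hE0⟩ := hE1.unit_of_one hG hR (dvd_refl ϖ) hϖ.ne_zero
  have hyp' : (y ^ p - 1) / (L ^ p * P ^ (m + 1)) ∈ 𝒪 := by
    have := hyp
    unfold Cg at this
    rwa [map_mul, map_pow, map_pow] at this
  unfold Cg
  rw [map_mul, map_pow, ← hL, ← hP]
  have : (y - 1) / (L * P ^ (m + 1)) = -((y ^ p - 1) / (L ^ p * P ^ (m + 1)) * E⁻¹) := by
    rw [hfac]
    nth_rewrite 1 [hyt]
    field_simp
    ring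
  rw [this]
  exact 𝒪.neg_mem _ (𝒪.mul_mem _ _ hyp' hEinv)

/-- the one-valuation estimate -/
theorem Diff_sub_div_mem {𝒪 : ValuationSubring F} (hϖ : Irreducible ϖ) (hG : GaussRing ϖ 𝒪)
    (hR : ∀ r : R, algebraMap R F r ∈ 𝒪) {p : ℕ} {lam : R} (hU : PUnif ϖ p lam) {w : F}
    {a₀ a₁ : F} {m : ℕ}
    (h₀ : Cg 𝒪 (lam * ϖ) a₀ 1) (h₁ : Cg 𝒪 (lam * ϖ) a₁ 1)
    (h₀m : Cg 𝒪 (lam ^ p * ϖ ^ (m + 1)) (a₀ ^ p * w) 1)
    (h₁m : Cg 𝒪 (lam ^ p * ϖ ^ (m + 1)) (a₁ ^ p * w) 1) :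
    (a₀ - a₁) / algebraMap R F (lam * ϖ ^ (m + 1)) ∈ 𝒪 := by
  obtain ⟨ha₁, ha₁', ha₁0⟩ := h₁.unit_of_one hG hR (Dvd.intro_left lam rfl)
    (mul_ne_zero hU.ne_zero hϖ.ne_zero)
  obtain ⟨hb, hb', hb0⟩ := h₁m.unit_of_one hG hR
    (Dvd.dvd.mul_left (dvd_pow_self ϖ (Nat.succ_ne_zero m)) _)
    (mul_ne_zero (pow_ne_zero _ hU.ne_zero) (pow_ne_zero _ hϖ.ne_zero))
  have hw0 : w ≠ 0 := right_ne_zero_of_mul hb0
  have hy : Cg 𝒪 (lam * ϖ) (a₀ / a₁) 1 := (h₀.trans h₁.symm).div_of_unit ha₁' ha₁0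
  have hyp : Cg 𝒪 (lam ^ p * ϖ ^ (m + 1)) ((a₀ / a₁) ^ p) 1 := by
    have := (h₀m.trans h₁m.symm).div_of_unit hb' hb0
    have e : a₀ ^ p * w / (a₁ ^ p * w) = (a₀ / a₁) ^ p := by
      rw [div_pow]
      field_simp
    rwa [e] at this
  have h := (Diff_cg hϖ hG hR hU hy hyp).mul_left ha₁
  have e : a₁ * (a₀ / a₁) = a₀ := by field_simp
  rw [e, mul_one] at h
  exact h

theorem sub_div_mem_rootSetP (hϖ : Irreducible ϖ) (hG₁ : GaussRing ϖ 𝒪₁) (hG₂ : GaussRing ϖ 𝒪₂)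
    {C : Subalgebra R F} (hC : SatChart2 ϖ 𝒪₁ 𝒪₂ C) {p : ℕ} {lam : R} (hU : PUnif ϖ p lam) {w : F}
    (hw₁ : Cg 𝒪₁ (lam ^ p * ϖ) w 1) (hw₂ : Cg 𝒪₂ (lam ^ p * ϖ) w 1) {a₀ a₁ : F} {m : ℕ}
    (h₀ : a₀ ∈ rootSet C p w) (h₁ : a₁ ∈ rootSet C p w)
    (h₀₁ : Cg 𝒪₁ (lam * ϖ) a₀ 1) (h₀₂ : Cg 𝒪₂ (lam * ϖ) a₀ 1)
    (h₁₁ : Cg 𝒪₁ (lam * ϖ) a₁ 1) (h₁₂ : Cg 𝒪₂ (lam * ϖ) a₁ 1)
    (h₀m : (a₀ ^ p * w - 1) / algebraMap R F (lam ^ p * ϖ ^ (m + 1)) ∈ C)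
    (h₁m : (a₁ ^ p * w - 1) / algebraMap R F (lam ^ p * ϖ ^ (m + 1)) ∈ C) :
    (a₀ - a₁) / algebraMap R F (lam * ϖ ^ (m + 1)) ∈ rootSet C p w := by
  have hp0 : 0 < p := hU.prime.pos
  have hR₁ : ∀ r : R, algebraMap R F r ∈ 𝒪₁ := fun r => hC.le₁ _ (C.algebraMap_mem r)
  have hR₂ : ∀ r : R, algebraMap R F r ∈ 𝒪₂ := fun r => hC.le₂ _ (C.algebraMap_mem r)
  have hbroot : a₀ - a₁ ∈ rootSet C p w := by
    rw [sub_eq_add_neg]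
    exact rootSet_add hC.closed hp0 h₀ (rootSet_neg h₁)
  have hd : (lam * ϖ ^ (m + 1)) ^ p ≠ 0 :=
    pow_ne_zero _ (mul_ne_zero hU.ne_zero (pow_ne_zero _ hϖ.ne_zero))
  have e : ((a₀ - a₁) / algebraMap R F (lam * ϖ ^ (m + 1))) ^ p * w =
      (a₀ - a₁) ^ p * w / algebraMap R F ((lam * ϖ ^ (m + 1)) ^ p) := by
    rw [map_pow, div_pow]
    ring
  change ((a₀ - a₁) / algebraMap R F (lam * ϖ ^ (m + 1))) ^ p * w ∈ C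
  rw [e]
  refine SatChart2_sat_of hϖ hC hd hbroot ?_ ?_
  · rw [← e]
    exact 𝒪₁.mul_mem _ _ (pow_mem (Diff_sub_div_mem hϖ hG₁ hR₁ hU h₀₁ h₁₁ (hC.le₁ _ h₀m)
      (hC.le₁ _ h₁m)) _) (hw₁.mem hR₁ (Cg_algebraMap_ne_zero hϖ hG₁
        (mul_ne_zero (pow_ne_zero _ hU.ne_zero) hϖ.ne_zero)) 𝒪₁.one_mem)
  · rw [← e]
    exact 𝒪₂.mul_mem _ _ (pow_mem (Diff_sub_div_mem hϖ hG₂ hR₂ hU h₀₂ h₁₂ (hC.le₂ _ h₀m)
      (hC.le₂ _ h₁m)) _) (hw₂.mem hR₂ (Cg_algebraMap_ne_zero hϖ hG₂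
        (mul_ne_zero (pow_ne_zero _ hU.ne_zero) hϖ.ne_zero)) 𝒪₂.one_mem)

end Fermat.Agent.LP
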