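import Fermat.Agent.LP.Nod.One
import Fermat.Agent.LP.Nod.Diff
import Fermat.Agent.GR.E.E6b

/-!
# LP-NOD, file `CruxGlue`: the Cech argument

Copy of `GS.nodal_crux_of_glue` (`GS/Abs/Crux.lean`).  `m₀` from `exists_bound_rootSet`;
`a₀, a₁` from `exists_one_powP` on the two charts with `m = m₀`;
`c := (a₀ - a₁) / (lam ϖ ^ (m₀ + 1)) ∈ rootSet (chart R {h, h⁻¹}) p w` by `sub_div_mem_rootSetP`
(on the overlap chart, `satChart2_mid`).  With `lam = v ϖ ^ (l+1)`: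
`ϖ ^ (l + 1 + m₀ + 1) c = v⁻¹ a₀ + (- v⁻¹ a₁)`, so `ϖ ^ m₀ c = b₀ + b₁`, i.e.
`a₀ - a₁ = lam ϖ (b₀ + b₁)`.  `a := a₀ - lam ϖ b₀ = a₁ + lam ϖ b₁`; `a ≠ 0` because `a ≡ 1` modulo
`ϖ 𝒪₁` (`b₀ ∈ 𝒪₁` by `rootSet_subset₁`).
The smooth case is the case `𝒪₁ = 𝒪₂`.
-/

set_option autoImplicit false

namespace Fermat.Agent.LP

open Fermat.Agent.GR.E Fermat.Agent.GS

variable {R : Type*} [CommRing R] [IsDomain R] [IsDiscreteValuationRing R]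
variable {F : Type*} [Field F] [Algebra R F]
variable {ϖ : R} {𝒪₁ 𝒪₂ : ValuationSubring F}

theorem crux_of_glueP (hϖ : Irreducible ϖ) (hG₁ : GaussRing ϖ 𝒪₁) (hG₂ : GaussRing ϖ 𝒪₂)
    {h : F} (hh₁ : h ∈ 𝒪₁) (hh₁' : h⁻¹ ∈ 𝒪₁) (hh₂ : h ∈ 𝒪₂) (hh₂' : h⁻¹ ∈ 𝒪₂) (h0 : h ≠ 0)
    (hC0 : SatChart2 ϖ 𝒪₁ 𝒪₂ (chart R ({h} : Set F)))
    (hC1 : SatChart2 ϖ 𝒪₁ 𝒪₂ (chart R ({h⁻¹} : Set F)))
    (hfrac : ∀ x : F, ∃ b ∈ chart R ({h} : Set F), b ≠ 0 ∧ x * b ∈ chart R ({h} : Set F))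
    (hfin : Module.Finite (Algebra.adjoin R ({h} : Set F))
      (integralClosure (Algebra.adjoin R ({h} : Set F)) F))
    {p : ℕ} {lam : R} (hU : PUnif ϖ p lam) {w : F}
    (hw₁ : Cg 𝒪₁ (lam ^ p * ϖ) w 1) (hw₂ : Cg 𝒪₂ (lam ^ p * ϖ) w 1)
    (hg0 : ∀ 𝔪 : Ideal (chart R ({h} : Set F)), 𝔪.IsMaximal → algebraMap R _ ϖ ∈ 𝔪 →
      GlueAtP 𝒪₁ 𝒪₂ (lam * ϖ) (chart R ({h} : Set F)) p w 𝔪)
    (hg1 : ∀ 𝔪 : Ideal (chart R ({h⁻¹} : Set F)), 𝔪.IsMaximal → algebraMap R _ ϖ ∈ 𝔪 →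
      GlueAtP 𝒪₁ 𝒪₂ (lam * ϖ) (chart R ({h⁻¹} : Set F)) p w 𝔪) :
    ∃ a : F, a ≠ 0 ∧ a ^ p * w ∈ chart R ({h} : Set F) ∧ a ^ p * w ∈ chart R ({h⁻¹} : Set F) := by
  have hp0 : 0 < p := hU.prime.pos
  have hR₁ : ∀ r : R, algebraMap R F r ∈ 𝒪₁ := fun r =>
    hC0.le₁ _ ((chart R ({h} : Set F)).algebraMap_mem r)
  obtain ⟨-, hw', hw0⟩ := Cg.unit_of_one hG₁ hR₁ (Dvd.intro_left (lam ^ p) rfl)
    (mul_ne_zero (pow_ne_zero _ hU.ne_zero) hϖ.ne_zero) hw₁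
  set P : F := algebraMap R F ϖ with hP
  set Lm : F := algebraMap R F lam with hLm
  have hP0 : P ≠ 0 := hG₁.ne_zero
  obtain ⟨l, v, hlv⟩ := hU.exists_pow hϖ
  set V : F := algebraMap R F (v : R) with hV
  set V' : F := algebraMap R F ((v⁻¹ : Rˣ) : R) with hV'
  have hVV' : V' * V = 1 := by
    rw [hV, hV', ← map_mul, Units.inv_mul, map_one]
  have hV0 : V ≠ 0 := right_ne_zero_of_mul_eq_one hVV'
  have hLmV : Lm = V * P ^ (l + 1) := by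
    rw [hLm, hlv, map_mul, map_pow]
  have hLm0 : Lm ≠ 0 := by
    rw [hLmV]; exact mul_ne_zero hV0 (pow_ne_zero _ hP0)
  obtain ⟨m₀, hm₀⟩ := exists_bound_rootSet hϖ h0 hfin hfrac hp0 hw0
  obtain ⟨a₀, ha₀, ha₀₁, ha₀₂, ha₀m⟩ := exists_one_powP hϖ hG₁ hG₂ hC0 hU hw₁ hw₂ hg0 m₀
  obtain ⟨a₁, ha₁, ha₁₁, ha₁₂, ha₁m⟩ := exists_one_powP hϖ hG₁ hG₂ hC1 hU hw₁ hw₂ hg1 m₀
  have hmid : SatChart2 ϖ 𝒪₁ 𝒪₂ (chart R ({h, h⁻¹} : Set F)) :=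
    satChart2_mid hh₁ hh₁' hh₂ hh₂' h0 hC0
  have hle0 : chart R ({h} : Set F) ≤ chart R ({h, h⁻¹} : Set F) :=
    chart_mono (by intro x hx; exact Or.inl hx)
  have hle1 : chart R ({h⁻¹} : Set F) ≤ chart R ({h, h⁻¹} : Set F) :=
    chart_mono (by intro x hx; exact Or.inr hx)
  have hc : (a₀ - a₁) / algebraMap R F (lam * ϖ ^ (m₀ + 1)) ∈
      rootSet (chart R ({h, h⁻¹} : Set F)) p w :=
    sub_div_mem_rootSetP hϖ hG₁ hG₂ hmid hU hw₁ hw₂ (hle0 ha₀) (hle1 ha₁) ha₀₁ ha₀₂ ha₁₁ ha₁₂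
      (hle0 ha₀m) (hle1 ha₁m)
  have hden : algebraMap R F (lam * ϖ ^ (m₀ + 1)) = Lm * P ^ (m₀ + 1) := by
    rw [map_mul, map_pow]
  rw [hden] at hc
  have hV'C0 : V' ∈ chart R ({h} : Set F) := (chart R ({h} : Set F)).algebraMap_mem _
  have hV'C1 : V' ∈ chart R ({h⁻¹} : Set F) := (chart R ({h⁻¹} : Set F)).algebraMap_mem _
  obtain ⟨b₀, hb₀, b₁, hb₁, hb⟩ := hm₀ _ hc (l + 1 + (m₀ + 1))
    ⟨V' * a₀, rootSet_mul hV'C0 ha₀, -(V' * a₁), rootSet_neg (rootSet_mul hV'C1 ha₁), by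
      have h1 : V' = V⁻¹ := eq_inv_of_mul_eq_one_left hVV'
      rw [hLmV, h1, ← hP]
      field_simp
      ring⟩
  have hkey : a₀ - a₁ = Lm * P * (b₀ + b₁) := by
    rw [← hb, ← hP]
    field_simp
    ring
  have hLPC0 : Lm * P ∈ chart R ({h} : Set F) :=
    mul_mem ((chart R ({h} : Set F)).algebraMap_mem lam) ((chart R ({h} : Set F)).algebraMap_mem ϖ)
  have hLPC1 : Lm * P ∈ chart R ({h⁻¹} : Set F) :=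
    mul_mem ((chart R ({h⁻¹} : Set F)).algebraMap_mem lam)
      ((chart R ({h⁻¹} : Set F)).algebraMap_mem ϖ)
  have hA0 : a₀ + -(Lm * P * b₀) ∈ rootSet (chart R ({h} : Set F)) p w :=
    rootSet_add hC0.closed hp0 ha₀ (rootSet_neg (rootSet_mul hLPC0 hb₀))
  have hA1 : a₁ + Lm * P * b₁ ∈ rootSet (chart R ({h⁻¹} : Set F)) p w :=
    rootSet_add hC1.closed hp0 ha₁ (rootSet_mul hLPC1 hb₁)
  have heq : a₀ + -(Lm * P * b₀) = a₁ + Lm * P * b₁ := by linear_combination hkey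
  refine ⟨a₀ + -(Lm * P * b₀), ?_, hA0, ?_⟩
  · intro hzero
    have hb₀𝒪 : b₀ ∈ 𝒪₁ := rootSet_subset₁ hC0 hp0 hw0 hw' hb₀
    have ha : (a₀ - 1) / (Lm * P) ∈ 𝒪₁ := by
      have := ha₀₁
      unfold Cg at this
      rwa [map_mul] at this
    have h1 : (a₀ - 1) / (Lm * P) - b₀ ∈ 𝒪₁ := 𝒪₁.sub_mem ha hb₀𝒪
    have h2 : (a₀ - 1) / (Lm * P) - b₀ = -(Lm * P)⁻¹ := by
      field_simp
      linear_combination hzero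
    rw [h2] at h1
    have h3 : (Lm * P)⁻¹ ∈ 𝒪₁ := by simpa using 𝒪₁.neg_mem _ h1
    have h4 : P⁻¹ = Lm * (Lm * P)⁻¹ := by field_simp
    exact hG₁.inv_not_mem (h4 ▸ 𝒪₁.mul_mem _ _ (hR₁ lam) h3)
  · rw [heq]
    exact hA1

end Fermat.Agent.LP
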