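import Fermat.Agent.LP.Nod.BranchL
import Fermat.Agent.GS.Abs.Loc
import Fermat.Agent.GS.Abs.LocNode
import Fermat.Agent.GS.Abs.LocGood

/-!
# LP-NOD, file `PLocGood`: `PLoc` at a closed point lying on one component only

* `jac_locAt`: `b s ∈ C`, `s ∉ 𝔪`; `1 + ϖ b = (s + ϖ (b s)) / s`, `s + ϖ (b s) ∈ C ∖ 𝔪`, so the
  inverse `s / (s + ϖ b s)` lies in `locAt C 𝔪` (`inv_mem_locAt_of_not_mem`).
* `ploc_of_good`: `sat2 := satChart2_of_satChart`; `liftP y h`: `Branch.exists_cong` with `s = 0`,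
  `c = h`; `liftAS z h`: `Branch.exists_cong` with `s = 1`, `c = h`, and `j = 0`.
* `goodChart_locAt`: the smooth analogue of `GS.locAt_goodChart` (`GS/Abs/LocGood.lean`), easier:
  elements of `C ∖ 𝔪` are units of `𝒪` (`GR.E.E3b_inv_mem`); `le`, `sat`, `frac` by clearing
  denominators, `closed := LocNode_closed`, `noeth := LocNode_noeth`; `dedekind`: the quotient
  `locAt C 𝔪 ⧸ (ϖ)` is the localization of the Dedekind domain `C ⧸ (ϖ)` at the image of `C ∖ 𝔪`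
  (see how `LocGood.lean` / `LocNode_ded` do it).
-/

set_option autoImplicit false

namespace Fermat.Agent.LP

open Fermat.Agent.GR.E Fermat.Agent.GS

variable {R : Type*} [CommRing R] [IsDomain R] [IsDiscreteValuationRing R]
variable {F : Type*} [Field F] [Algebra R F]
variable {ϖ : R} {𝒪 𝒪₁ 𝒪₂ : ValuationSubring F}

theorem jac_locAt {C : Subalgebra R F} (𝔪 : Ideal C) [𝔪.IsPrime] (hϖ𝔪 : algebraMap R C ϖ ∈ 𝔪) :
    ∀ b ∈ locAt C 𝔪, (1 + algebraMap R F ϖ * b)⁻¹ ∈ locAt C 𝔪 := by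
  rintro b ⟨s, hs, hbs⟩
  have hs0 : (s : F) ≠ 0 := Loc_coe_ne_zero 𝔪 hs
  set u : C := s + algebraMap R C ϖ * ⟨_, hbs⟩ with hu
  have hu𝔪 : u ∉ 𝔪 := by
    intro h
    apply hs
    have h2 : s = u - algebraMap R C ϖ * ⟨_, hbs⟩ := by rw [hu]; ring
    rw [h2]
    exact 𝔪.sub_mem h (𝔪.mul_mem_right _ hϖ𝔪)
  have hu0 : (u : F) ≠ 0 := Loc_coe_ne_zero 𝔪 hu𝔪
  have huF : (u : F) = s + algebraMap R F ϖ * (b * s) := rfl
  have e : (1 + algebraMap R F ϖ * b)⁻¹ = (s : F) * (u : F)⁻¹ := by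
    have h1 : 1 + algebraMap R F ϖ * b = (u : F) * (s : F)⁻¹ := by
      rw [huF]; field_simp
    rw [h1, mul_inv, inv_inv, mul_comm]
  rw [e]
  exact (locAt C 𝔪).mul_mem (le_locAt C 𝔪 s.2) (inv_mem_locAt_of_not_mem 𝔪 hu𝔪)

theorem ploc_of_good (hG : GaussRing ϖ 𝒪) {B : Subalgebra R F} (hB : GoodChart ϖ 𝒪 B)
    (hjac : ∀ b ∈ B, (1 + algebraMap R F ϖ * b)⁻¹ ∈ B) {p : ℕ} (hp : 2 ≤ p) :
    PLoc ϖ p 𝒪 𝒪 B := by
  refine
    { sat2 := satChart2_of_satChart hB.toSatChart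
      jac := hjac
      liftP := ?_
      liftAS := ?_ }
  · intro y h hy _ hh hc _
    have hc' : Cg 𝒪 ϖ (y ^ p - 0 * y) h := by rwa [zero_mul, sub_zero]
    obtain ⟨b, hb, hyb⟩ := (branch_of_goodChart hG hB).exists_cong hG hp hy B.zero_mem hh hc'
    exact ⟨b, hb, hyb, hyb⟩
  · intro z h hz _ hh hc _
    have hc' : Cg 𝒪 ϖ (z ^ p - 1 * z) h := by rwa [one_mul]
    obtain ⟨b, hb, hzb⟩ := (branch_of_goodChart hG hB).exists_cong hG hp hz B.one_mem hh hc'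
    refine ⟨b, hb, 0, hzb, ?_⟩
    rwa [Nat.cast_zero, add_zero]

omit [IsDomain R] [IsDiscreteValuationRing R] in
/-- Elements of a good chart outside an ideal containing `ϖ` are Gauss units. -/
theorem PLocGood_inv_mem (hG : GaussRing ϖ 𝒪) {C : Subalgebra R F} (hC : GoodChart ϖ 𝒪 C)
    (𝔪 : Ideal C) (hϖ𝔪 : algebraMap R C ϖ ∈ 𝔪) (s : C) (hs : s ∉ 𝔪) : (s : F)⁻¹ ∈ 𝒪 := by
  rcases hG.unif (s : F) (hC.le _ s.2) with h | h
  · exfalso
    apply hs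
    have h1 : (s : F) / algebraMap R F ϖ ∈ C := hC.sat _ s.2 h
    have h2 : s = algebraMap R C ϖ * ⟨_, h1⟩ := by
      apply Subtype.ext
      have := hG.ne_zero
      show (s : F) = algebraMap R F ϖ * ((s : F) / algebraMap R F ϖ)
      field_simp
    rw [h2]
    exact 𝔪.mul_mem_right _ hϖ𝔪
  · exact h

theorem goodChart_locAt (hϖ : Irreducible ϖ) (hG : GaussRing ϖ 𝒪) {C : Subalgebra R F}
    (hC : GoodChart ϖ 𝒪 C) (𝔪 : Ideal C) [𝔪.IsPrime] (h𝔪 : 𝔪.IsMaximal)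
    (hϖ𝔪 : algebraMap R C ϖ ∈ 𝔪) : GoodChart ϖ 𝒪 (locAt C 𝔪) := by
  classical
  have hle : ∀ x ∈ locAt C 𝔪, x ∈ 𝒪 := by
    rintro x ⟨s, hs, hx⟩
    have hs0 : (s : F) ≠ 0 := Loc_coe_ne_zero 𝔪 hs
    have : x = x * s * (s : F)⁻¹ := by field_simp
    rw [this]
    exact 𝒪.mul_mem _ _ (hC.le _ hx) (PLocGood_inv_mem hG hC 𝔪 hϖ𝔪 s hs)
  have hsat : ∀ x ∈ locAt C 𝔪, x / algebraMap R F ϖ ∈ 𝒪 → x / algebraMap R F ϖ ∈ locAt C 𝔪 := by
    rintro x ⟨s, hs, hx⟩ hx1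
    refine ⟨s, hs, ?_⟩
    have e : x / algebraMap R F ϖ * s = (x * s) / algebraMap R F ϖ := by ring
    rw [e]
    refine hC.sat _ hx ?_
    rw [← e]
    exact 𝒪.mul_mem _ _ hx1 (hC.le _ s.2)
  refine
    { le := hle
      sat := hsat
      closed := LocNode_closed 𝔪 hC.closed
      frac := ?_
      noeth := LocNode_noeth 𝔪 hC.noeth
      dedekind := ?_ }
  · intro x hx
    obtain ⟨b, hb, hb', hxb⟩ := hC.frac x hx
    exact ⟨b, le_locAt C 𝔪 hb, hb', le_locAt C 𝔪 hxb⟩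
  · let _ : Algebra C (locAt C 𝔪) := (Subalgebra.inclusion (le_locAt C 𝔪)).toRingHom.toAlgebra
    have hloc : IsLocalization.AtPrime (locAt C 𝔪) 𝔪 := isLocalization_locAt 𝔪
    have hded₁ : IsDedekindDomain (C ⧸ Ideal.span {algebraMap R C ϖ}) := hC.dedekind
    have hI𝔪 : Ideal.span {algebraMap R C ϖ} ≤ 𝔪 := by
      rw [Ideal.span_le, Set.singleton_subset_iff]
      exact hϖ𝔪
    have hM : Algebra.algebraMapSubmonoid (C ⧸ Ideal.span {algebraMap R C ϖ}) 𝔪.primeCompl ≤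
        nonZeroDivisors (C ⧸ Ideal.span {algebraMap R C ϖ}) := by
      rintro _ ⟨s, hs, rfl⟩
      apply mem_nonZeroDivisors_of_ne_zero
      intro h0
      exact hs (hI𝔪 (Ideal.Quotient.eq_zero_iff_mem.1 h0))
    have hdom : IsDomain
        (locAt C 𝔪 ⧸ (Ideal.span {algebraMap R C ϖ}).map (algebraMap C (locAt C 𝔪))) :=
      IsLocalization.isDomain_of_le_nonZeroDivisors (R := C ⧸ Ideal.span {algebraMap R C ϖ})
        (locAt C 𝔪 ⧸ (Ideal.span {algebraMap R C ϖ}).map (algebraMap C (locAt C 𝔪))) hM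
    have hded : IsDedekindDomain
        (locAt C 𝔪 ⧸ (Ideal.span {algebraMap R C ϖ}).map (algebraMap C (locAt C 𝔪))) :=
      IsLocalization.isDedekindDomain (C ⧸ Ideal.span {algebraMap R C ϖ}) hM _
    have hI : (Ideal.span {algebraMap R C ϖ}).map (algebraMap C (locAt C 𝔪)) =
        Ideal.span {algebraMap R (locAt C 𝔪) ϖ} := by
      rw [Ideal.map_span, Set.image_singleton]
      rfl
    rw [hI] at hded
    exact hded

end Fermat.Agent.LP
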