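import Fermat.Agent.LP.Nod.Loc
import Fermat.Agent.LP.Nod.PLocGood

/-!
# LP-NOD, file `GlueGood`: gluing at a closed point lying on one component only

* `Glue_descend`: `a' ^ p w s₀ ∈ C` for some `s₀ ∉ 𝔪`; `(a' s₀) ^ p w = s₀ ^ (p-1) (a' ^ p w s₀)`.
* `Glue_unit_locAt`: `ε = a ^ p w ∈ C ∖ 𝔪` is a unit of `locAt C 𝔪` (`le_locAt`,
  `inv_mem_locAt_of_not_mem`).
* `glueAtP_good` (smooth chart).  `B := locAt C 𝔪` is a good chart (`goodChart_locAt`) with `jac`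
  (`jac_locAt`), so `PLoc ϖ p 𝒪 𝒪 B` (`ploc_of_good`); `PLoc.normalize` gives `a'` with
  `a' ^ p w ∈ B`, `a' ≡ 1` modulo `lam ϖ`.  `Glue_descend` gives `s`; `b := a' s`, `e := s`
  (`Cg.mul_right`).
* `glueAtP_of_not_le` (nodal chart, `𝔪` on the first component only).  `B := locAt C 𝔪` is a good
  chart for `𝒪₁` (`GS.locAt_goodChart`); as above `a'`, `s`.  Choose `y₀ ∈ vert ϖ 𝒪₂ C`, `y₀ ∉ 𝔪`,
  and `k` with `lam ϖ ∣ ϖ ^ k`; `y := y₀ ^ k ∉ 𝔪` and `y / (lam ϖ) ∈ 𝒪₂`.  `b := a' s y`, `e := s y`.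
  On `𝒪₁`: `b - e = (a' - 1) s y`.  On `𝒪₂`: `b - e = (a' s - s) y` with `a' s ∈ 𝒪₂`
  (`rootSet_subset₁` for `hC.toSatChart2.symm`).
-/

set_option autoImplicit false

namespace Fermat.Agent.LP

open Fermat.Agent.GR.E Fermat.Agent.GS

variable {R : Type*} [CommRing R] [IsDomain R] [IsDiscreteValuationRing R]
variable {F : Type*} [Field F] [Algebra R F]
variable {ϖ : R} {𝒪 𝒪₁ 𝒪₂ : ValuationSubring F}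

theorem Glue_descend {C : Subalgebra R F} (𝔪 : Ideal C) [𝔪.IsPrime] {p : ℕ} (hp : 0 < p)
    {w a' : F} (h : a' ^ p * w ∈ locAt C 𝔪) : ∃ s : C, s ∉ 𝔪 ∧ a' * (s : F) ∈ rootSet C p w := by
  obtain ⟨s, hs, hsC⟩ := h
  refine ⟨s, hs, ?_⟩
  change (a' * (s : F)) ^ p * w ∈ C
  obtain ⟨k, rfl⟩ : ∃ k, p = k + 1 := ⟨p - 1, by omega⟩
  have e : (a' * (s : F)) ^ (k + 1) * w = (s : F) ^ k * (a' ^ (k + 1) * w * s) := by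
    rw [mul_pow, pow_succ (s : F) k]
    ring
  rw [e]
  exact C.mul_mem (C.pow_mem s.2 k) hsC

theorem Glue_unit_locAt {C : Subalgebra R F} (𝔪 : Ideal C) [𝔪.IsPrime] {x : F}
    (hu : ∃ h : x ∈ C, (⟨x, h⟩ : C) ∉ 𝔪) : x ∈ locAt C 𝔪 ∧ x⁻¹ ∈ locAt C 𝔪 := by
  obtain ⟨h, hx⟩ := hu
  exact ⟨le_locAt C 𝔪 h, inv_mem_locAt_of_not_mem 𝔪 hx⟩

theorem glueAtP_good (hϖ : Irreducible ϖ) (hG : GaussRing ϖ 𝒪) {C : Subalgebra R F}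
    (hC : GoodChart ϖ 𝒪 C) {p : ℕ} {lam : R} (hU : PUnif ϖ p lam) {w : F}
    (hw : Cg 𝒪 (lam ^ p * ϖ) w 1)
    (𝔪 : Ideal C) (h𝔪 : 𝔪.IsMaximal) (hϖ𝔪 : algebraMap R C ϖ ∈ 𝔪)
    (hu : ∃ a : F, ∃ h : a ^ p * w ∈ C, (⟨a ^ p * w, h⟩ : C) ∉ 𝔪) :
    GlueAtP 𝒪 𝒪 (lam * ϖ) C p w 𝔪 := by
  have hprime : 𝔪.IsPrime := h𝔪.isPrime
  have hBg : GoodChart ϖ 𝒪 (locAt C 𝔪) := goodChart_locAt hϖ hG hC 𝔪 h𝔪 hϖ𝔪
  have hPL : PLoc ϖ p 𝒪 𝒪 (locAt C 𝔪) := ploc_of_good hG hBg (jac_locAt 𝔪 hϖ𝔪) hU.prime.two_le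
  obtain ⟨a, hε⟩ := hu
  obtain ⟨hx, hx'⟩ := Glue_unit_locAt 𝔪 hε
  have hε0 : a ^ p * w ≠ 0 := by
    obtain ⟨h, hm⟩ := hε
    intro h0
    exact hm (by
      have : (⟨a ^ p * w, h⟩ : C) = 0 := Subtype.ext h0
      rw [this]; exact 𝔪.zero_mem)
  obtain ⟨a', ha', -, j, hc, -⟩ := PLoc.normalize hϖ hG hG hU hPL hw hw hx hx' hε0
  obtain ⟨s, hs, hsR⟩ := Glue_descend 𝔪 hU.prime.pos ha'
  have hcs : Cg 𝒪 (lam * ϖ) (a' * (s : F)) (s : F) := by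
    have := hc.mul_right (hC.le _ s.2)
    rwa [one_mul] at this
  exact ⟨a' * (s : F), hsR, s, hs, hcs, hcs⟩

theorem glueAtP_of_not_le (hϖ : Irreducible ϖ) (hG₁ : GaussRing ϖ 𝒪₁) (hG₂ : GaussRing ϖ 𝒪₂)
    {C : Subalgebra R F} (hC : NodalChart ϖ 𝒪₁ 𝒪₂ C) {p : ℕ} {lam : R} (hU : PUnif ϖ p lam) {w : F}
    (hw₁ : Cg 𝒪₁ (lam ^ p * ϖ) w 1) (hw₂ : Cg 𝒪₂ (lam ^ p * ϖ) w 1)
    (𝔪 : Ideal C) (h𝔪 : 𝔪.IsMaximal) (h₁ : vert ϖ 𝒪₁ C ≤ 𝔪) (h₂ : ¬ vert ϖ 𝒪₂ C ≤ 𝔪)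
    (hu : ∃ a : F, ∃ h : a ^ p * w ∈ C, (⟨a ^ p * w, h⟩ : C) ∉ 𝔪) :
    GlueAtP 𝒪₁ 𝒪₂ (lam * ϖ) C p w 𝔪 := by
  have hprime : 𝔪.IsPrime := h𝔪.isPrime
  have hϖ𝔪 : algebraMap R C ϖ ∈ 𝔪 := h₁ (algebraMap_mem_vert hG₁ C)
  have hR₂ : ∀ r : R, algebraMap R F r ∈ 𝒪₂ := fun r => hC.le₂ _ (C.algebraMap_mem r)
  have hP0 : algebraMap R F ϖ ≠ 0 := hG₁.ne_zero
  have hBg : GoodChart ϖ 𝒪₁ (locAt C 𝔪) := locAt_goodChart hϖ hG₁ hG₂ hC 𝔪 h𝔪 h₁ h₂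
  have hPL : PLoc ϖ p 𝒪₁ 𝒪₁ (locAt C 𝔪) :=
    ploc_of_good hG₁ hBg (jac_locAt 𝔪 hϖ𝔪) hU.prime.two_le
  obtain ⟨a, hε⟩ := hu
  obtain ⟨hx, hx'⟩ := Glue_unit_locAt 𝔪 hε
  have hε0 : a ^ p * w ≠ 0 := by
    obtain ⟨h, hm⟩ := hε
    intro h0
    exact hm (by
      have : (⟨a ^ p * w, h⟩ : C) = 0 := Subtype.ext h0
      rw [this]; exact 𝔪.zero_mem)
  obtain ⟨a', ha', -, j, hc, -⟩ := PLoc.normalize hϖ hG₁ hG₁ hU hPL hw₁ hw₁ hx hx' hε0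
  obtain ⟨s, hs, hsR⟩ := Glue_descend 𝔪 hU.prime.pos ha'
  obtain ⟨-, hw2', hw0⟩ := hw₂.unit_of_one hG₂ hR₂ (dvd_mul_left ϖ (lam ^ p))
    (mul_ne_zero (pow_ne_zero _ hU.ne_zero) hϖ.ne_zero)
  have has2 : a' * (s : F) ∈ 𝒪₂ := rootSet_subset₁ hC.toSatChart2.symm hU.prime.pos hw0 hw2' hsR
  obtain ⟨y₀, hy2, hy𝔪⟩ := SetLike.not_le_iff_exists.mp h₂
  rw [mem_vert hC.le₂] at hy2
  obtain ⟨l, v, hv⟩ := hU.exists_pow hϖ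
  have hv0 : algebraMap R F (v : R) ≠ 0 := (v.isUnit.map (algebraMap R F)).ne_zero
  have hvinv : algebraMap R F ((v⁻¹ : Rˣ) : R) * algebraMap R F (v : R) = 1 := by
    rw [← map_mul, Units.inv_mul, map_one]
  have hc0 : algebraMap R F (lam * ϖ) = algebraMap R F (v : R) * algebraMap R F ϖ ^ (l + 2) := by
    rw [hv, map_mul, map_mul, map_pow]
    ring
  have hy : ((y₀ ^ (l + 2) : C) : F) / algebraMap R F (lam * ϖ) ∈ 𝒪₂ := by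
    have e : ((y₀ ^ (l + 2) : C) : F) / algebraMap R F (lam * ϖ) =
        ((y₀ : F) / algebraMap R F ϖ) ^ (l + 2) * algebraMap R F ((v⁻¹ : Rˣ) : R) := by
      rw [hc0, div_pow, div_mul_eq_mul_div, div_eq_div_iff (mul_ne_zero hv0 (pow_ne_zero _ hP0))
        (pow_ne_zero _ hP0)]
      push_cast
      linear_combination (-(y₀ : F) ^ (l + 2) * algebraMap R F ϖ ^ (l + 2)) * hvinv
    rw [e]
    exact mul_mem (pow_mem hy2 _) (hR₂ _)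
  have hy𝔪' : y₀ ^ (l + 2) ∉ 𝔪 := fun h => hy𝔪 (hprime.mem_of_pow_mem _ h)
  refine ⟨((y₀ ^ (l + 2) : C) : F) * (a' * (s : F)), rootSet_mul (y₀ ^ (l + 2) : C).2 hsR,
    y₀ ^ (l + 2) * s, ?_, ?_, ?_⟩
  · intro hmem
    rcases hprime.mem_or_mem hmem with h | h
    · exact hy𝔪' h
    · exact hs h
  · have h1 := (hc.mul_right (hC.le₁ _ s.2)).mul_left (hC.le₁ _ (y₀ ^ (l + 2) : C).2)
    rw [one_mul] at h1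
    exact h1
  · show (((y₀ ^ (l + 2) : C) : F) * (a' * (s : F)) - ((y₀ ^ (l + 2) * s : C) : F)) /
      algebraMap R F (lam * ϖ) ∈ 𝒪₂
    have e : (((y₀ ^ (l + 2) : C) : F) * (a' * (s : F)) - ((y₀ ^ (l + 2) * s : C) : F)) /
        algebraMap R F (lam * ϖ) =
        ((y₀ ^ (l + 2) : C) : F) / algebraMap R F (lam * ϖ) * (a' * (s : F) - (s : F)) := by
      rw [Subalgebra.coe_mul]
      ring
    rw [e]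
    exact mul_mem hy (sub_mem has2 (hC.le₂ _ s.2))

end Fermat.Agent.LP
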