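import Fermat.Agent.LP.Nod.Cg
import Fermat.Agent.LP.Nod.Poly
import Fermat.Agent.GR.E.Root

/-!
# LP-NOD, file `Loc`: THE LOCAL NORMALISATION (NODE-p lemma), generic form

`B` satisfies `PLoc ϖ p 𝒪₁ 𝒪₂ B`; `w ≡ 1` modulo `lam ^ p ϖ` on both branches; `ε := a ^ p w` is a
unit of `B`.  Then, after dividing `a` by a unit `β` of `B`: `a ≡ 1` modulo `lam ϖ` on the first
branch and `a ≡ (1 + lam) ^ j = ζ ^ j` modulo `lam ϖ` on the second one.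

Write `P = ϖ`.  `R ⊆ B ⊆ 𝒪ᵢ`.

* `PLoc.step` (`P ^ (r+1) ∣ lam`, `a ≡ 1` mod `P ^ r`).  `y := (a - 1) / P ^ r ∈ 𝒪₁ ∩ 𝒪₂`,
  `a = 1 + x`, `x = P ^ r y`.  `Poly_one_add_pow` (in `𝒪ᵢ`): `a ^ p = 1 + P ^ (pr) y ^ p +
  p P ^ r y (1 + x g)`; `P ^ ((r+1)(p-1)) ∣ p` and `(r+1)(p-1) + r ≥ pr + 1`; also
  `P ^ (pr+1) ∣ lam ^ p P`.  Hence `ε ≡ 1 + P ^ (pr) y ^ p` modulo `P ^ (pr+1) 𝒪ᵢ`, so
  `h := (ε - 1) / P ^ (pr) ∈ B` (`SatChart2_sat_of` / `SatChart2.sat_pow`) and `y ^ p ≡ h` mod `P`.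
  `hB.liftP` gives `b ∈ B`, `y ≡ b` mod `P`.  `β := 1 + P ^ r b`.
  `β` is a unit of `B`: for `r ≥ 1` by `hB.jac`; for `r = 0`: `β ≡ a`, `β ^ p ≡ a ^ p ≡ ε` mod `P`
  on both branches, `(β ^ p - ε) / P ∈ B` (sat), `β ^ p = ε (1 + P ((β ^ p - ε) / P) ε⁻¹)` is a unit
  by `hB.jac`, so `β⁻¹ = β ^ (p-1) (β ^ p)⁻¹ ∈ B`.
  `a / β - 1 = P ^ r (y - b) β⁻¹ ∈ P ^ (r+1) 𝒪ᵢ`.
* `PLoc.reach`: induction with `PLoc.step`, `r = 0, …, l` where `lam = v P ^ (l+1)`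
  (`PUnif.exists_pow`); note `(a / β) ^ p w = ε / β ^ p` is again a unit of `B`.  Start:
  `a ∈ 𝒪ᵢ` (`rootSet_subset₁`), i.e. `a ≡ 1` mod `P ^ 0`.
* `PLoc.top` (`a ≡ 1` mod `lam`).  `z := (a - 1) / lam ∈ 𝒪₁ ∩ 𝒪₂`.  `Poly_as` (in `𝒪ᵢ`):
  `a ^ p = 1 + lam ^ p (z ^ p - u z - u lam z ^ 2 g)`.  So `h := (ε - 1) / lam ^ p ∈ B` and
  `z ^ p - z ≡ h` mod `P` (`u ≡ 1`, `P ∣ lam`, `(w - 1) / lam ^ p ∈ P 𝒪ᵢ`).  `hB.liftAS` gives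
  `b ∈ B`, `j`.  `β := 1 + lam b` (unit by `hB.jac`, `P ∣ lam`).
  `a / β - 1 = lam (z - b) β⁻¹`.  First branch: `∈ lam P 𝒪₁`.  Second branch: `z - b ≡ j`,
  `β⁻¹ ≡ 1` mod `P`, so `a / β ≡ 1 + j lam ≡ (1 + lam) ^ j` mod `lam P`
  (`(1 + lam) ^ j = 1 + j lam + lam ^ 2 e`, `GR.E.Small_one_add_pow`).
-/

set_option autoImplicit false

namespace Fermat.Agent.LP

open Fermat.Agent.GR.E Fermat.Agent.GS

variable {R : Type*} [CommRing R] [IsDomain R] [IsDiscreteValuationRing R]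
variable {F : Type*} [Field F] [Algebra R F]
variable {ϖ : R} {𝒪₁ 𝒪₂ : ValuationSubring F} {B : Subalgebra R F}

theorem Loc_one_add_ne_zero {𝒪 : ValuationSubring F} (hG : GaussRing ϖ 𝒪) {c : F} (hc : c ∈ 𝒪) :
    1 + algebraMap R F ϖ * c ≠ 0 := by
  intro h
  apply hG.inv_not_mem
  have h1 : (algebraMap R F ϖ)⁻¹ = -c := by
    have hP := hG.ne_zero
    field_simp
    linear_combination h
  rw [h1]
  exact 𝒪.neg_mem _ hc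

/-- one branch of `PLoc.step`. -/
theorem Loc_step_branch {𝒪 : ValuationSubring F} (hϖ : Irreducible ϖ) (hG : GaussRing ϖ 𝒪)
    (hR : ∀ r : R, algebraMap R F r ∈ 𝒪) {p : ℕ} {lam : R} (hU : PUnif ϖ p lam) {r : ℕ}
    (hr : ϖ ^ (r + 1) ∣ lam) {w a : F} (hw : Cg 𝒪 (lam ^ p * ϖ) w 1) (ha : Cg 𝒪 (ϖ ^ r) a 1) :
    Cg 𝒪 ϖ ((a ^ p * w - 1) / algebraMap R F ϖ ^ (p * r))
      (((a - 1) / algebraMap R F ϖ ^ r) ^ p) := by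
  have hP := hG.ne_zero
  have hPO := hG.mem
  obtain ⟨k, rfl⟩ : ∃ k, p = k + 2 := ⟨p - 2, by have := hU.prime.two_le; omega⟩
  obtain ⟨d, hd⟩ := hr
  obtain ⟨u, hu, -⟩ := hU.eq
  have hc0 : algebraMap R F (lam ^ (k + 2) * ϖ) ≠ 0 :=
    Cg_algebraMap_ne_zero hϖ hG (mul_ne_zero (pow_ne_zero _ hU.ne_zero) hϖ.ne_zero)
  have hyO : (a - 1) / algebraMap R F ϖ ^ r ∈ 𝒪 := by
    have := ha
    rw [Cg, map_pow] at this
    exact this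
  have htO : (w - 1) / algebraMap R F (lam ^ (k + 2) * ϖ) ∈ 𝒪 := hw
  have h1 : algebraMap R F (lam ^ (k + 2) * ϖ) =
      algebraMap R F ϖ ^ ((r + 1) * (k + 2) + 1) * algebraMap R F d ^ (k + 2) := by
    rw [hd, map_mul, map_pow, map_mul, map_pow]
    ring
  have hp' : ((k + 2 : ℕ) : F) =
      algebraMap R F ϖ ^ ((r + 1) * (k + 1)) * algebraMap R F (-(d ^ (k + 1) * u)) := by
    have h1 : ((k + 2 : ℕ) : F) = algebraMap R F ((k + 2 : ℕ) : R) := (map_natCast _ _).symm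
    rw [h1, hu, hd]
    simp only [map_neg, map_mul, map_pow, show k + 2 - 1 = k + 1 from rfl]
    ring
  have hDO := hR d
  have hcO := hR (-(d ^ (k + 1) * u))
  rw [h1] at hc0 htO
  unfold Cg
  clear hw ha h1
  generalize algebraMap R F (-(d ^ (k + 1) * u)) = c at hp' hcO
  generalize algebraMap R F d = D at hc0 htO hDO
  generalize hy : (a - 1) / algebraMap R F ϖ ^ r = y at hyO ⊢
  generalize ht : (w - 1) / (algebraMap R F ϖ ^ ((r + 1) * (k + 2) + 1) * D ^ (k + 2)) = t at htO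
  generalize algebraMap R F ϖ = P at hP hPO hc0 hp' hy ht ⊢
  have hay : a = 1 + P ^ r * y := by
    rw [← hy]; field_simp; ring
  have haO : a ∈ 𝒪 := by
    rw [hay]
    exact 𝒪.add_mem _ _ 𝒪.one_mem (𝒪.mul_mem _ _ (𝒪.pow_mem hPO r) hyO)
  have hw' : w = 1 + P ^ ((r + 1) * (k + 2) + 1) * D ^ (k + 2) * t := by
    have hD0 : D ≠ 0 := by
      rintro rfl
      simp at hc0
    rw [← ht]
    field_simp
    ring
  -- binomial theorem in `𝒪`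
  obtain ⟨g, hg⟩ := Poly_one_add_pow (A := 𝒪) hU.prime
    ⟨P ^ r * y, 𝒪.mul_mem _ _ (𝒪.pow_mem hPO r) hyO⟩
  have hg' : a ^ (k + 2) = 1 + (P ^ r * y) ^ (k + 2) + ((k + 2 : ℕ) : F) * (P ^ r * y) +
      ((k + 2 : ℕ) : F) * (P ^ r * y) ^ 2 * (g : F) := by
    have := congrArg 𝒪.subtype hg
    simp only [map_add, map_mul, map_pow, map_one, map_natCast] at this
    rw [hay]
    exact this
  have hgO : (g : F) ∈ 𝒪 := g.2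
  clear hg
  generalize (g : F) = G at hg' hgO
  have hZO : P ^ k * c * y * (1 + P ^ r * y * G) +
      a ^ (k + 2) * P ^ (k + 2) * D ^ (k + 2) * t ∈ 𝒪 := by
    refine 𝒪.add_mem _ _ (𝒪.mul_mem _ _ (𝒪.mul_mem _ _ (𝒪.mul_mem _ _ (𝒪.pow_mem hPO k) hcO)
      hyO) (𝒪.add_mem _ _ 𝒪.one_mem (𝒪.mul_mem _ _ (𝒪.mul_mem _ _ (𝒪.pow_mem hPO r) hyO) hgO)))
      (𝒪.mul_mem _ _ (𝒪.mul_mem _ _ (𝒪.mul_mem _ _ (𝒪.pow_mem haO _) (𝒪.pow_mem hPO _))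
        (𝒪.pow_mem hDO _)) htO)
  have key : a ^ (k + 2) * w - 1 = P ^ ((k + 2) * r) * (y ^ (k + 2) + P * (P ^ k * c * y *
      (1 + P ^ r * y * G) + a ^ (k + 2) * P ^ (k + 2) * D ^ (k + 2) * t)) := by
    linear_combination hg' + a ^ (k + 2) * hw' + (P ^ r * y + (P ^ r * y) ^ 2 * G) * hp'
  have : ((a ^ (k + 2) * w - 1) / P ^ ((k + 2) * r) - y ^ (k + 2)) / P =
      P ^ k * c * y * (1 + P ^ r * y * G) + a ^ (k + 2) * P ^ (k + 2) * D ^ (k + 2) * t := by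
    rw [key]
    field_simp
    ring
  rw [this]
  exact hZO

theorem PLoc.step (hϖ : Irreducible ϖ) (hG₁ : GaussRing ϖ 𝒪₁) (hG₂ : GaussRing ϖ 𝒪₂)
    {p : ℕ} {lam : R} (hU : PUnif ϖ p lam) (hB : PLoc ϖ p 𝒪₁ 𝒪₂ B) {r : ℕ}
    (hr : ϖ ^ (r + 1) ∣ lam) {w a : F}
    (hw₁ : Cg 𝒪₁ (lam ^ p * ϖ) w 1) (hw₂ : Cg 𝒪₂ (lam ^ p * ϖ) w 1)
    (ha : a ^ p * w ∈ B) (ha' : (a ^ p * w)⁻¹ ∈ B) (h0 : a ^ p * w ≠ 0)
    (ha₁ : Cg 𝒪₁ (ϖ ^ r) a 1) (ha₂ : Cg 𝒪₂ (ϖ ^ r) a 1) :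
    ∃ β ∈ B, β ≠ 0 ∧ β⁻¹ ∈ B ∧ Cg 𝒪₁ (ϖ ^ (r + 1)) (a / β) 1 ∧ Cg 𝒪₂ (ϖ ^ (r + 1)) (a / β) 1 := by
  have hP := hG₁.ne_zero
  have hR₁ : ∀ r : R, algebraMap R F r ∈ 𝒪₁ := fun r => hB.sat2.le₁ _ (B.algebraMap_mem r)
  have hR₂ : ∀ r : R, algebraMap R F r ∈ 𝒪₂ := fun r => hB.sat2.le₂ _ (B.algebraMap_mem r)
  have hc0 : algebraMap R F (lam ^ p * ϖ) ≠ 0 :=
    Cg_algebraMap_ne_zero hϖ hG₁ (mul_ne_zero (pow_ne_zero _ hU.ne_zero) hϖ.ne_zero)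
  have hb₁ := Loc_step_branch hϖ hG₁ hR₁ hU hr hw₁ ha₁
  have hb₂ := Loc_step_branch hϖ hG₂ hR₂ hU hr hw₂ ha₂
  set P := algebraMap R F ϖ with hPdef
  set ε := a ^ p * w with hε
  set y := (a - 1) / P ^ r with hy
  set h := (ε - 1) / P ^ (p * r) with hh
  have hy₁ : y ∈ 𝒪₁ := by
    have := ha₁
    rw [Cg, map_pow] at this
    exact this
  have hy₂ : y ∈ 𝒪₂ := by
    have := ha₂
    rw [Cg, map_pow] at this
    exact this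
  have hay : a = 1 + P ^ r * y := by
    rw [hy]; field_simp; ring
  have hPB : P ∈ B := B.algebraMap_mem ϖ
  have hhB : h ∈ B := hB.sat2.sat_pow (p * r) (B.sub_mem ha B.one_mem)
    (hb₁.mem hR₁ hP (𝒪₁.pow_mem hy₁ p)) (hb₂.mem hR₂ hP (𝒪₂.pow_mem hy₂ p))
  obtain ⟨b, hbB, hyb₁, hyb₂⟩ := hB.liftP y h hy₁ hy₂ hhB hb₁.symm hb₂.symm
  set β := 1 + P ^ r * b with hβ
  have hβB : β ∈ B := B.add_mem B.one_mem (B.mul_mem (B.pow_mem hPB r) hbB)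
  -- `β` is a unit
  have hunit : β ≠ 0 ∧ β⁻¹ ∈ B := by
    rcases Nat.eq_zero_or_pos r with hr0 | hr0
    · subst hr0
      have hp0 : 0 < p := hU.prime.pos
      have haβ : ∀ {𝒪 : ValuationSubring F}, (∀ r : R, algebraMap R F r ∈ 𝒪) → (∀ x ∈ B, x ∈ 𝒪) →
          y ∈ 𝒪 → Cg 𝒪 ϖ y b → Cg 𝒪 (lam ^ p * ϖ) w 1 → Cg 𝒪 ϖ (β ^ p) ε := by
        intro 𝒪 hR hle hyO hyb hw
        have haO : a ∈ 𝒪 := by
          rw [hay]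
          exact 𝒪.add_mem _ _ 𝒪.one_mem (𝒪.mul_mem _ _ (𝒪.pow_mem (hle _ hPB) 0) hyO)
        have h1 : Cg 𝒪 ϖ β a := by
          have : Cg 𝒪 ϖ (1 + b) (1 + y) := (Cg.refl 1).add hyb.symm
          rw [hβ, hay]
          simpa using this
        have h2 : Cg 𝒪 ϖ (β ^ p) (a ^ p) := h1.pow (hle _ hβB) haO p
        have h3 : Cg 𝒪 ϖ w 1 := hw.of_dvd hR (Dvd.intro_left _ rfl) hc0
        have h4 : Cg 𝒪 ϖ (a ^ p * w) (a ^ p * 1) := h3.mul_left (𝒪.pow_mem haO p)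
        rw [mul_one] at h4
        exact h2.trans h4.symm
      have h₁ := haβ hR₁ hB.sat2.le₁ hy₁ hyb₁ hw₁
      have h₂ := haβ hR₂ hB.sat2.le₂ hy₂ hyb₂ hw₂
      set t := (β ^ p - ε) / P with ht
      have htB : t ∈ B := hB.sat2.sat _ (B.sub_mem (B.pow_mem hβB p) ha) h₁ h₂
      have hjac := hB.jac (t * ε⁻¹) (B.mul_mem htB ha')
      have hne := Loc_one_add_ne_zero hG₁ (hB.sat2.le₁ _ (B.mul_mem htB ha'))
      have hβp : β ^ p = ε * (1 + P * (t * ε⁻¹)) := by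
        rw [ht]
        field_simp
        ring
      have hβ0 : β ≠ 0 := by
        intro hz
        rw [hz, zero_pow hp0.ne'] at hβp
        exact (mul_ne_zero h0 hne) hβp.symm
      refine ⟨hβ0, ?_⟩
      have : β⁻¹ = β ^ (p - 1) * (ε⁻¹ * (1 + P * (t * ε⁻¹))⁻¹) := by
        rw [← mul_inv, ← hβp]
        have : β ^ p = β ^ (p - 1) * β := by
          rw [← pow_succ]; congr 1; omega
        rw [this]
        field_simp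
      rw [this]
      exact B.mul_mem (B.pow_mem hβB _) (B.mul_mem ha' hjac)
    · obtain ⟨r', rfl⟩ : ∃ r', r = r' + 1 := ⟨r - 1, by omega⟩
      have hβ' : β = 1 + P * (P ^ r' * b) := by rw [hβ]; ring
      have hmem : P ^ r' * b ∈ B := B.mul_mem (B.pow_mem hPB r') hbB
      rw [hβ']
      exact ⟨Loc_one_add_ne_zero hG₁ (hB.sat2.le₁ _ hmem), hB.jac _ hmem⟩
  obtain ⟨hβ0, hβinv⟩ := hunit
  have hfin : ∀ {𝒪 : ValuationSubring F}, (∀ x ∈ B, x ∈ 𝒪) → Cg 𝒪 ϖ y b →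
      Cg 𝒪 (ϖ ^ (r + 1)) (a / β) 1 := by
    intro 𝒪 hle hyb
    have : (a / β - 1) / algebraMap R F (ϖ ^ (r + 1)) = (y - b) / P * β⁻¹ := by
      rw [map_pow, ← hPdef]
      have h1 : a - β = P ^ r * (y - b) := by rw [hay, hβ]; ring
      have h2 : a / β - 1 = (a - β) * β⁻¹ := by field_simp
      rw [h2, h1]
      field_simp
      ring
    rw [Cg, this]
    exact 𝒪.mul_mem _ _ hyb (hle _ hβinv)
  exact ⟨β, hβB, hβ0, hβinv, hfin hB.sat2.le₁ hyb₁, hfin hB.sat2.le₂ hyb₂⟩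

theorem Loc_div_unit {p : ℕ} {w a β : F} (ha : a ^ p * w ∈ B) (ha' : (a ^ p * w)⁻¹ ∈ B)
    (h0 : a ^ p * w ≠ 0) (hβ : β ∈ B) (hβ0 : β ≠ 0) (hβ' : β⁻¹ ∈ B) :
    (a / β) ^ p * w ∈ B ∧ ((a / β) ^ p * w)⁻¹ ∈ B ∧ (a / β) ^ p * w ≠ 0 := by
  have e : (a / β) ^ p * w = a ^ p * w * β⁻¹ ^ p := by
    rw [div_eq_mul_inv, mul_pow]
    ring
  have e' : ((a / β) ^ p * w)⁻¹ = (a ^ p * w)⁻¹ * β ^ p := by
    rw [e, mul_inv, inv_pow, inv_inv]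
  refine ⟨?_, ?_, ?_⟩
  · rw [e]
    exact B.mul_mem ha (B.pow_mem hβ' p)
  · rw [e']
    exact B.mul_mem ha' (B.pow_mem hβ p)
  · rw [e]
    exact mul_ne_zero h0 (pow_ne_zero _ (inv_ne_zero hβ0))

theorem Loc_mem_of_pow_mem {𝒪 : ValuationSubring F} {p : ℕ} (hp : 0 < p) {a : F}
    (h : a ^ p ∈ 𝒪) : a ∈ 𝒪 := by
  rcases 𝒪.mem_or_inv_mem a with h1 | h1
  · exact h1
  · by_cases ha : a = 0
    · rw [ha]
      exact 𝒪.zero_mem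
    · have e : a = a ^ p * a⁻¹ ^ (p - 1) := by
        obtain ⟨k, rfl⟩ : ∃ k, p = k + 1 := ⟨p - 1, by omega⟩
        rw [Nat.add_sub_cancel, pow_succ, inv_pow]
        field_simp
      rw [e]
      exact 𝒪.mul_mem _ _ h (𝒪.pow_mem h1 _)

theorem Loc_reach_aux (hϖ : Irreducible ϖ) (hG₁ : GaussRing ϖ 𝒪₁) (hG₂ : GaussRing ϖ 𝒪₂)
    {p : ℕ} {lam : R} (hU : PUnif ϖ p lam) (hB : PLoc ϖ p 𝒪₁ 𝒪₂ B) {w a : F}
    (hw₁ : Cg 𝒪₁ (lam ^ p * ϖ) w 1) (hw₂ : Cg 𝒪₂ (lam ^ p * ϖ) w 1)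
    (ha : a ^ p * w ∈ B) (ha' : (a ^ p * w)⁻¹ ∈ B) (h0 : a ^ p * w ≠ 0) (r : ℕ)
    (hr : ϖ ^ r ∣ lam) :
    ∃ β ∈ B, β ≠ 0 ∧ β⁻¹ ∈ B ∧ Cg 𝒪₁ (ϖ ^ r) (a / β) 1 ∧ Cg 𝒪₂ (ϖ ^ r) (a / β) 1 := by
  have hR₁ : ∀ r : R, algebraMap R F r ∈ 𝒪₁ := fun r => hB.sat2.le₁ _ (B.algebraMap_mem r)
  have hR₂ : ∀ r : R, algebraMap R F r ∈ 𝒪₂ := fun r => hB.sat2.le₂ _ (B.algebraMap_mem r)
  have hc0 : lam ^ p * ϖ ≠ 0 := mul_ne_zero (pow_ne_zero _ hU.ne_zero) hϖ.ne_zero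
  induction r with
  | zero =>
    have hmem : ∀ {𝒪 : ValuationSubring F}, GaussRing ϖ 𝒪 → (∀ r : R, algebraMap R F r ∈ 𝒪) →
        (∀ x ∈ B, x ∈ 𝒪) → Cg 𝒪 (lam ^ p * ϖ) w 1 → Cg 𝒪 (ϖ ^ 0) (a / 1) 1 := by
      intro 𝒪 hG hR hle hw
      obtain ⟨-, hwi, hw0⟩ := hw.unit_of_one hG hR (Dvd.intro_left _ rfl) hc0
      have h1 : a ^ p ∈ 𝒪 := by
        have e : a ^ p = a ^ p * w * w⁻¹ := by field_simp
        rw [e]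
        exact 𝒪.mul_mem _ _ (hle _ ha) hwi
      have h2 : a ∈ 𝒪 := Loc_mem_of_pow_mem hU.prime.pos h1
      unfold Cg
      rw [pow_zero, map_one, div_one, div_one]
      exact 𝒪.sub_mem h2 𝒪.one_mem
    exact ⟨1, B.one_mem, one_ne_zero, by rw [inv_one]; exact B.one_mem,
      hmem hG₁ hR₁ hB.sat2.le₁ hw₁, hmem hG₂ hR₂ hB.sat2.le₂ hw₂⟩
  | succ r ih =>
    obtain ⟨β₁, hβ₁, hβ₁0, hβ₁', h₁, h₂⟩ := ih (dvd_trans (pow_dvd_pow ϖ (Nat.le_succ r)) hr)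
    obtain ⟨hb, hb', hb0⟩ := Loc_div_unit ha ha' h0 hβ₁ hβ₁0 hβ₁'
    obtain ⟨β₂, hβ₂, hβ₂0, hβ₂', k₁, k₂⟩ := hB.step hϖ hG₁ hG₂ hU hr hw₁ hw₂ hb hb' hb0 h₁ h₂
    refine ⟨β₁ * β₂, B.mul_mem hβ₁ hβ₂, mul_ne_zero hβ₁0 hβ₂0, ?_, ?_, ?_⟩
    · rw [mul_inv]
      exact B.mul_mem hβ₁' hβ₂'
    · rw [← div_div]
      exact k₁
    · rw [← div_div]
      exact k₂

theorem PLoc.reach (hϖ : Irreducible ϖ) (hG₁ : GaussRing ϖ 𝒪₁) (hG₂ : GaussRing ϖ 𝒪₂)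
    {p : ℕ} {lam : R} (hU : PUnif ϖ p lam) (hB : PLoc ϖ p 𝒪₁ 𝒪₂ B) {w a : F}
    (hw₁ : Cg 𝒪₁ (lam ^ p * ϖ) w 1) (hw₂ : Cg 𝒪₂ (lam ^ p * ϖ) w 1)
    (ha : a ^ p * w ∈ B) (ha' : (a ^ p * w)⁻¹ ∈ B) (h0 : a ^ p * w ≠ 0) :
    ∃ β ∈ B, β ≠ 0 ∧ β⁻¹ ∈ B ∧ Cg 𝒪₁ lam (a / β) 1 ∧ Cg 𝒪₂ lam (a / β) 1 := by
  have hR₁ : ∀ r : R, algebraMap R F r ∈ 𝒪₁ := fun r => hB.sat2.le₁ _ (B.algebraMap_mem r)
  have hR₂ : ∀ r : R, algebraMap R F r ∈ 𝒪₂ := fun r => hB.sat2.le₂ _ (B.algebraMap_mem r)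
  obtain ⟨l, v, hv⟩ := hU.exists_pow hϖ
  obtain ⟨β, hβ, hβ0, hβ', h₁, h₂⟩ := Loc_reach_aux hϖ hG₁ hG₂ hU hB hw₁ hw₂ ha ha' h0 (l + 1)
    (Dvd.intro_left _ hv.symm)
  have hd : lam ∣ ϖ ^ (l + 1) := by
    refine ⟨((v⁻¹ : Rˣ) : R), ?_⟩
    rw [hv, mul_comm, ← mul_assoc, Units.inv_mul, one_mul]
  have hc0 : algebraMap R F (ϖ ^ (l + 1)) ≠ 0 :=
    Cg_algebraMap_ne_zero hϖ hG₁ (pow_ne_zero _ hϖ.ne_zero)
  exact ⟨β, hβ, hβ0, hβ', h₁.of_dvd hR₁ hd hc0, h₂.of_dvd hR₂ hd hc0⟩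

/-- one branch of `PLoc.top`: `h = (ε - 1) / lam ^ p ∈ 𝒪` and `z ^ p - z ≡ h` modulo `ϖ`. -/
theorem Loc_top_branch {𝒪 : ValuationSubring F} (hR : ∀ r : R, algebraMap R F r ∈ 𝒪) {p : ℕ}
    (hp : p.Prime) {lam u l' u' : R} (hu : (p : R) = -(lam ^ (p - 1) * u)) (hl' : lam = ϖ * l')
    (hu' : u - 1 = ϖ * u') (hP0 : algebraMap R F ϖ ≠ 0) (hL0 : algebraMap R F lam ≠ 0) {w a : F}
    (hw : Cg 𝒪 (lam ^ p * ϖ) w 1) (ha : Cg 𝒪 lam a 1) :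
    (a ^ p * w - 1) / algebraMap R F (lam ^ p) ∈ 𝒪 ∧
      Cg 𝒪 ϖ (((a - 1) / algebraMap R F lam) ^ p - (a - 1) / algebraMap R F lam)
        ((a ^ p * w - 1) / algebraMap R F (lam ^ p)) := by
  have hz : (a - 1) / algebraMap R F lam ∈ 𝒪 := ha
  have hω : (w - 1) / algebraMap R F (lam ^ p * ϖ) ∈ 𝒪 := hw
  have hpA : ((p : ℕ) : 𝒪) =
      -((⟨algebraMap R F lam, hR lam⟩ : 𝒪) ^ (p - 1) * (⟨algebraMap R F u, hR u⟩ : 𝒪)) := by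
    apply Subtype.ext
    have h1 := congrArg (algebraMap R F) hu
    rw [map_natCast, map_neg, map_mul, map_pow] at h1
    push_cast
    exact h1
  obtain ⟨g, hg⟩ := Poly_as (A := 𝒪) hp hpA ⟨(a - 1) / algebraMap R F lam, hz⟩
  have hg' := congrArg (Subtype.val) hg
  push_cast at hg'
  have hgm : (g : F) ∈ 𝒪 := g.2
  have hL' : algebraMap R F lam = algebraMap R F ϖ * algebraMap R F l' := by
    rw [← map_mul, ← hl']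
  have hU' : algebraMap R F u - 1 = algebraMap R F ϖ * algebraMap R F u' := by
    rw [← map_mul, ← hu', map_sub, map_one]
  have hUm := hR u
  have hlm := hR l'
  have hum := hR u'
  have hLm := hR lam
  have hPm := hR ϖ
  clear hg hpA
  show (a ^ p * w - 1) / algebraMap R F (lam ^ p) ∈ 𝒪 ∧
    (((a - 1) / algebraMap R F lam) ^ p - (a - 1) / algebraMap R F lam -
      (a ^ p * w - 1) / algebraMap R F (lam ^ p)) / algebraMap R F ϖ ∈ 𝒪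
  rw [map_pow]
  rw [map_mul, map_pow] at hω
  clear hw ha hR
  generalize (g : F) = G at hg' hgm
  generalize algebraMap R F u = U at hg' hU' hUm
  generalize algebraMap R F l' = l₁ at hL' hlm
  generalize algebraMap R F u' = u₁ at hU' hum
  generalize hzdef : (a - 1) / algebraMap R F lam = z at hz hg' ⊢
  generalize hωdef : (w - 1) / (algebraMap R F lam ^ p * algebraMap R F ϖ) = ω at hω
  generalize algebraMap R F lam = L at hL0 hg' hL' hLm hzdef hωdef ⊢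
  generalize algebraMap R F ϖ = P at hP0 hL' hU' hPm hωdef ⊢
  have hLp : L ^ p ≠ 0 := pow_ne_zero p hL0
  have haz : a = 1 + L * z := by
    rw [← hzdef]
    field_simp
    ring
  have hwω : w = 1 + L ^ p * P * ω := by
    rw [← hωdef]
    field_simp
    ring
  have ham : a ∈ 𝒪 := by
    rw [haz]
    exact add_mem (one_mem 𝒪) (mul_mem hLm hz)
  have hap : a ^ p = 1 + L ^ p * (z ^ p - U * z - U * L * z ^ 2 * G) := by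
    rw [haz]
    exact hg'
  have hh : (a ^ p * w - 1) / L ^ p = a ^ p * P * ω + (z ^ p - U * z - U * L * z ^ 2 * G) := by
    rw [div_eq_iff hLp]
    linear_combination a ^ p * hwω + hap
  refine ⟨?_, ?_⟩
  · rw [hh]
    exact add_mem (mul_mem (mul_mem (pow_mem ham p) hPm) hω)
      (sub_mem (sub_mem (pow_mem hz p) (mul_mem hUm hz))
        (mul_mem (mul_mem (mul_mem hUm hLm) (pow_mem hz 2)) hgm))
  · have e : (z ^ p - z - (a ^ p * w - 1) / L ^ p) / P =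
        -(a ^ p * ω) + u₁ * z + U * l₁ * z ^ 2 * G := by
      rw [div_eq_iff hP0, hh]
      linear_combination z * hU' + U * z ^ 2 * G * hL'
    rw [e]
    exact add_mem (add_mem (neg_mem (mul_mem (pow_mem ham p) hω)) (mul_mem hum hz))
      (mul_mem (mul_mem (mul_mem hUm hlm) (pow_mem hz 2)) hgm)

theorem Loc_one_add_pow {C : Type*} [CommRing C] (z : C) (n : ℕ) :
    ∃ e : C, (1 + z) ^ n = 1 + n * z + z ^ 2 * e := by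
  induction n with
  | zero => exact ⟨0, by simp⟩
  | succ n ih =>
    obtain ⟨e, he⟩ := ih
    refine ⟨n + e + e * z, ?_⟩
    rw [pow_succ, he]
    push_cast
    ring

/-- one branch of `PLoc.top`: the final congruence. -/
theorem Loc_top_final {𝒪 : ValuationSubring F} (hR : ∀ r : R, algebraMap R F r ∈ 𝒪) {lam l' : R}
    (hl' : lam = ϖ * l') (hP0 : algebraMap R F ϖ ≠ 0) (hL0 : algebraMap R F lam ≠ 0) {a b : F}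
    (j : ℕ) (hb : b ∈ 𝒪) (hβ0 : 1 + algebraMap R F lam * b ≠ 0)
    (hβ : (1 + algebraMap R F lam * b)⁻¹ ∈ 𝒪)
    (h : Cg 𝒪 ϖ ((a - 1) / algebraMap R F lam) (b + (j : F))) :
    Cg 𝒪 (lam * ϖ) (a / (1 + algebraMap R F lam * b)) (algebraMap R F ((1 + lam) ^ j)) := by
  obtain ⟨e, he⟩ := Loc_one_add_pow lam j
  have he' : algebraMap R F ((1 + lam) ^ j) =
      1 + (j : F) * algebraMap R F lam + algebraMap R F lam ^ 2 * algebraMap R F e := by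
    rw [he, map_add, map_add, map_mul, map_mul, map_pow, map_one, map_natCast]
  have ht : ((a - 1) / algebraMap R F lam - (b + (j : F))) / algebraMap R F ϖ ∈ 𝒪 := h
  have hL' : algebraMap R F lam = algebraMap R F ϖ * algebraMap R F l' := by
    rw [← map_mul, ← hl']
  have hlm := hR l'
  have hem := hR e
  have hjm : (j : F) ∈ 𝒪 := by
    have := hR (j : R)
    rwa [map_natCast] at this
  show (a / (1 + algebraMap R F lam * b) - algebraMap R F ((1 + lam) ^ j)) /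
    algebraMap R F (lam * ϖ) ∈ 𝒪
  rw [he', map_mul]
  generalize algebraMap R F e = E at hem ⊢
  generalize algebraMap R F l' = l₁ at hL' hlm
  clear h hR he'
  generalize htdef : ((a - 1) / algebraMap R F lam - (b + (j : F))) / algebraMap R F ϖ = t at ht
  generalize algebraMap R F lam = L at hL0 hβ0 hβ hL' htdef ⊢
  generalize algebraMap R F ϖ = P at hP0 hL' htdef ⊢
  have haz : a = 1 + L * (b + (j : F) + P * t) := by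
    rw [← htdef]
    field_simp
    ring
  have hββ : (1 + L * b) * (1 + L * b)⁻¹ = 1 := mul_inv_cancel₀ hβ0
  have e1 : (a / (1 + L * b) - (1 + (j : F) * L + L ^ 2 * E)) / (L * P) =
      t * (1 + L * b)⁻¹ - (j : F) * l₁ * b * (1 + L * b)⁻¹ - l₁ * E := by
    rw [div_eq_iff (mul_ne_zero hL0 hP0), div_eq_mul_inv]
    generalize (1 + L * b)⁻¹ = βi at hββ
    linear_combination βi * haz + (1 + (j : F) * L) * hββ -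
      ((j : F) * b * βi * L + E * L) * hL'
  rw [e1]
  exact sub_mem (sub_mem (mul_mem ht hβ) (mul_mem (mul_mem (mul_mem hjm hlm) hb) hβ))
    (mul_mem hlm hem)

theorem PLoc.top (hϖ : Irreducible ϖ) (hG₁ : GaussRing ϖ 𝒪₁) (hG₂ : GaussRing ϖ 𝒪₂)
    {p : ℕ} {lam : R} (hU : PUnif ϖ p lam) (hB : PLoc ϖ p 𝒪₁ 𝒪₂ B) {w a : F}
    (hw₁ : Cg 𝒪₁ (lam ^ p * ϖ) w 1) (hw₂ : Cg 𝒪₂ (lam ^ p * ϖ) w 1)
    (ha : a ^ p * w ∈ B) (ha' : (a ^ p * w)⁻¹ ∈ B)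
    (ha₁ : Cg 𝒪₁ lam a 1) (ha₂ : Cg 𝒪₂ lam a 1) :
    ∃ β ∈ B, β ≠ 0 ∧ β⁻¹ ∈ B ∧ ∃ j : ℕ, Cg 𝒪₁ (lam * ϖ) (a / β) 1 ∧
      Cg 𝒪₂ (lam * ϖ) (a / β) (algebraMap R F ((1 + lam) ^ j)) := by
  have hp := hU.prime
  obtain ⟨u, hu, u', hu'⟩ := hU.eq
  obtain ⟨l', hl'⟩ := hU.dvd
  have hR₁ : ∀ r : R, algebraMap R F r ∈ 𝒪₁ := fun r => hB.sat2.le₁ _ (B.algebraMap_mem r)
  have hR₂ : ∀ r : R, algebraMap R F r ∈ 𝒪₂ := fun r => hB.sat2.le₂ _ (B.algebraMap_mem r)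
  have hP0 : algebraMap R F ϖ ≠ 0 := hG₁.ne_zero
  have hL0 : algebraMap R F lam ≠ 0 := by
    obtain ⟨l, v, hv⟩ := hU.exists_pow hϖ
    rw [hv, map_mul, map_pow]
    exact mul_ne_zero (v.isUnit.map (algebraMap R F)).ne_zero (pow_ne_zero _ hP0)
  obtain ⟨hh₁, hc₁⟩ := Loc_top_branch hR₁ hp hu hl' hu' hP0 hL0 hw₁ ha₁
  obtain ⟨hh₂, hc₂⟩ := Loc_top_branch hR₂ hp hu hl' hu' hP0 hL0 hw₂ ha₂
  have hhB : (a ^ p * w - 1) / algebraMap R F (lam ^ p) ∈ B :=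
    SatChart2_sat_of hϖ hB.sat2 (pow_ne_zero p hU.ne_zero) (B.sub_mem ha B.one_mem) hh₁ hh₂
  obtain ⟨b, hb, j, hb₁, hb₂⟩ := hB.liftAS _ _ ha₁ ha₂ hhB hc₁ hc₂
  have hβe : 1 + algebraMap R F lam * b = 1 + algebraMap R F ϖ * (algebraMap R F l' * b) := by
    rw [hl', map_mul, mul_assoc]
  have hβi : (1 + algebraMap R F lam * b)⁻¹ ∈ B := by
    rw [hβe]
    exact hB.jac _ (B.mul_mem (B.algebraMap_mem l') hb)
  have hβ0 : 1 + algebraMap R F lam * b ≠ 0 := by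
    intro h0
    apply hG₁.inv_not_mem
    have h1 : (algebraMap R F ϖ)⁻¹ = -(algebraMap R F l' * b) := by
      rw [hβe] at h0
      apply inv_eq_of_mul_eq_one_right
      linear_combination -h0
    rw [h1]
    exact neg_mem (hB.sat2.le₁ _ (B.mul_mem (B.algebraMap_mem l') hb))
  refine ⟨1 + algebraMap R F lam * b, B.add_mem B.one_mem (B.mul_mem (B.algebraMap_mem lam) hb),
    hβ0, hβi, j, ?_, ?_⟩
  · have h := Loc_top_final hR₁ hl' hP0 hL0 0 (hB.sat2.le₁ _ hb) hβ0 (hB.sat2.le₁ _ hβi)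
      (by rw [Nat.cast_zero, add_zero]; exact hb₁)
    rwa [pow_zero, map_one] at h
  · exact Loc_top_final hR₂ hl' hP0 hL0 j (hB.sat2.le₂ _ hb) hβ0 (hB.sat2.le₂ _ hβi) hb₂

/-- THE LOCAL NORMALISATION. -/
theorem PLoc.normalize (hϖ : Irreducible ϖ) (hG₁ : GaussRing ϖ 𝒪₁) (hG₂ : GaussRing ϖ 𝒪₂)
    {p : ℕ} {lam : R} (hU : PUnif ϖ p lam) (hB : PLoc ϖ p 𝒪₁ 𝒪₂ B) {w a : F}
    (hw₁ : Cg 𝒪₁ (lam ^ p * ϖ) w 1) (hw₂ : Cg 𝒪₂ (lam ^ p * ϖ) w 1)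
    (ha : a ^ p * w ∈ B) (ha' : (a ^ p * w)⁻¹ ∈ B) (h0 : a ^ p * w ≠ 0) :
    ∃ a' : F, a' ^ p * w ∈ B ∧ (a' ^ p * w)⁻¹ ∈ B ∧ ∃ j : ℕ, Cg 𝒪₁ (lam * ϖ) a' 1 ∧
      Cg 𝒪₂ (lam * ϖ) a' (algebraMap R F ((1 + lam) ^ j)) := by
  obtain ⟨β₁, hβ₁, hβ₁0, hβ₁', h₁, h₂⟩ := hB.reach hϖ hG₁ hG₂ hU hw₁ hw₂ ha ha' h0
  obtain ⟨hb, hb', hb0⟩ := Loc_div_unit ha ha' h0 hβ₁ hβ₁0 hβ₁'
  obtain ⟨β₂, hβ₂, hβ₂0, hβ₂', j, k₁, k₂⟩ := hB.top hϖ hG₁ hG₂ hU hw₁ hw₂ hb hb' h₁ h₂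
  obtain ⟨hc, hc', -⟩ := Loc_div_unit hb hb' hb0 hβ₂ hβ₂0 hβ₂'
  exact ⟨a / β₁ / β₂, hc, hc', j, k₁, k₂⟩

end Fermat.Agent.LP
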