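import Fermat.Agent.LP.Nod.Main

/-!
# LP-NOD, file `NodeP`: NODE-p in the form wanted by LP-PL

`w ≡ 1` modulo `lam ^ p ϖ` on both components, `p ∣ div w`.  For every closed point `𝔪` of the special
fibre of a nodal chart `C` there is `a ≠ 0` with `a ^ p w = 1 + lam ^ p ϖ h`, `h ∈ C_𝔪`.
-/

set_option autoImplicit false

namespace Fermat.Agent.LP

open Fermat.Agent.GR.E Fermat.Agent.GS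

variable {R : Type*} [CommRing R] [IsDomain R] [IsDiscreteValuationRing R]
variable {F : Type*} [Field F] [Algebra R F]
variable {ϖ : R} {𝒪₁ 𝒪₂ : ValuationSubring F}

/-- `a ≡ ζ ^ j` modulo `lam ϖ` implies `a ^ p ≡ 1` modulo `lam ^ p ϖ` (`ζ = 1 + lam`, `ζ ^ p = 1`). -/
theorem NodeP_pow_cg {𝒪 : ValuationSubring F} (hϖ : Irreducible ϖ) (hG : GaussRing ϖ 𝒪)
    (hR : ∀ r : R, algebraMap R F r ∈ 𝒪) {p : ℕ} {lam : R} (hU : PUnif ϖ p lam)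
    (hζ : (1 + lam) ^ p = 1) {a : F} {j : ℕ}
    (ha : Cg 𝒪 (lam * ϖ) a (algebraMap R F ((1 + lam) ^ j))) : Cg 𝒪 (lam ^ p * ϖ) (a ^ p) 1 := by
  set z : F := algebraMap R F ((1 + lam) ^ j) with hz
  have hzp : z ^ p = 1 := by
    rw [hz, ← map_pow, ← pow_mul, mul_comm, pow_mul, hζ, one_pow, map_one]
  have hp0 : p ≠ 0 := hU.prime.ne_zero
  have hz0 : z ≠ 0 := by
    intro h0
    rw [h0, zero_pow hp0] at hzp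
    exact zero_ne_one hzp
  have hzinv : z⁻¹ ∈ 𝒪 := by
    have : z⁻¹ = z ^ (p - 1) := by
      rw [eq_comm, ← mul_right_inj' hz0, mul_inv_cancel₀ hz0, ← pow_succ',
        Nat.sub_add_cancel hU.prime.one_le, hzp]
    rw [this]
    exact pow_mem (hR _) _
  have h1 : Cg 𝒪 (lam * ϖ) (a / z) 1 := ha.div_of_unit hzinv hz0
  have h2 := One_pow_cg hϖ hR hU h1
  rwa [div_pow, hzp, div_one] at h2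

theorem nodeP_of_ploc (hϖ : Irreducible ϖ) (hG₁ : GaussRing ϖ 𝒪₁) (hG₂ : GaussRing ϖ 𝒪₂)
    {p : ℕ} {lam : R} (hU : PUnif ϖ p lam) (hζ : (1 + lam) ^ p = 1) {B : Subalgebra R F}
    (hB : PLoc ϖ p 𝒪₁ 𝒪₂ B) {w a : F}
    (hw₁ : Cg 𝒪₁ (lam ^ p * ϖ) w 1) (hw₂ : Cg 𝒪₂ (lam ^ p * ϖ) w 1)
    (ha : a ^ p * w ∈ B) (ha' : (a ^ p * w)⁻¹ ∈ B) (h0 : a ^ p * w ≠ 0) :
    ∃ a' : F, a' ≠ 0 ∧ (a' ^ p * w - 1) / algebraMap R F (lam ^ p * ϖ) ∈ B := by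
  have hR₁ : ∀ r : R, algebraMap R F r ∈ 𝒪₁ := fun r => hB.sat2.le₁ _ (B.algebraMap_mem r)
  have hR₂ : ∀ r : R, algebraMap R F r ∈ 𝒪₂ := fun r => hB.sat2.le₂ _ (B.algebraMap_mem r)
  have hc0 : lam ^ p * ϖ ≠ 0 := mul_ne_zero (pow_ne_zero _ hU.ne_zero) hϖ.ne_zero
  obtain ⟨a', h1, -, j, hj₁, hj₂⟩ := hB.normalize hϖ hG₁ hG₂ hU hw₁ hw₂ ha ha' h0
  have hj₁' : Cg 𝒪₁ (lam * ϖ) a' (algebraMap R F ((1 + lam) ^ 0)) := by simpa using hj₁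
  have e₁ := NodeP_pow_cg hϖ hG₁ hR₁ hU hζ hj₁'
  have e₂ := NodeP_pow_cg hϖ hG₂ hR₂ hU hζ hj₂
  have hw₁m : w ∈ 𝒪₁ := hw₁.mem hR₁ (Cg_algebraMap_ne_zero hϖ hG₁ hc0) 𝒪₁.one_mem
  have hw₂m : w ∈ 𝒪₂ := hw₂.mem hR₂ (Cg_algebraMap_ne_zero hϖ hG₂ hc0) 𝒪₂.one_mem
  have f₁ : Cg 𝒪₁ (lam ^ p * ϖ) (a' ^ p * w) 1 := by
    have := e₁.mul hw₁ hw₁m 𝒪₁.one_mem
    rwa [one_mul] at this
  have f₂ : Cg 𝒪₂ (lam ^ p * ϖ) (a' ^ p * w) 1 := by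
    have := e₂.mul hw₂ hw₂m 𝒪₂.one_mem
    rwa [one_mul] at this
  refine ⟨a', ?_, SatChart2_sat_of hϖ hB.sat2 hc0 (B.sub_mem h1 B.one_mem) f₁ f₂⟩
  rintro rfl
  have := (hj₁.unit_of_one hG₁ hR₁ (Dvd.intro_left lam rfl)
    (mul_ne_zero hU.ne_zero hϖ.ne_zero)).2.2
  exact this rfl

/-- NODE-p at every closed point of the special fibre of a nodal chart. -/
theorem nodeP (hϖ : Irreducible ϖ) (hG₁ : GaussRing ϖ 𝒪₁) (hG₂ : GaussRing ϖ 𝒪₂)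
    {C : Subalgebra R F} (hC : NodalChart ϖ 𝒪₁ 𝒪₂ C) {p : ℕ} {lam : R} (hU : PUnif ϖ p lam)
    (hζ : (1 + lam) ^ p = 1) {w : F}
    (hw₁ : Cg 𝒪₁ (lam ^ p * ϖ) w 1) (hw₂ : Cg 𝒪₂ (lam ^ p * ϖ) w 1)
    (hdiv : DivisibleAtPlaces R p w) (hcert : CertAt ϖ C p w)
    (𝔪 : Ideal C) [𝔪.IsPrime] (h𝔪 : 𝔪.IsMaximal) (hϖ𝔪 : algebraMap R C ϖ ∈ 𝔪) :
    ∃ a : F, a ≠ 0 ∧ (a ^ p * w - 1) / algebraMap R F (lam ^ p * ϖ) ∈ locAt C 𝔪 := by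
  have hR₁ : ∀ r : R, algebraMap R F r ∈ 𝒪₁ := fun r => hC.le₁ _ (C.algebraMap_mem r)
  have hR₂ : ∀ r : R, algebraMap R F r ∈ 𝒪₂ := fun r => hC.le₂ _ (C.algebraMap_mem r)
  have hc0 : lam ^ p * ϖ ≠ 0 := mul_ne_zero (pow_ne_zero _ hU.ne_zero) hϖ.ne_zero
  have hd : ϖ ∣ lam ^ p * ϖ := Dvd.intro_left _ rfl
  have hw₁ϖ : (w - 1) / algebraMap R F ϖ ∈ 𝒪₁ :=
    Cg.of_dvd hR₁ hd (Cg_algebraMap_ne_zero hϖ hG₁ hc0) hw₁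
  have hw₂ϖ : (w - 1) / algebraMap R F ϖ ∈ 𝒪₂ :=
    Cg.of_dvd hR₂ hd (Cg_algebraMap_ne_zero hϖ hG₂ hc0) hw₂
  obtain ⟨a, haC, ham⟩ := exists_unit_at hϖ hG₁ hG₂ hC hU.prime.pos hw₁ϖ hw₂ϖ hdiv hcert 𝔪 h𝔪 hϖ𝔪
  obtain ⟨e1, e2⟩ := Glue_unit_locAt 𝔪 ⟨haC, ham⟩
  have hε0 : a ^ p * w ≠ 0 := by
    intro h0
    exact ham (by
      have : (⟨a ^ p * w, haC⟩ : C) = 0 := Subtype.ext h0
      rw [this]; exact 𝔪.zero_mem)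
  have hpϖ : ϖ ∣ (p : R) := by
    obtain ⟨u, hu1, -⟩ := hU.eq
    rw [hu1]
    have h1 : p - 1 ≠ 0 := by
      have := hU.prime.two_le
      omega
    exact (Dvd.dvd.mul_right (dvd_pow hU.dvd h1) u).neg_right
  by_cases h₁ : vert ϖ 𝒪₁ C ≤ 𝔪
  · by_cases h₂ : vert ϖ 𝒪₂ C ≤ 𝔪
    · have hNL : NodeLoc ϖ 𝒪₁ 𝒪₂ (locAt C 𝔪) :=
        ⟨hG₁, hG₂, locAt_nodalChart hϖ hG₁ hG₂ hC 𝔪 h𝔪 h₁ h₂,
          locAt_nonunit hϖ hG₁ hG₂ hC 𝔪 h𝔪 h₁ h₂, locAt_ne_one hG₁ hG₂ hC 𝔪 h₁ h₂⟩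
      exact nodeP_of_ploc hϖ hG₁ hG₂ hU hζ (ploc_of_nodeLoc hϖ hNL hU.prime hpϖ) hw₁ hw₂ e1 e2 hε0
    · have hBg := locAt_goodChart hϖ hG₁ hG₂ hC 𝔪 h𝔪 h₁ h₂
      exact nodeP_of_ploc hϖ hG₁ hG₁ hU hζ
        (ploc_of_good hG₁ hBg (jac_locAt 𝔪 hϖ𝔪) hU.prime.two_le) hw₁ hw₁ e1 e2 hε0
  · have h₂ : vert ϖ 𝒪₂ C ≤ 𝔪 :=
      (vert_le_or_vert_le hG₁ hC.toSatChart2 𝔪 hϖ𝔪).resolve_left h₁
    have hBg := locAt_goodChart hϖ hG₂ hG₁ hC.symm 𝔪 h𝔪 h₂ h₁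
    exact nodeP_of_ploc hϖ hG₂ hG₂ hU hζ
      (ploc_of_good hG₂ hBg (jac_locAt 𝔪 hϖ𝔪) hU.prime.two_le) hw₂ hw₂ e1 e2 hε0

end Fermat.Agent.LP
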