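import Fermat.Agent.LP.Nod.Cg
import Fermat.Agent.LP.Nod.Poly
import Fermat.Agent.GR.E.Root

/-!
# LP-NOD, file `One`: from local gluing to a global section `≡ 1`, and Newton's method at `p`

Adaptation of `GS/Abs/One.lean` (`OneIdeal`, `exists_one`, `exists_one_pow`).

* `exists_oneP`.  `J = {e ∈ C : ∃ b ∈ rootSet C n w, b ≡ e mod c on both components}` is an ideal of
  `C` (`rootSet_add` (uses `hC.closed`), `rootSet_mul`, `Cg.add`, `Cg.mul_left`), it contains `c`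
  (`b = 0`).  If `J ≠ ⊤` it lies in a maximal ideal `𝔪`; `c = v ϖ^k ∈ 𝔪` gives `ϖ ∈ 𝔪`
  (`k = 0` is impossible), and `hg 𝔪` gives `e ∈ J`, `e ∉ 𝔪`.
* `exists_one_powP`.  Take `b` from `exists_oneP` (`c = lam * ϖ`), `b = 1 + lam t`, `t ∈ ϖ 𝒪ᵢ`.
  By `Poly_as` (in the ring `𝒪ᵢ`) `b ^ p ≡ 1` modulo `lam ^ p ϖ`, hence `t₀ := b ^ p w ≡ 1` modulo
  `lam ^ p ϖ` on both components, `t₀ ∈ C`, so `(t₀ - 1) / (lam ^ p ϖ) ∈ C` (`SatChart2_sat_of`).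
  Now `Poly_newton` in the ring `C` gives `s ∈ C`; `a = s b`.
-/

set_option autoImplicit false

namespace Fermat.Agent.LP

open Fermat.Agent.GR.E Fermat.Agent.GS

variable {R : Type*} [CommRing R] [IsDomain R] [IsDiscreteValuationRing R]
variable {F : Type*} [Field F] [Algebra R F]
variable {ϖ : R} {𝒪₁ 𝒪₂ : ValuationSubring F}

/-- the ideal `J` of reductions modulo `c` of elements of `I(C)` -/
def One_ideal (c : R) {C : Subalgebra R F} (hC : SatChart2 ϖ 𝒪₁ 𝒪₂ C) {n : ℕ} (hn : 0 < n)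
    (w : F) : Ideal C where
  carrier := {e | ∃ b ∈ rootSet C n w, Cg 𝒪₁ c b (e : F) ∧ Cg 𝒪₂ c b (e : F)}
  zero_mem' := ⟨0, by
    show (0 : F) ^ n * w ∈ C
    rw [zero_pow hn.ne', zero_mul]
    exact C.zero_mem, Cg.refl _, Cg.refl _⟩
  add_mem' := by
    rintro e e' ⟨a, ha, h₁, h₂⟩ ⟨a', ha', h₁', h₂'⟩
    exact ⟨a + a', rootSet_add hC.closed hn ha ha', h₁.add h₁', h₂.add h₂'⟩
  smul_mem' := by
    rintro d e ⟨a, ha, h₁, h₂⟩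
    exact ⟨(d : F) * a, rootSet_mul d.2 ha, h₁.mul_left (hC.le₁ _ d.2), h₂.mul_left (hC.le₂ _ d.2)⟩

theorem One_algebraMap_ne_zero {𝒪 : ValuationSubring F} (hϖ : Irreducible ϖ) (hG : GaussRing ϖ 𝒪)
    {c : R} (hc : c ≠ 0) : algebraMap R F c ≠ 0 := by
  obtain ⟨k, v, rfl⟩ := Cg_exists_pow hϖ hc
  rw [map_mul, map_pow]
  exact mul_ne_zero (v.isUnit.map (algebraMap R F)).ne_zero (pow_ne_zero _ hG.ne_zero)

theorem exists_oneP (hϖ : Irreducible ϖ) {C : Subalgebra R F} (hC : SatChart2 ϖ 𝒪₁ 𝒪₂ C)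
    {n : ℕ} (hn : 0 < n) {w : F} {c : R} (hc : c ≠ 0)
    (hg : ∀ 𝔪 : Ideal C, 𝔪.IsMaximal → algebraMap R C ϖ ∈ 𝔪 → GlueAtP 𝒪₁ 𝒪₂ c C n w 𝔪) :
    ∃ b ∈ rootSet C n w, Cg 𝒪₁ c b 1 ∧ Cg 𝒪₂ c b 1 := by
  set J := One_ideal c hC hn w with hJ
  by_cases hJtop : J = ⊤
  · have h1 : (1 : C) ∈ J := by rw [hJtop]; trivial
    obtain ⟨a, ha, ha1, ha2⟩ := h1
    exact ⟨a, ha, ha1, ha2⟩
  exfalso
  obtain ⟨𝔪, h𝔪, hJ𝔪⟩ := Ideal.exists_le_maximal J hJtop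
  have hR₁ : ∀ r : R, algebraMap R F r ∈ 𝒪₁ := fun r => hC.le₁ _ (C.algebraMap_mem r)
  have hR₂ : ∀ r : R, algebraMap R F r ∈ 𝒪₂ := fun r => hC.le₂ _ (C.algebraMap_mem r)
  have hcJ : algebraMap R C c ∈ J := by
    refine ⟨0, ?_, ?_, ?_⟩
    · show (0 : F) ^ n * w ∈ C
      rw [zero_pow hn.ne', zero_mul]
      exact C.zero_mem
    · have h := (cg_mul_self (c := c) hR₁ 𝒪₁.one_mem).symm
      rw [mul_one] at h
      exact h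
    · have h := (cg_mul_self (c := c) hR₂ 𝒪₂.one_mem).symm
      rw [mul_one] at h
      exact h
  have hϖ𝔪 : algebraMap R C ϖ ∈ 𝔪 := by
    obtain ⟨k, v, hv⟩ := Cg_exists_pow hϖ hc
    have h1 : algebraMap R C c ∈ 𝔪 := hJ𝔪 hcJ
    rw [hv, map_mul, map_pow] at h1
    have h2 : algebraMap R C ϖ ^ k ∈ 𝔪 :=
      (h𝔪.isPrime.mem_or_mem h1).resolve_left fun h =>
        h𝔪.ne_top (Ideal.eq_top_of_isUnit_mem _ h (v.isUnit.map (algebraMap R C)))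
    exact h𝔪.isPrime.mem_of_pow_mem k h2
  obtain ⟨b, hb, e, he, h₁, h₂⟩ := hg 𝔪 h𝔪 hϖ𝔪
  exact he (hJ𝔪 ⟨b, hb, h₁, h₂⟩)

/-- `b ≡ 1` modulo `lam ϖ` implies `b ^ p ≡ 1` modulo `lam ^ p ϖ`. -/
theorem One_pow_cg {𝒪 : ValuationSubring F} (hϖ : Irreducible ϖ)
    (hR : ∀ r : R, algebraMap R F r ∈ 𝒪) {p : ℕ} {lam : R} (hU : PUnif ϖ p lam) {b : F}
    (hb : Cg 𝒪 (lam * ϖ) b 1) : Cg 𝒪 (lam ^ p * ϖ) (b ^ p) 1 := by
  have hp := hU.prime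
  by_cases h0 : algebraMap R F (lam * ϖ) = 0
  · have h0' : algebraMap R F (lam ^ p * ϖ) = 0 := by
      obtain ⟨k, hk⟩ : ∃ k, p = k + 1 := ⟨p - 1, by have := hp.pos; omega⟩
      rw [hk, pow_succ, mul_assoc, map_mul, h0, mul_zero]
    unfold Cg
    rw [h0', div_zero]
    exact 𝒪.zero_mem
  obtain ⟨u, hu, -⟩ := hU.eq
  have hl0 : algebraMap R F lam ≠ 0 := by
    intro h
    apply h0
    rw [map_mul, h, zero_mul]
  have hw0 : algebraMap R F ϖ ≠ 0 := by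
    intro h
    apply h0
    rw [map_mul, h, mul_zero]
  set s : F := (b - 1) / algebraMap R F (lam * ϖ) with hs
  have hs𝒪 : s ∈ 𝒪 := hb
  have hbs : b = 1 + algebraMap R F lam * (algebraMap R F ϖ * s) := by
    rw [hs, map_mul]
    field_simp
    ring
  let lam' : 𝒪 := ⟨algebraMap R F lam, hR lam⟩
  let u' : 𝒪 := ⟨algebraMap R F u, hR u⟩
  let t' : 𝒪 := ⟨algebraMap R F ϖ * s, 𝒪.mul_mem _ _ (hR ϖ) hs𝒪⟩
  have hpu : ((p : ℕ) : 𝒪) = -(lam' ^ (p - 1) * u') := by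
    apply Subtype.ext
    have := congrArg (algebraMap R F) hu
    rw [map_natCast, map_neg, map_mul, map_pow] at this
    push_cast
    exact this
  obtain ⟨g, hg⟩ := Poly_as hp hpu t'
  have hg' : (1 + algebraMap R F lam * (algebraMap R F ϖ * s)) ^ p =
      1 + algebraMap R F lam ^ p * ((algebraMap R F ϖ * s) ^ p - algebraMap R F u *
        (algebraMap R F ϖ * s) - algebraMap R F u * algebraMap R F lam *
        (algebraMap R F ϖ * s) ^ 2 * (g : F)) := congrArg Subtype.val hg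
  obtain ⟨k, hk⟩ : ∃ k, p = k + 1 := ⟨p - 1, by have := hp.pos; omega⟩
  have key : (b ^ p - 1) / algebraMap R F (lam ^ p * ϖ) =
      algebraMap R F ϖ ^ k * s ^ p - algebraMap R F u * s -
        algebraMap R F u * algebraMap R F lam * algebraMap R F ϖ * s ^ 2 * (g : F) := by
    rw [hbs, hg', map_mul, map_pow, mul_pow (algebraMap R F ϖ) s p]
    have : algebraMap R F ϖ ^ p = algebraMap R F ϖ ^ k * algebraMap R F ϖ := by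
      rw [hk, pow_succ]
    rw [this]
    field_simp
    ring
  unfold Cg
  rw [key]
  refine 𝒪.sub_mem (𝒪.sub_mem ?_ ?_) ?_
  · exact 𝒪.mul_mem _ _ (𝒪.pow_mem (hR ϖ) _) (𝒪.pow_mem hs𝒪 _)
  · exact 𝒪.mul_mem _ _ (hR u) hs𝒪
  · exact 𝒪.mul_mem _ _ (𝒪.mul_mem _ _ (𝒪.mul_mem _ _ (𝒪.mul_mem _ _ (hR u) (hR lam)) (hR ϖ))
      (𝒪.pow_mem hs𝒪 _)) g.2

theorem exists_one_powP (hϖ : Irreducible ϖ) (hG₁ : GaussRing ϖ 𝒪₁) (hG₂ : GaussRing ϖ 𝒪₂)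
    {C : Subalgebra R F} (hC : SatChart2 ϖ 𝒪₁ 𝒪₂ C) {p : ℕ} {lam : R} (hU : PUnif ϖ p lam) {w : F}
    (hw₁ : Cg 𝒪₁ (lam ^ p * ϖ) w 1) (hw₂ : Cg 𝒪₂ (lam ^ p * ϖ) w 1)
    (hg : ∀ 𝔪 : Ideal C, 𝔪.IsMaximal → algebraMap R C ϖ ∈ 𝔪 →
      GlueAtP 𝒪₁ 𝒪₂ (lam * ϖ) C p w 𝔪) (m : ℕ) :
    ∃ a ∈ rootSet C p w, Cg 𝒪₁ (lam * ϖ) a 1 ∧ Cg 𝒪₂ (lam * ϖ) a 1 ∧
      (a ^ p * w - 1) / algebraMap R F (lam ^ p * ϖ ^ (m + 1)) ∈ C := by
  have hp := hU.prime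
  have hR₁ : ∀ r : R, algebraMap R F r ∈ 𝒪₁ := fun r => hC.le₁ _ (C.algebraMap_mem r)
  have hR₂ : ∀ r : R, algebraMap R F r ∈ 𝒪₂ := fun r => hC.le₂ _ (C.algebraMap_mem r)
  have hc1 : lam * ϖ ≠ 0 := mul_ne_zero hU.ne_zero hϖ.ne_zero
  have hc2 : lam ^ p * ϖ ≠ 0 := mul_ne_zero (pow_ne_zero _ hU.ne_zero) hϖ.ne_zero
  have hc3 : lam ^ p * ϖ ^ (m + 1) ≠ 0 :=
    mul_ne_zero (pow_ne_zero _ hU.ne_zero) (pow_ne_zero _ hϖ.ne_zero)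
  have hF1 := One_algebraMap_ne_zero hϖ hG₁ hc1
  have hF2 := One_algebraMap_ne_zero hϖ hG₁ hc2
  have hF3 := One_algebraMap_ne_zero hϖ hG₁ hc3
  obtain ⟨b, hb, hb1, hb2⟩ := exists_oneP hϖ hC hp.pos hc1 hg
  set t : C := ⟨b ^ p * w, hb⟩ with ht
  have ht₁ : Cg 𝒪₁ (lam ^ p * ϖ) (b ^ p * w) 1 := by
    have h := (One_pow_cg hϖ hR₁ hU hb1).mul hw₁ (hw₁.mem hR₁ hF2 𝒪₁.one_mem) 𝒪₁.one_mem
    rwa [one_mul] at h
  have ht₂ : Cg 𝒪₂ (lam ^ p * ϖ) (b ^ p * w) 1 := by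
    have h := (One_pow_cg hϖ hR₂ hU hb2).mul hw₂ (hw₂.mem hR₂ hF2 𝒪₂.one_mem) 𝒪₂.one_mem
    rwa [one_mul] at h
  have ht1 : algebraMap R C lam ^ p * algebraMap R C ϖ ∣ t - 1 := by
    have hmem : ((t - 1 : C) : F) / algebraMap R F (lam ^ p * ϖ) ∈ C :=
      SatChart2_sat_of hϖ hC hc2 (t - 1 : C).2 ht₁ ht₂
    refine ⟨⟨_, hmem⟩, Subtype.ext ?_⟩
    show ((t - 1 : C) : F) = algebraMap R F lam ^ p * algebraMap R F ϖ *
      (((t - 1 : C) : F) / algebraMap R F (lam ^ p * ϖ))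
    rw [← map_pow, ← map_mul]
    field_simp
  obtain ⟨u, hu, -⟩ := hU.exists_unit hϖ
  have hpu : ((p : ℕ) : C) = -(algebraMap R C lam ^ (p - 1) * algebraMap R C (u : R)) := by
    have := congrArg (algebraMap R C) hu
    rwa [map_natCast, map_neg, map_mul, map_pow] at this
  obtain ⟨s, hs1, hsm⟩ := Poly_newton hp (u.isUnit.map (algebraMap R C)) hpu t ht1 m
  have hs1' : ((s : F) - 1) / algebraMap R F (lam * ϖ) ∈ C := by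
    obtain ⟨y, hy⟩ := hs1
    have hy' : (s : F) - 1 = algebraMap R F lam * algebraMap R F ϖ * (y : F) :=
      congrArg Subtype.val hy
    rw [hy', ← map_mul, mul_div_cancel_left₀ _ hF1]
    exact y.2
  refine ⟨(s : F) * b, rootSet_mul s.2 hb, ?_, ?_, ?_⟩
  · have h := Cg.mul (𝒪 := 𝒪₁) (c := lam * ϖ) (x := (s : F)) (y := 1) (hC.le₁ _ hs1') hb1
      (hb1.mem hR₁ hF1 𝒪₁.one_mem) 𝒪₁.one_mem
    rwa [one_mul] at h
  · have h := Cg.mul (𝒪 := 𝒪₂) (c := lam * ϖ) (x := (s : F)) (y := 1) (hC.le₂ _ hs1') hb2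
      (hb2.mem hR₂ hF1 𝒪₂.one_mem) 𝒪₂.one_mem
    rwa [one_mul] at h
  · obtain ⟨y, hy⟩ := hsm
    have hy' : ((s : F) * b) ^ p * w - 1 =
        algebraMap R F lam ^ p * algebraMap R F ϖ ^ (m + 1) * (y : F) := by
      have := congrArg Subtype.val hy
      rw [mul_pow, mul_assoc]
      exact this
    rw [hy', ← map_pow, ← map_pow, ← map_mul, mul_div_cancel_left₀ _ hF3]
    exact y.2

end Fermat.Agent.LP
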